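/-
CAR-1 (task 323): the inertia field `K0 = ℚ̄^I` of a valuation subring `A` of `ℚ̄` over a prime
`q`, and its valuation ring `W0 = A ∩ K0` — the row's literal forms, on top of

* `K0/Basic.lean` (helper38): `inertiaField A`, `W A`, unramifiedness, `W` is a discrete valuation
  ring with uniformiser `q`, same residue field;
* `K0/Gal.lean`: `Gal(ℚ̄/K0) = I`, lifting of `K0`-embeddings to the inertia group.

`K0 A` and `W0 A` are reducible abbreviations of `inertiaField A` and `W A`, so every lemma of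
`K0/Basic.lean` applies to them verbatim.

* `exists_pow_mul_unit` : every nonzero `x ∈ K0` is `q ^ n · unit` (UNRAMIFIED);
* `isDiscreteValuationRing_W0`, `irreducible_natCast_W0`, `maximalIdeal_W0_eq_span`,
  `liesOverPrime_W0`, `hrank_W0` (rank one, in the shape of `BAD.TwoVal.BadSetup.hrank`);
* `residue_surjective`, `resW0`, `resW0_surjective`, `resW0_eq_zero_iff` : `W0` has the residue
  field of `A` (`resW0 A : W0 A →+* IsLocalRing.ResidueField A` is onto and kills exactly the
  non-units);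
* `exists_mem_inertia_of_finite'`, `exists_mem_inertia_of_algHom'` : `Gal(E/K0)` is the image of
  the inertia group.
-/
import Mathlib
import Fermat.Agent.CAR.K0.Basic
import Fermat.Agent.CAR.K0.Gal
import Fermat.Agent.PT.G.KumDVR

set_option autoImplicit false
set_option linter.style.haveILetI false
set_option linter.unusedSectionVars false
set_option linter.dupNamespace false

namespace Fermat.Agent.CAR.K0

local notation "Qb" => AlgebraicClosure ℚ
local notation "GQ" => (AlgebraicClosure ℚ ≃ₐ[ℚ] AlgebraicClosure ℚ)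

/-- The inertia field `K0 = ℚ̄^I` of a valuation subring `A` of `ℚ̄` (= `inertiaField A`). -/
noncomputable abbrev K0 (A : ValuationSubring Qb) : IntermediateField ℚ Qb := inertiaField A

theorem K0_def (A : ValuationSubring Qb) :
    K0 A = IntermediateField.fixedField (A.inertiaSubgroupIn ℚ) := rfl

theorem mem_K0_iff (A : ValuationSubring Qb) (x : Qb) :
    x ∈ K0 A ↔ ∀ σ ∈ A.inertiaSubgroupIn ℚ, σ x = x :=
  mem_inertiaField_iff A x

/-- `σ ∈ I` iff `σ` fixes `K0` pointwise. -/
theorem mem_inertia_iff_forall_K0 (A : ValuationSubring Qb) (σ : GQ) :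
    σ ∈ A.inertiaSubgroupIn ℚ ↔ ∀ x ∈ K0 A, σ x = x :=
  mem_inertia_iff_forall_fixed A σ

/-- The valuation ring `W0 = A ∩ K0` of the inertia field (= `W A`). -/
noncomputable abbrev W0 (A : ValuationSubring Qb) : ValuationSubring (K0 A) := W A

theorem mem_W0_iff (A : ValuationSubring Qb) (x : K0 A) : x ∈ W0 A ↔ (x : Qb) ∈ A := Iff.rfl

/-- Units of `W0` via the valuation of `A`. -/
theorem isUnit_W0_iff (A : ValuationSubring Qb) (x : W0 A) :
    IsUnit x ↔ A.valuation (algebraMap (K0 A) Qb (x : K0 A)) = 1 :=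
  Fermat.Agent.PT.Kummer.isUnit_comap_iff A x

/-- Divisibility in `W0` via the valuation of `A`. -/
theorem dvd_W0_of_valuation_le (A : ValuationSubring Qb) (a b : W0 A) (ha : a ≠ 0)
    (h : A.valuation (algebraMap (K0 A) Qb (b : K0 A))
      ≤ A.valuation (algebraMap (K0 A) Qb (a : K0 A))) : a ∣ b :=
  Fermat.Agent.PT.Kummer.dvd_comap_of_valuation_le A a b ha h

section Unramified

variable {q : ℕ} (hq : q.Prime) {A : ValuationSubring Qb} (hA : A.LiesOverPrime q)

include hq hA

/-- Nonzero elements of `K0` have the valuation of a power of `q`. -/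
theorem exists_zpow_valuation_eq (x : K0 A) (hx : x ≠ 0) :
    ∃ n : ℤ, A.valuation (x : Qb) = A.valuation ((q : Qb) ^ n) :=
  exists_zpow_valuation_eq_of_mem_inertiaField hq A hA x.2 fun h => hx (Subtype.ext h)

/-- **`K0` is unramified over `q`**: every nonzero element of `K0` is a power of `q` times a unit
of `W0`. -/
theorem exists_pow_mul_unit (x : K0 A) (hx : x ≠ 0) :
    ∃ (n : ℤ) (u : K0 A), u ∈ W0 A ∧ u⁻¹ ∈ W0 A ∧ x = (q : K0 A) ^ n * u := by
  obtain ⟨n, hn⟩ := exists_zpow_valuation_eq hq hA x hx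
  have hq0 : (q : K0 A) ≠ 0 := Nat.cast_ne_zero.mpr hq.ne_zero
  have hq0' : (q : Qb) ≠ 0 := Nat.cast_ne_zero.mpr hq.ne_zero
  have hcoe : ((x / (q : K0 A) ^ n : K0 A) : Qb) = (x : Qb) / (q : Qb) ^ n := by
    push_cast
    rfl
  have hv : A.valuation ((x / (q : K0 A) ^ n : K0 A) : Qb) = 1 := by
    rw [hcoe, map_div₀, hn]
    exact div_self ((Valuation.ne_zero_iff _).mpr (zpow_ne_zero n hq0'))
  refine ⟨n, x / (q : K0 A) ^ n, ?_, ?_, ?_⟩
  · rw [mem_W0_iff, ← A.valuation_le_one_iff, hv]
  · rw [mem_W0_iff, ← A.valuation_le_one_iff]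
    have : (((x / (q : K0 A) ^ n)⁻¹ : K0 A) : Qb) = ((x / (q : K0 A) ^ n : K0 A) : Qb)⁻¹ := by
      push_cast
      rfl
    rw [this, map_inv₀, hv, inv_one]
  · field_simp

/-- `W0` lies over `q`. -/
theorem liesOverPrime_W0 : (W0 A).LiesOverPrime q := by
  have hvq : A.valuation (q : Qb) < 1 := A.mem_nonunits_iff.mp hA
  show (q : K0 A) ∈ (W0 A).nonunits
  rw [Fermat.Agent.PT.Levels.mem_nonunits_iff_inv]
  right
  rw [mem_W0_iff]
  have : (((q : K0 A)⁻¹ : K0 A) : Qb) = ((q : Qb))⁻¹ := by
    push_cast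
    rfl
  rw [this, ← A.valuation_le_one_iff, map_inv₀, not_le]
  have h0 : A.valuation (q : Qb) ≠ 0 :=
    (Valuation.ne_zero_iff _).mpr (Nat.cast_ne_zero.mpr hq.ne_zero)
  exact (one_lt_inv₀ (zero_lt_iff.mpr h0)).mpr hvq

/-- Nonzero elements of `W0` have the valuation of a natural power of `q`. -/
theorem exists_pow_valuation_eq (x : W0 A) (hx : x ≠ 0) :
    ∃ n : ℕ, A.valuation (algebraMap (K0 A) Qb (x : K0 A)) = A.valuation (q : Qb) ^ n :=
  exists_pow_valuation_eq_W hq A hA x hx

/-- `q` is irreducible in `W0`. -/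
theorem irreducible_natCast_W0 : Irreducible ((q : ℕ) : W0 A) := irreducible_natCast_W hq A hA

/-- Every nonzero element of `W0` is associated to a power of `q`. -/
theorem exists_associated_pow (x : W0 A) (hx : x ≠ 0) :
    ∃ n : ℕ, Associated (((q : ℕ) : W0 A) ^ n) x := exists_associated_pow_W hq A hA x hx

/-- **`W0` is a discrete valuation ring** (with uniformiser `q`). -/
theorem isDiscreteValuationRing_W0 : IsDiscreteValuationRing (W0 A) :=
  isDiscreteValuationRing_W hq A hA

/-- The maximal ideal of `W0` is generated by `q`. -/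
theorem maximalIdeal_W0_eq_span :
    IsLocalRing.maximalIdeal (W0 A) = Ideal.span {((q : ℕ) : W0 A)} := maximalIdeal_W hq A hA

/-- Rank one, in the shape of `BAD.TwoVal.BadSetup.hrank`: in `W0` every nonzero element divides
a power of every non-unit. -/
theorem hrank_W0 : ∀ d e : W0 A, ¬ IsUnit d → e ≠ 0 → ∃ r : ℕ, e ∣ d ^ r := by
  intro d e hd he
  have hvq : A.valuation (q : Qb) < 1 := A.mem_nonunits_iff.mp hA
  by_cases hd0 : d = 0
  · exact ⟨1, by rw [hd0, pow_one]; exact dvd_zero e⟩
  obtain ⟨i, hi⟩ := exists_pow_valuation_eq hq hA d hd0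
  obtain ⟨j, hj⟩ := exists_pow_valuation_eq hq hA e he
  have hi1 : 1 ≤ i := by
    by_contra hcon
    have hi0 : i = 0 := by omega
    apply hd
    rw [isUnit_W0_iff, hi, hi0, pow_zero]
  refine ⟨j, dvd_W0_of_valuation_le A e (d ^ j) he ?_⟩
  have hpow : algebraMap (K0 A) Qb (((d ^ j : W0 A)) : K0 A)
      = (algebraMap (K0 A) Qb (d : K0 A)) ^ j := by
    push_cast
    rfl
  rw [hpow, map_pow, hi, hj, ← pow_mul]
  exact pow_le_pow_of_le_one zero_le hvq.le (Nat.le_mul_of_pos_left j hi1)

/-- **`W0` has the residue field of `A`**: every element of `A` is congruent modulo the maximal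
ideal of `A` to an element of `W0`. -/
theorem residue_surjective (a : A) :
    ∃ w : K0 A, w ∈ W0 A ∧ (a : Qb) - algebraMap (K0 A) Qb w ∈ A.nonunits := by
  obtain ⟨w, hw⟩ := exists_W_valuation_sub_lt_one hq A hA a
  exact ⟨(w : K0 A), w.2, A.mem_nonunits_iff.mpr hw⟩

end Unramified

/-! ### The residue map of `W0` with values in the residue field of `A` -/

/-- The inclusion `W0 → A`. -/
noncomputable def inclW0 (A : ValuationSubring Qb) : W0 A →+* A where
  toFun x := ⟨algebraMap (K0 A) Qb (x : K0 A), x.2⟩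
  map_one' := Subtype.ext (by simp)
  map_mul' a b := Subtype.ext (by simp)
  map_zero' := Subtype.ext (by simp)
  map_add' a b := Subtype.ext (by simp)

theorem coe_inclW0 (A : ValuationSubring Qb) (x : W0 A) :
    ((inclW0 A x : A) : Qb) = ((x : K0 A) : Qb) := rfl

theorem inclW0_injective (A : ValuationSubring Qb) : Function.Injective (inclW0 A) := by
  intro x y h
  apply Subtype.ext
  apply Subtype.ext
  exact congrArg (fun t : A => (t : Qb)) h

/-- The residue map of `W0`, with values in the (algebraically closed) residue field of `A`. -/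
noncomputable def resW0 (A : ValuationSubring Qb) : W0 A →+* IsLocalRing.ResidueField A :=
  (IsLocalRing.residue A).comp (inclW0 A)

theorem resW0_apply (A : ValuationSubring Qb) (x : W0 A) :
    resW0 A x = IsLocalRing.residue A (inclW0 A x) := rfl

/-- The residue map of `W0` kills exactly the non-units. -/
theorem resW0_eq_zero_iff (A : ValuationSubring Qb) (x : W0 A) : resW0 A x = 0 ↔ ¬ IsUnit x := by
  rw [resW0_apply, IsLocalRing.residue_eq_zero_iff, IsLocalRing.mem_maximalIdeal, mem_nonunits_iff]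
  have h1 : IsUnit x ↔ A.valuation (algebraMap (K0 A) Qb (x : K0 A)) = 1 := isUnit_W0_iff A x
  have h2 : IsUnit (inclW0 A x) ↔ A.valuation ((inclW0 A x : A) : Qb) = 1 :=
    A.valuation_eq_one_iff _
  rw [h1, h2]
  rfl

theorem resW0_eq_zero_of_not_isUnit (A : ValuationSubring Qb) (x : W0 A) (hx : ¬ IsUnit x) :
    resW0 A x = 0 := (resW0_eq_zero_iff A x).mpr hx

/-- The residue map `W0 → A/𝔪_A` is onto. -/
theorem resW0_surjective {q : ℕ} (hq : q.Prime) {A : ValuationSubring Qb}
    (hA : A.LiesOverPrime q) : Function.Surjective (resW0 A) := by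
  intro c
  obtain ⟨a, rfl⟩ := IsLocalRing.residue_surjective c
  obtain ⟨w, hw, hsub⟩ := residue_surjective hq hA a
  refine ⟨⟨w, hw⟩, ?_⟩
  rw [resW0_apply, ← sub_eq_zero, ← map_sub, IsLocalRing.residue_eq_zero_iff]
  rw [ValuationSubring.mem_nonunits_iff_exists_mem_maximalIdeal] at hsub
  obtain ⟨hmem, hmax⟩ := hsub
  have e : inclW0 A ⟨w, hw⟩ - a = -(⟨(a : Qb) - algebraMap (K0 A) Qb w, hmem⟩ : A) := by
    apply Subtype.ext
    show algebraMap (K0 A) Qb w - (a : Qb) = -((a : Qb) - algebraMap (K0 A) Qb w)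
    ring
  rw [e]
  exact neg_mem hmax

/-- `q` vanishes in the residue field. -/
theorem resW0_natCast_eq_zero {q : ℕ} (hq : q.Prime) {A : ValuationSubring Qb}
    (hA : A.LiesOverPrime q) : (q : IsLocalRing.ResidueField A) = 0 := by
  have h := resW0_eq_zero_of_not_isUnit A ((q : ℕ) : W0 A) (irreducible_natCast_W0 hq hA).not_isUnit
  rwa [map_natCast] at h

/-! ### Galois theory over `K0` (restatements of `K0/Gal.lean` for the named field) -/

/-- Every `K0`-embedding of an intermediate field of `ℚ̄/K0` into `ℚ̄` is induced by an element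
of the inertia group. -/
theorem exists_mem_inertia_of_algHom' (A : ValuationSubring Qb)
    (E : IntermediateField (K0 A) Qb) (φ : E →ₐ[K0 A] Qb) :
    ∃ σ ∈ A.inertiaSubgroupIn ℚ, ∀ e : E, σ (e : Qb) = φ e :=
  exists_mem_inertia_of_algHom A E φ

/-- **`Gal(E/K0)` is the image of the inertia group.** -/
theorem exists_mem_inertia_of_finite' (A : ValuationSubring Qb)
    (E : IntermediateField (K0 A) Qb) (τ : E ≃ₐ[K0 A] E) :
    ∃ σ ∈ A.inertiaSubgroupIn ℚ, ∀ e : E, σ (e : Qb) = (τ e : Qb) :=
  exists_mem_inertia_of_finite A E τ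

end Fermat.Agent.CAR.K0
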