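/-
CAR (Carayol: `q² ∥ M`, inertia at `q` is not unipotent) — top-level interface.

* `TorsionNewInertia M N q p` (**CAR-CORE**, in the Prelude's language; `M = N q`, `q ∥ N`):
  two additive maps `a₁ a₂ : JZero M → JZero N` (the push-forwards `α_*`, `β_*` along the two
  degeneracy maps) commuting with the Hecke correspondences `heckeOperatorBar · ℓ`, `ℓ ∤ M`,
  such that for every place above `q` the inertia-fixed `p`-power torsion of
  `ker a₁ ∩ ker a₂` is killed by a fixed nonzero integer `c`.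
* `CarNewData p M N q D` : the same on the anemic Tate datum `D` of level `M`
  (`ker δ₁ ∩ ker δ₂` has no nonzero inertia-fixed vector).
* `TateCmpACarExists` : the geometric target for S36.
* `tateCmpACarExists_of_trunk : (K) → (E) → (∀ …, TorsionNewInertia M N q p) →
    TateCmpACarExists`   (⇒ S36 by `CAR.S36_of`, file `CAR/S36Of.lean`).
-/
import Mathlib
import Fermat.Agent.ESJ.Rep.TateLevel

set_option autoImplicit false

open scoped TensorProduct

namespace Fermat.Agent.CAR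

open ModularCurve AlgebraicCurve Fermat.Agent.ESJ Fermat.Agent.ESJ.Rep
  Fermat.Agent.ESJ.Rep.TateLevel

local notation "Qb" => AlgebraicClosure ℚ
local notation "GQ" => (AlgebraicClosure ℚ ≃ₐ[ℚ] AlgebraicClosure ℚ)

/-- **CAR-CORE on torsion levels** (`M = N q`, `q ∥ N`, `q ≠ p`): the `q`-new part of the
`p`-power torsion of `J₀(M)` has no inertia invariants at `q`, up to a bounded integer. -/
def TorsionNewInertia (M N q p : ℕ) [NeZero M] [NeZero N] : Prop :=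
  ∃ a₁ a₂ : JZero M →+ JZero N,
    (∀ ℓ : Nat.Primes, ¬ (ℓ : ℕ) ∣ M → ∀ x : JZero M,
      a₁ (heckeOperatorBar M ℓ x) = heckeOperatorBar N ℓ (a₁ x)) ∧
    (∀ ℓ : Nat.Primes, ¬ (ℓ : ℕ) ∣ M → ∀ x : JZero M,
      a₂ (heckeOperatorBar M ℓ x) = heckeOperatorBar N ℓ (a₂ x)) ∧
    ∀ A : ValuationSubring Qb, A.LiesOverPrime q → ∃ c : ℕ, c ≠ 0 ∧
      ∀ x : JZero M, (∃ n : ℕ, p ^ n • x = 0) → a₁ x = 0 → a₂ x = 0 →
        (∀ σ ∈ A.inertiaSubgroupIn ℚ, σ • x = x) → c • x = 0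

/-- The data at a prime `q` with `q² ∥ M` (`M = N q`) for an anemic Tate datum of level `M`. -/
structure CarNewData (p M N q : ℕ) [Fact p.Prime] [NeZero M] [NeZero N]
    (D : TateDatumA p M) : Type 1 where
  /-- the Tate module of level `N = M / q` -/
  Ta' : Type
  [instAddCommGroup : AddCommGroup Ta']
  [instModule : Module ℤ_[p] Ta']
  /-- its Hecke operators -/
  hecke' : Nat.Primes → Module.End ℤ_[p] Ta'
  /-- comparison data at level `N` -/
  cmp' : CmpData p N Ta' hecke'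
  /-- the degeneracy map `α_*` -/
  δ₁ : D.Ta →ₗ[ℤ_[p]] Ta'
  /-- the degeneracy map `β_*` -/
  δ₂ : D.Ta →ₗ[ℤ_[p]] Ta'
  δ₁_hecke : ∀ ℓ : Nat.Primes, ¬ (ℓ : ℕ) ∣ M → ∀ x : D.Ta, δ₁ (D.hecke ℓ x) = hecke' ℓ (δ₁ x)
  δ₂_hecke : ∀ ℓ : Nat.Primes, ¬ (ℓ : ℕ) ∣ M → ∀ x : D.Ta, δ₂ (D.hecke ℓ x) = hecke' ℓ (δ₂ x)
  /-- (CAR-CORE): the `q`-new part has no inertia invariants -/
  inertia : ∀ P : ValuationSubring Qb, P.LiesOverPrime q → ∀ x : D.Ta, δ₁ x = 0 → δ₂ x = 0 →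
    (∀ σ ∈ P.inertiaSubgroupIn ℚ, D.gal σ x = x) → x = 0

attribute [instance] CarNewData.instAddCommGroup CarNewData.instModule

/-- **The geometric target for S36**: for all `p`, `M` an anemic Tate datum of level `M` with
the data above at every prime `q ≠ p` with `q² ∥ M`. -/
def TateCmpACarExists : Prop :=
  ∀ (p M : ℕ) [Fact p.Prime] [NeZero M], ∃ D : TateDatumA p M,
    ∀ (N : ℕ) [NeZero N] (q : ℕ), q.Prime → q ≠ p → M = N * q → q ∣ N → ¬ q ^ 2 ∣ N →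
      Nonempty (CarNewData p M N q D)

variable {p M : ℕ} [Fact p.Prime] [NeZero M]

/-- **S36 transfer**: the torsion-level statement (CAR-CORE) gives the data of an anemic Tate
datum of level `M = N q` from level maps at the levels `M` and `N`. -/
theorem carNewData_of_levelMaps {N q : ℕ} [NeZero N] {D : TateDatumA p M}
    {D' : TateDatumA p N} (L : LevelMaps p M D) (L' : LevelMaps p N D')
    (C' : CmpData p N D'.Ta D'.hecke) (hM : M = N * q) (hNew : TorsionNewInertia M N q p) :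
    Nonempty (CarNewData p M N q D) := by
  obtain ⟨a₁, a₂, hh₁, hh₂, hin⟩ := hNew
  obtain ⟨δ₁, hδ₁⟩ := L.exists_lift L' a₁
  obtain ⟨δ₂, hδ₂⟩ := L.exists_lift L' a₂
  have hdvd : ∀ ℓ : Nat.Primes, ¬ (ℓ : ℕ) ∣ M → ¬ (ℓ : ℕ) ∣ N := by
    intro ℓ hℓ hd
    apply hℓ
    rw [hM]
    exact Dvd.dvd.mul_right hd q
  refine ⟨{ Ta' := D'.Ta, hecke' := D'.hecke, cmp' := C', δ₁ := δ₁, δ₂ := δ₂,
            δ₁_hecke := fun ℓ hℓ x =>
              L.lift_hecke L' a₁ δ₁ hδ₁ ℓ hℓ (hdvd ℓ hℓ) (hh₁ ℓ hℓ) x,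
            δ₂_hecke := fun ℓ hℓ x =>
              L.lift_hecke L' a₂ δ₂ hδ₂ ℓ hℓ (hdvd ℓ hℓ) (hh₂ ℓ hℓ) x,
            inertia := ?_ }⟩
  intro P hP x hx1 hx2 hfix
  obtain ⟨c, hc, hcx⟩ := hin P hP
  have h0 : (c : ℤ_[p]) • x = 0 := by
    apply L.eq_zero_of_forall
    intro n
    rw [L.map_natCast_smul]
    refine hcx (L.π n x) (L.exists_pow_nsmul n x)
      (L.map_eq_zero_of_lift L' a₁ δ₁ hδ₁ x hx1 n) (L.map_eq_zero_of_lift L' a₂ δ₂ hδ₂ x hx2 n) ?_
    intro σ hσ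
    rw [← L.gal, hfix σ hσ]
  rcases smul_eq_zero.mp h0 with h1 | h1
  · exact absurd (Nat.cast_eq_zero.mp h1) hc
  · exact h1

section Trunk

variable (hK : ∀ (N p : ℕ) [NeZero N], p.Prime → KummerCmp N p)
  (hE : ∀ (N p : ℕ) [NeZero N], p.Prime → TorsionESRelation N p)

include hK hE

/-- **S36 from the trunk and (CAR-CORE)**: `TateCmpACarExists`. -/
theorem tateCmpACarExists_of_trunk
    (hCar : ∀ (M N q p : ℕ) [NeZero M] [NeZero N], p.Prime → q.Prime → q ≠ p →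
      M = N * q → q ∣ N → ¬ q ^ 2 ∣ N → TorsionNewInertia M N q p) :
    TateCmpACarExists := by
  intro p M _ _
  obtain ⟨D, -, ⟨L⟩⟩ := exists_tateDatumA_levelMaps (hK M p Fact.out) (hE M p Fact.out)
  refine ⟨D, ?_⟩
  intro N _ q hq hqp hM hqN hq2
  obtain ⟨D', ⟨C'⟩, ⟨L'⟩⟩ := exists_tateDatumA_levelMaps (hK N p Fact.out) (hE N p Fact.out)
  exact carNewData_of_levelMaps L L' C' hM (hCar M N q p Fact.out hq hqp hM hqN hq2)

end Trunk

end Fermat.Agent.CAR
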