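import Mathlib
import Fermat.Agent.CAR.Interfaces
import Fermat.Agent.ESJ.Cong.LevelPushDvd

/-!
# CAR: `TorsionNewInertia` from the inertia clause for the concrete degeneracy push-forwards

Clauses 1, 2 of `CAR.TorsionNewInertia M N q p` (Hecke equivariance of `a₁`, `a₂`) hold for
`a₁ := levelPushAlpha N q`, `a₂ := levelPushBeta N q` (`M = N q`) for EVERY prime `q`
(`levelPushAlpha_hecke_all`, `levelPushBeta_hecke`).  So CAR-CORE is exactly the inertia clause
`NewInertiaAt N q p A` for these two maps.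
-/

set_option autoImplicit false
set_option linter.style.haveILetI false

namespace Fermat.Agent.CAR

open ModularCurve AlgebraicCurve Fermat.Agent.ESJ Fermat.Agent.ESJ.Cong

local notation "Qb" => AlgebraicClosure ℚ
local notation "GQ" => (AlgebraicClosure ℚ ≃ₐ[ℚ] AlgebraicClosure ℚ)

/-- The inertia clause of `CAR.TorsionNewInertia (N * q) N q p` at one valuation subring `A`,
for the concrete degeneracy push-forwards `levelPushAlpha N q`, `levelPushBeta N q`. -/
def NewInertiaAt (N q p : ℕ) [NeZero N] [NeZero q] (A : ValuationSubring Qb) : Prop :=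
  ∃ c : ℕ, c ≠ 0 ∧
    ∀ x : JZero (N * q), (∃ n : ℕ, p ^ n • x = 0) →
      levelPushAlpha N q x = 0 → levelPushBeta N q x = 0 →
        (∀ σ ∈ A.inertiaSubgroupIn ℚ, σ • x = x) → c • x = 0

/-- `TorsionNewInertia` from the inertia clause for the concrete push-forwards; no condition on
`q` versus `N` is needed for the two Hecke clauses. -/
theorem torsionNewInertia_of_newInertiaAt (M N q p : ℕ) [NeZero M] [NeZero N] [NeZero q]
    (hq : q.Prime) (hM : M = N * q)
    (h : ∀ A : ValuationSubring Qb, A.LiesOverPrime q → NewInertiaAt N q p A) :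
    TorsionNewInertia M N q p := by
  subst hM
  exact ⟨levelPushAlpha N q, levelPushBeta N q,
    fun ℓ hℓ x => levelPushAlpha_hecke_all N q hq ℓ hℓ x,
    fun ℓ hℓ x => levelPushBeta_hecke N q hq ℓ hℓ x,
    fun A hA => h A hA⟩

/-- The hypothesis `hCar` of `CAR.tateCmpACarExists_of_trunk`, from the inertia clause for the
concrete push-forwards at the levels `q ∥ N`. -/
theorem hCar_of_newInertiaAt
    (h : ∀ (N q p : ℕ) [NeZero N] [NeZero q], p.Prime → q.Prime → q ≠ p → q ∣ N → ¬ q ^ 2 ∣ N →
      ∀ A : ValuationSubring Qb, A.LiesOverPrime q → NewInertiaAt N q p A)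
    (M N q p : ℕ) [NeZero M] [NeZero N] (hp : p.Prime) (hq : q.Prime) (hqp : q ≠ p)
    (hM : M = N * q) (hqN : q ∣ N) (hq2 : ¬ q ^ 2 ∣ N) : TorsionNewInertia M N q p := by
  haveI : NeZero q := ⟨hq.ne_zero⟩
  exact torsionNewInertia_of_newInertiaAt M N q p hq hM
    (fun A hA => h N q p hp hq hqp hqN hq2 A hA)

end Fermat.Agent.CAR
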