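import Mathlib
import Fermat.Agent.CAR.NewInertiaOf
import Fermat.Agent.BAD.LevelTransfer

/-!
# CAR — level transfer `N · a → N` for the inertia clause (ELL-1)

`NewInertiaAt N q p A` (the inertia clause of `CAR.TorsionNewInertia (N * q) N q p` for the
concrete push-forwards `levelPushAlpha N q`, `levelPushBeta N q`) descends from level `N a` to
level `N` for every auxiliary prime `a ∤ N q` — with NO condition on `q` versus `N` (`q ∣ N`
allowed) and no coprimality of `a + 1` with `p`: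

* `newInertiaAt_of_mul` : `NewInertiaAt (N * a) q p A → NewInertiaAt N q p A`;
* `newInertiaAt_of_aux` : it suffices to prove `NewInertiaAt N q p A` at the levels `N` divisible
  by an auxiliary prime `r ≡ b mod m` (`b` prime to `m`; Dirichlet), e.g. `r ≡ 11 mod 12`;
* `hCar_of_newInertiaAt_aux` : the hypothesis `hCar` of `CAR.tateCmpACarExists_of_trunk` from
  the inertia clause at such levels.

Proof: the pull-back of divisor classes along `F_{Nq} ⊆ F_{Naq}` is Galois-equivariant, its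
kernel is killed by `a + 1`, and it commutes with the push-forwards along `α_q`, `β_q`
(base change for divisors; generation of `F_{Nq}` over `F_N` from `LevelPushDvd`).
-/

set_option autoImplicit false
set_option linter.style.haveILetI false

noncomputable section

namespace Fermat.Agent.CAR

open AlgebraicCurve ModularCurve IntermediateField
open Fermat.Agent.S24 Fermat.Agent.S28 Fermat.Agent.ESJ Fermat.Agent.ESJ.HeckeInputs
  Fermat.Agent.ESJ.LevelDesc Fermat.Agent.ESJ.Cong Fermat.Agent.ESJ.Cong.LevelGen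
  Fermat.Agent.ESJ.Cong.LevelPull Fermat.Agent.ESJ.Cong.LevelPush
  Fermat.Agent.ESJ.Cong.LevelPushDvd Fermat.Agent.BAD.LevelTransfer

local notation "Qb" => AlgebraicClosure ℚ
local notation "GQ" => (AlgebraicClosure ℚ ≃ₐ[ℚ] AlgebraicClosure ℚ)

namespace LevelTransfer

/-- `(m * c) • x = 0` from `m • (c • x) = 0`. -/
theorem mul_nsmul_eq_zero {J : Type*} [AddCommGroup J] (m c : ℕ) (x : J)
    (h : m • (c • x) = 0) : (m * c) • x = 0 := by
  rw [mul_nsmul']
  exact h

/-- `finrankAlong` does not depend on how the target level is written. -/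
theorem finrankAlong_congr_level {K₀ M M' : ℕ} [NeZero K₀] [NeZero M] [NeZero M'] (h : M = M')
    (φ : FN K₀ →ₐ[Qb] FN M) (φ' : FN K₀ →ₐ[Qb] FN M')
    (hφ : ∀ x, ((φ x : FN M) : LaurentSeries Qb) = ((φ' x : FN M') : LaurentSeries Qb)) :
    finrankAlong Qb φ = finrankAlong Qb φ' := by
  subst h
  have e : φ = φ' := AlgHom.ext fun x => Subtype.ext (hφ x)
  rw [e]

section Modular

variable (N a q : ℕ) [NeZero N] [NeZero a] [NeZero q]

/-- `[F_{Naq} : F_{Nq}] = a + 1` for a prime `a ∤ N q` (no condition on `q`). -/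
theorem finrank_incl_aux (ha : a.Prime) (haNq : ¬ a ∣ N * q) :
    finrankAlong Qb (incl N a q) = a + 1 := by
  have e : finrankAlong Qb (heckeAlphaBar Qb (N * q) a) = a + 1 :=
    ConjAnalytic.finrank_alpha (N * q) a ha haNq
  rw [← e]
  exact finrankAlong_congr_level (mul_right_comm N a q) (incl N a q)
    (heckeAlphaBar Qb (N * q) a) (fun x => by rw [coe_incl, coe_heckeAlphaBar])

/-- The degree of `α_q` does not change when the auxiliary prime `a ∤ N q` is added to the
level. -/
theorem finrank_alpha_mul_all (ha : a.Prime) (haNq : ¬ a ∣ N * q) :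
    finrankAlong Qb (heckeAlphaBar Qb (N * a) q) = finrankAlong Qb (heckeAlphaBar Qb N q) := by
  have haN : ¬ a ∣ N := fun h => haNq (Dvd.dvd.mul_right h q)
  have h1 := finrankAlong_comp (heckeAlphaBar Qb N a) (heckeAlphaBar Qb (N * a) q)
  have h2 := finrankAlong_comp (heckeAlphaBar Qb N q) (incl N a q)
  have e1 : finrankAlong Qb (heckeAlphaBar Qb N a) = a + 1 :=
    ConjAnalytic.finrank_alpha N a ha haN
  rw [alpha_comp_alpha N a q, h2, e1, finrank_incl_aux N a q ha haNq] at h1
  have h3 : 0 < a + 1 := Nat.succ_pos a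
  have h4 : (a + 1) * finrankAlong Qb (heckeAlphaBar Qb (N * a) q)
      = (a + 1) * finrankAlong Qb (heckeAlphaBar Qb N q) := by
    rw [← h1, mul_comm]
  exact Nat.eq_of_mul_eq_mul_left h3 h4

/-- The degree of `β_q` does not change when the auxiliary prime `a ∤ N q` is added to the
level. -/
theorem finrank_beta_mul_all (ha : a.Prime) (haNq : ¬ a ∣ N * q) :
    finrankAlong Qb (heckeBetaBar Qb (N * a) q) = finrankAlong Qb (heckeBetaBar Qb N q) := by
  have haN : ¬ a ∣ N := fun h => haNq (Dvd.dvd.mul_right h q)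
  have h1 := finrankAlong_comp (heckeAlphaBar Qb N a) (heckeBetaBar Qb (N * a) q)
  have h2 := finrankAlong_comp (heckeBetaBar Qb N q) (incl N a q)
  have e1 : finrankAlong Qb (heckeAlphaBar Qb N a) = a + 1 :=
    ConjAnalytic.finrank_alpha N a ha haN
  rw [beta_comp_alpha N a q, h2, e1, finrank_incl_aux N a q ha haNq] at h1
  have h3 : 0 < a + 1 := Nat.succ_pos a
  have h4 : (a + 1) * finrankAlong Qb (heckeBetaBar Qb (N * a) q)
      = (a + 1) * finrankAlong Qb (heckeBetaBar Qb N q) := by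
    rw [← h1, mul_comm]
  exact Nat.eq_of_mul_eq_mul_left h3 h4

omit [NeZero a] in
/-- `F_{Nq}` is generated over `F_N` by any element with `q`-expansion `J(q^(q^(e+1)))`, where
`q^e ∥ N`. -/
theorem closure_range_alpha_union_pow (hq : q.Prime) (e N' : ℕ) (hN : N = q ^ e * N')
    (hqN' : ¬ q ∣ N') (θ : FN (N * q))
    (hθ : (θ : LaurentSeries Qb) = TD.Jd Qb (q ^ (e + 1))) :
    Subfield.closure (Set.range (heckeAlphaBar Qb N q) ∪ {θ}) = ⊤ := by
  have hN0 : N ≠ 0 := NeZero.ne N
  have hN'0 : N' ≠ 0 := fun h => hN0 (by rw [hN, h, mul_zero])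
  have hfwd : TD.FF Qb (N * q) 1 ≤ IntermediateField.adjoin Qb
      ((TD.FF Qb N 1 : Set (LaurentSeries Qb)) ∪ {TD.Jd Qb (q ^ (e + 1))}) := by
    rw [hN]
    exact FF_mul_le_adjoin_fwd_pow Qb N' q e hN'0 hq hqN'
  refine closure_eq_top_of_adjoin _ (fun c => ?_)
    ((TD.FF Qb N 1 : Set (LaurentSeries Qb)) ∪ {TD.Jd Qb (q ^ (e + 1))}) ?_ hfwd
  · rw [← (heckeAlphaBar Qb N q).commutes c]
    exact Subfield.subset_closure (Or.inl (Set.mem_range_self _))
  · rintro z (hz | hz)
    · have hz' : z ∈ TD.FF Qb N 1 := hz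
      have hzb : z ∈ modularFunctionFieldBar N := mem_bar_of_mem_FF hz'
      have hcoe : ((heckeAlphaBar Qb N q ⟨z, hzb⟩ : FN (N * q)) : LaurentSeries Qb) = z :=
        coe_heckeAlphaBar N q ⟨z, hzb⟩
      refine ⟨hcoe ▸ (heckeAlphaBar Qb N q ⟨z, hzb⟩).2,
        Subfield.subset_closure (Or.inl ⟨⟨z, hzb⟩, ?_⟩)⟩
      exact Subtype.ext hcoe
    · rw [Set.mem_singleton_iff] at hz
      subst hz
      refine ⟨hθ ▸ θ.2, Subfield.subset_closure (Or.inr ?_)⟩
      rw [Set.mem_singleton_iff]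
      exact Subtype.ext hθ.symm

/-- Norm compatibility for the square `α_q ∘ α_a = incl ∘ α_q`:
`N_{F_{Naq}/F_{Na}}(f) = N_{F_{Nq}/F_N}(f)` for `f ∈ F_{Nq}` (every prime `q`, `a ∤ N q`). -/
theorem norm_incl_alpha_all (hq : q.Prime) (ha : a.Prime) (haNq : ¬ a ∣ N * q)
    (f : FN (N * q)) :
    (letI := algebraAlong (heckeAlphaBar Qb (N * a) q);
      Algebra.norm (FN (N * a)) (incl N a q f))
      = heckeAlphaBar Qb N a
          (letI := algebraAlong (heckeAlphaBar Qb N q); Algebra.norm (FN N) f) := by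
  have hN0 : N ≠ 0 := NeZero.ne N
  obtain ⟨e, N', hqN', hN⟩ := Nat.exists_eq_pow_mul_and_not_dvd hN0 q hq.ne_one
  have hqa : q ≠ a := fun h => haNq (h ▸ dvd_mul_left q N)
  have hdvdθ : q ^ (e + 1) ∣ N * q := by
    rw [hN, pow_succ]
    exact ⟨N', by ring⟩
  have hmemθ : TD.Jd Qb (q ^ (e + 1)) ∈ modularFunctionFieldBar (N * q) :=
    mem_bar_of_mem_FF (Jd_mem_FF_one hdvdθ)
  refine norm_along_of_closure_eq_top (heckeAlphaBar Qb N a) (heckeAlphaBar Qb N q)
    (heckeAlphaBar Qb (N * a) q) (incl N a q) (alpha_comp_alpha N a q)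
    (finiteAlong_heckeAlphaBar N q) (finrank_alpha_mul_all N a q ha haNq)
    ⟨TD.Jd Qb (q ^ (e + 1)), hmemθ⟩
    (closure_range_alpha_union_pow N q hq e N' hN hqN' _ rfl) ?_ f
  refine closure_range_alpha_union_pow (N * a) q hq e (N' * a) ?_ ?_ _ ?_
  · rw [hN]; ring
  · intro hd
    exact (hq.dvd_mul.mp hd).elim hqN'
      (fun h' => hqa ((Nat.prime_dvd_prime_iff_eq hq ha).mp h'))
  · rw [coe_incl]

/-- Norm compatibility for the square `β_q ∘ α_a = incl ∘ β_q`:
`N_{F_{Naq}/β_q F_{Na}}(f) = N_{F_{Nq}/β_q F_N}(f)` for `f ∈ F_{Nq}` (every prime `q`,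
`a ∤ N q`). -/
theorem norm_incl_beta_all (hq : q.Prime) (ha : a.Prime) (haNq : ¬ a ∣ N * q)
    (f : FN (N * q)) :
    (letI := algebraAlong (heckeBetaBar Qb (N * a) q);
      Algebra.norm (FN (N * a)) (incl N a q f))
      = heckeAlphaBar Qb N a
          (letI := algebraAlong (heckeBetaBar Qb N q); Algebra.norm (FN N) f) := by
  refine norm_along_of_closure_eq_top (heckeAlphaBar Qb N a) (heckeBetaBar Qb N q)
    (heckeBetaBar Qb (N * a) q) (incl N a q) (beta_comp_alpha N a q)
    (finiteAlong_heckeBetaBar N q) (finrank_beta_mul_all N a q ha haNq)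
    (heckeAlphaBar Qb N q (jLevel Qb N))
    (closure_range_heckeBetaBar_union N q hq) ?_ f
  have e : incl N a q (heckeAlphaBar Qb N q (jLevel Qb N))
      = heckeAlphaBar Qb (N * a) q (jLevel Qb (N * a)) := by
    apply Subtype.ext
    rw [coe_incl, coe_heckeAlphaBar, coe_heckeAlphaBar, coe_jLevel, coe_jLevel]
  rw [e]
  exact closure_range_heckeBetaBar_union (N * a) q hq

end Modular

end LevelTransfer

open LevelTransfer

set_option synthInstance.maxHeartbeats 400000 in
set_option maxHeartbeats 1000000 in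
/-- **(ELL-1)** The inertia clause descends from level `N a` to level `N`, for every auxiliary
prime `a ∤ N q` and every prime `q` (in particular `q ∣ N`). -/
theorem newInertiaAt_of_mul (N a q p : ℕ) [NeZero N] [NeZero a] [NeZero q] (ha : a.Prime)
    (haN : ¬ a ∣ N * q) (hq : q.Prime) (A : ValuationSubring Qb)
    (h : NewInertiaAt (N * a) q p A) : NewInertiaAt N q p A := by
  haveI hP1 := hasPrincipalDivisors_bar (N * a)
  haveI hP2 := hasPrincipalDivisors_bar (N * q)
  haveI hP3 := hasPrincipalDivisors_bar (N * a * q)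
  -- the two pull-backs
  have hFIπ := fundamentalIdentityAlong_incl N a q
  have hFIπ' := fundamentalIdentityAlong_heckeAlphaBar N a
  set π : JZero (N * q) →+ JZero (N * a * q) :=
    pic0Pull (incl N a q) (isIntegral_incl N a q) hFIπ with hπ
  set π' : JZero N →+ JZero (N * a) :=
    pic0Pull (heckeAlphaBar Qb N a) (heckeAlphaBarIntegral N a) hFIπ' with hπ'
  -- Galois equivariance of `π`
  have hπG : ∀ (σ : GQ) (x : JZero (N * q)), π (σ • x) = σ • π x := by
    intro σ x
    rw [galois_smul_pic0_def, galois_smul_pic0_def]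
    exact pic0Pull_smul (incl N a q) (isIntegral_incl N a q) hFIπ
      (comm_intertwines_incl N a q σ) x
  -- the kernel of `π` is killed by `a + 1`
  have hπker : ∀ x : JZero (N * q), π x = 0 → (a + 1) • x = 0 := by
    intro x hx
    have hS : SumRamInertiaAlong (incl N a q) (isIntegral_incl N a q) := by
      letI := algebraAlong (incl N a q)
      haveI := isScalarTower_along (incl N a q)
      haveI := isIntegral_along (incl N a q) (isIntegral_incl N a q)
      haveI : FiniteDimensional (FN (N * q)) (FN (N * a * q)) := finiteAlong_incl N a q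
      haveI := isAlgebraic_bar (N * q)
      haveI := isAlgebraic_bar (N * a * q)
      exact Fermat.Agent.Lib.FF.ExtNorm.sumRamificationInertia (jBar (N * q))
        (jBar (N * a * q))
    have h1 := nsmul_eq_zero_of_pic0Pull_eq_zero (incl N a q) (isIntegral_incl N a q) hFIπ
      (finiteAlong_incl N a q) (normFormulaAlong_incl N a q) hS x hx
    rwa [finrank_incl_aux N a q ha haN] at h1
  -- base change with the two push-forwards
  have hA1 : ∀ x : JZero (N * q), levelPushAlpha (N * a) q (π x) = π' (levelPushAlpha N q x) :=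
    fun x => (pic0Pull_pic0Push (heckeAlphaBar Qb N a) (heckeAlphaBar Qb N q)
      (heckeAlphaBar Qb (N * a) q) (incl N a q) (heckeAlphaBarIntegral N a)
      (heckeAlphaBarIntegral N q) (heckeAlphaBarIntegral (N * a) q) (isIntegral_incl N a q)
      hFIπ' hFIπ (alpha_comp_alpha N a q) (finiteAlong_heckeAlphaBar N q)
      (normFormulaAlong_alpha N q) (finiteAlong_heckeAlphaBar (N * a) q)
      (normFormulaAlong_alpha (N * a) q) (norm_incl_alpha_all N a q hq ha haN)
      (exists_ord_eq_one (N * q)) x).symm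
  have hA2 : ∀ x : JZero (N * q), levelPushBeta (N * a) q (π x) = π' (levelPushBeta N q x) :=
    fun x => (pic0Pull_pic0Push (heckeAlphaBar Qb N a) (heckeBetaBar Qb N q)
      (heckeBetaBar Qb (N * a) q) (incl N a q) (heckeAlphaBarIntegral N a)
      (heckeBetaBarIntegral N q) (heckeBetaBarIntegral (N * a) q) (isIntegral_incl N a q)
      hFIπ' hFIπ (beta_comp_alpha N a q) (finiteAlong_heckeBetaBar N q)
      (normFormulaAlong_heckeBetaBar N q) (finiteAlong_heckeBetaBar (N * a) q)
      (normFormulaAlong_heckeBetaBar (N * a) q) (norm_incl_beta_all N a q hq ha haN)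
      (exists_ord_eq_one (N * q)) x).symm
  -- the transfer
  obtain ⟨c, hc, hcx⟩ := h
  refine ⟨(a + 1) * c, Nat.mul_ne_zero (Nat.succ_ne_zero a) hc, ?_⟩
  rintro x ⟨n, hn⟩ hx1 hx2 hfix
  have hX := hcx (π x) ⟨n, by rw [← map_nsmul, hn, map_zero]⟩
    (by rw [hA1, hx1, map_zero]) (by rw [hA2, hx2, map_zero])
    (fun σ hσ => (hπG σ x).symm.trans (congrArg π (hfix σ hσ)))
  have h1 : π (c • x) = 0 := (map_nsmul π c x).trans hX
  exact mul_nsmul_eq_zero (a + 1) c x (hπker _ h1)

/-- **Reduction to levels with an auxiliary prime in a given residue class** (Dirichlet): to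
prove the inertia clause at every level `N` with `q ∥ N`, it suffices to prove it at the levels
divisible by some prime `r ≡ b mod m`, `r ≠ q, p` (e.g. `m = 12`, `b = 11`). -/
theorem newInertiaAt_of_aux (m b : ℕ) (hm : m ≠ 0) (hb : b.Coprime m) (q p : ℕ) [NeZero q]
    (hq : q.Prime) (A : ValuationSubring Qb)
    (h : ∀ (N : ℕ) [NeZero N], q ∣ N → ¬ q ^ 2 ∣ N →
      (∃ r : ℕ, r.Prime ∧ r ≡ b [MOD m] ∧ r ∣ N ∧ r ≠ q ∧ r ≠ p) → NewInertiaAt N q p A)
    (N : ℕ) [NeZero N] (hqN : q ∣ N) (hq2 : ¬ q ^ 2 ∣ N) : NewInertiaAt N q p A := by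
  obtain ⟨r, hgt, hrp, hrb⟩ := Nat.forall_exists_prime_gt_and_modEq (N * q + p) hm hb
  have hN0 : N ≠ 0 := NeZero.ne N
  have hrNq : ¬ r ∣ N * q := fun hd => by
    have := Nat.le_of_dvd (Nat.pos_of_ne_zero (Nat.mul_ne_zero hN0 hq.ne_zero)) hd
    omega
  have hrq : r ≠ q := fun h' => hrNq (h' ▸ dvd_mul_left q N)
  have hrpne : r ≠ p := by omega
  haveI : NeZero r := ⟨hrp.ne_zero⟩
  refine newInertiaAt_of_mul N r q p hrp hrNq hq A
    (h (N * r) (Dvd.dvd.mul_right hqN r) ?_ ⟨r, hrp, hrb, dvd_mul_left r N, hrq, hrpne⟩)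
  intro hd
  apply hq2
  have hcop : Nat.Coprime (q ^ 2) r :=
    Nat.Coprime.pow_left 2 ((Nat.coprime_primes hq hrp).mpr (Ne.symm hrq))
  exact hcop.dvd_of_dvd_mul_right hd

/-- The hypothesis `hCar` of `CAR.tateCmpACarExists_of_trunk` from the inertia clause at the
levels `q ∥ N` divisible by an auxiliary prime `r ≡ b mod m`, `r ≠ q, p`. -/
theorem hCar_of_newInertiaAt_aux (m b : ℕ) (hm : m ≠ 0) (hb : b.Coprime m)
    (h : ∀ (N q p : ℕ) [NeZero N] [NeZero q], p.Prime → q.Prime → q ≠ p → q ∣ N → ¬ q ^ 2 ∣ N →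
      (∃ r : ℕ, r.Prime ∧ r ≡ b [MOD m] ∧ r ∣ N ∧ r ≠ q ∧ r ≠ p) →
      ∀ A : ValuationSubring Qb, A.LiesOverPrime q → NewInertiaAt N q p A)
    (M N q p : ℕ) [NeZero M] [NeZero N] (hp : p.Prime) (hq : q.Prime) (hqp : q ≠ p)
    (hM : M = N * q) (hqN : q ∣ N) (hq2 : ¬ q ^ 2 ∣ N) : TorsionNewInertia M N q p :=
  hCar_of_newInertiaAt
    (fun N q p _ _ hp hq hqp hqN hq2 A hA =>
      newInertiaAt_of_aux m b hm hb q p hq A
        (fun N' _ hqN' hq2' hr => h N' q p hp hq hqp hqN' hq2' hr A hA) N hqN hq2)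
    M N q p hp hq hqp hM hqN hq2

end Fermat.Agent.CAR

end
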