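import Mathlib
import Fermat.Agent.Lib.FF.Holo
import Fermat.Agent.Lib.FF.Setting
import Fermat.Agent.S24.Counting

/-!
# CAR / LIFT, abstract part: the chart ring of a function field separates finite places

`h : IsFF1 K F x` (function field of one variable, all residue fields `K`).  The chart ring
`R = integral closure of K[x] in F` (= functions regular where `x` is regular,
`Holo.isIntegral_adjoin_iff`) satisfies:

* `exists_value` : every place with `0 ≤ ord x` has a value `c ∈ K` of `x`;
* `exists_sep` : two distinct finite places are separated by an element of `R`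
  (`0 < Q.ord t`, `Q'.ord t = 0`);
* `exists_frac` : the valuation ring of a finite place `Q` is the localisation of `R` at its
  centre: every `c` regular at `Q` is `a / b` with `a, b ∈ R`, `Q.ord b = 0`.

Elementary proof (weak approximation + clearing the finite poles by polynomials in `x`); no
Dedekind theory, no separability, any characteristic.
-/

set_option autoImplicit false

noncomputable section

namespace Fermat.Agent.CAR.LiftFF

open AlgebraicCurve Fermat.Agent.S24 Fermat.Agent.Lib.FF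
open scoped IntermediateField

variable {K F : Type*} [Field K] [Field F] [Algebra K F]

/-! ### Elementary facts on orders -/

theorem ord_algebraMap (Q : Place K F) (c : K) : Q.ord (algebraMap K F c) = 0 := by
  rcases eq_or_ne c 0 with rfl | hc
  · simp
  · exact (Counting.isRawVal_ord Q).map_algebraMap c hc

/-- If `0 < ord a` and `ord b = 0` then `ord (a + b) = 0`. -/
theorem ord_add_eq_zero (Q : Place K F) {a b : F} (ha : 0 < Q.ord a) (hb0 : b ≠ 0)
    (hb : Q.ord b = 0) : Q.ord (a + b) = 0 := by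
  have ha0 : a ≠ 0 := by
    rintro rfl
    simp at ha
  rw [add_comm, (Counting.isRawVal_ord Q).map_add_of_lt hb0 ha0 (by omega), hb]

theorem ord_pow (Q : Place K F) (a : F) (n : ℕ) : Q.ord (a ^ n) = n * Q.ord a := by
  have := Q.ord_zpow a n
  rwa [zpow_natCast] at this

theorem ord_prod_pow {ι : Type*} (Q : Place K F) (s : Finset ι) (g : ι → F) (m : ι → ℕ)
    (hg : ∀ i ∈ s, g i ≠ 0) :
    Q.ord (∏ i ∈ s, g i ^ m i) = ∑ i ∈ s, (m i : ℤ) * Q.ord (g i) := by
  classical
  induction s using Finset.induction_on with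
  | empty => simp
  | insert a s ha ih =>
    have h1 : g a ^ m a ≠ 0 := pow_ne_zero _ (hg a (Finset.mem_insert_self a s))
    have h2 : ∏ i ∈ s, g i ^ m i ≠ 0 :=
      Finset.prod_ne_zero_iff.2 fun i hi => pow_ne_zero _ (hg i (Finset.mem_insert_of_mem hi))
    rw [Finset.prod_insert ha, Finset.sum_insert ha, Q.ord_mul h1 h2,
      ih fun i hi => hg i (Finset.mem_insert_of_mem hi), ord_pow]

/-- The set of places where a nonzero function has nonzero order is finite. -/
theorem finite_ord_ne_zero [HasPrincipalDivisors K F] {f : F} (hf : f ≠ 0) :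
    {P : Place K F | P.ord f ≠ 0}.Finite := by
  obtain ⟨D, hD, -⟩ := HasPrincipalDivisors.exists_divisor (K := K) f hf
  refine (D.support.finite_toSet).subset fun P hP => ?_
  rw [Finset.mem_coe, Finsupp.mem_support_iff, hD P]
  exact hP

/-! ### Values -/

/-- The value of `x` at a place where it is regular. -/
theorem exists_value {x : F} (hx : Transcendental K x) (Q : Place K F) (hres : RR.ResK Q)
    (hQ : 0 ≤ Q.ord x) : ∃ c : K, 0 < Q.ord (x - algebraMap K F c) := by
  obtain ⟨c, hc⟩ := hres ⟨x, (mem_iff_ord_nonneg Q).2 hQ⟩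
  refine ⟨c, ?_⟩
  have hne : x - algebraMap K F c ≠ 0 := by
    intro h0
    apply hx
    rw [sub_eq_zero.1 h0]
    exact isAlgebraic_algebraMap c
  rw [Counting.ord_pos_iff Q hne]
  intro hinv
  have hu : IsUnit ((⟨x, (mem_iff_ord_nonneg Q).2 hQ⟩ : Q.toValuationSubring) -
      algebraMap K Q.toValuationSubring c) := by
    refine IsUnit.of_mul_eq_one ⟨(x - algebraMap K F c)⁻¹, hinv⟩ ?_
    apply Subtype.ext
    show (x - algebraMap K F c) * (x - algebraMap K F c)⁻¹ = 1
    exact mul_inv_cancel₀ hne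
  exact (IsLocalRing.mem_maximalIdeal _).1 hc hu

/-- At a place over the value `c`, `x - c'` is a unit for every other constant `c'`. -/
theorem ord_sub_const_eq_zero {x : F} (Q : Place K F) {c c' : K}
    (hc : 0 < Q.ord (x - algebraMap K F c)) (hne : c ≠ c') :
    x - algebraMap K F c' ≠ 0 ∧ Q.ord (x - algebraMap K F c') = 0 := by
  have h1 : x - algebraMap K F c' = (x - algebraMap K F c) + algebraMap K F (c - c') := by
    rw [map_sub]
    ring
  have h2 : algebraMap K F (c - c') ≠ 0 := (map_ne_zero _).2 (sub_ne_zero.2 hne)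
  have h3 : Q.ord (x - algebraMap K F c') = 0 := by
    rw [h1]
    exact ord_add_eq_zero Q hc h2 (ord_algebraMap Q _)
  refine ⟨fun h0 => ?_, h3⟩
  have hc0 : x - algebraMap K F c ≠ 0 := by
    intro h
    rw [h] at hc
    simp at hc
  -- `x = c'` and `0 < ord (c' - c)`: impossible
  have : x - algebraMap K F c = algebraMap K F (c' - c) := by
    rw [map_sub, ← sub_eq_zero.1 h0]
  rw [this, ord_algebraMap] at hc
  exact lt_irrefl _ hc

/-! ### Separation and fractions -/

variable {x : F}

/-- Clearing finite poles: if `u ≠ 0` has no pole at the places of the finite set `S` of values …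
for every `u ≠ 0` and every finite set `V` of "protected" values of `x`, such that `u` is regular
at every finite place whose `x`-value lies in `V`, there is a product `p` of powers of `x - c`,
`c ∉ V`, such that `u * p` is integral over `K[x]`. -/
theorem exists_clear (h : IsFF1 K F x) {u : F} (hu : u ≠ 0) (V : Finset K)
    (hV : ∀ P : Place K F, ∀ c ∈ V, 0 < P.ord (x - algebraMap K F c) → 0 ≤ P.ord u) :
    ∃ p : F, p ≠ 0 ∧ IsIntegral (Algebra.adjoin K {x}) (u * p) ∧
      (∀ P : Place K F, 0 ≤ P.ord x → 0 ≤ P.ord p) ∧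
      ∀ P : Place K F, ∀ c ∈ V, 0 < P.ord (x - algebraMap K F c) → P.ord p = 0 := by
  classical
  have := h.hasPrincipalDivisors
  have := h.finiteDimensional
  -- the finite poles of `u`
  have hfin : {P : Place K F | P.ord u < 0 ∧ 0 ≤ P.ord x}.Finite :=
    (finite_ord_ne_zero (K := K) hu).subset fun P hP => ne_of_lt hP.1
  set T : Finset (Place K F) := hfin.toFinset with hT
  have hTmem : ∀ P, P ∈ T ↔ P.ord u < 0 ∧ 0 ≤ P.ord x := fun P => by
    rw [hT, Set.Finite.mem_toFinset]
    rfl
  -- their values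
  have hval : ∀ P : Place K F, ∃ c : K, P ∈ T → 0 < P.ord (x - algebraMap K F c) := by
    intro P
    by_cases hP : P ∈ T
    · obtain ⟨c, hc⟩ := exists_value h.transcendental P (h.resK P) ((hTmem P).1 hP).2
      exact ⟨c, fun _ => hc⟩
    · exact ⟨0, fun h' => absurd h' hP⟩
  choose val hvalP using hval
  have hvalV : ∀ P ∈ T, val P ∉ V := by
    intro P hP hmem
    have := hV P (val P) hmem (hvalP P hP)
    exact absurd ((hTmem P).1 hP).1 (not_lt.2 this)
  set g : Place K F → F := fun P => x - algebraMap K F (val P) with hg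
  set m : Place K F → ℕ := fun P => (-P.ord u).toNat with hm
  have hg0 : ∀ P ∈ T, g P ≠ 0 := by
    intro P hP h0
    have := hvalP P hP
    rw [show x - algebraMap K F (val P) = g P from rfl, h0] at this
    simp at this
  have hgreg : ∀ P' : Place K F, 0 ≤ P'.ord x → ∀ P : Place K F, 0 ≤ P'.ord (g P) := by
    intro P' hP' P
    rw [← mem_iff_ord_nonneg]
    exact sub_mem ((mem_iff_ord_nonneg P').2 hP') (P'.algebraMap_mem' _)
  refine ⟨∏ P ∈ T, g P ^ m P, ?_, ?_, ?_, ?_⟩
  · exact Finset.prod_ne_zero_iff.2 fun P hP => pow_ne_zero _ (hg0 P hP)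
  · rw [Holo.isIntegral_adjoin_iff]
    intro P' hP'
    rw [P'.ord_mul hu (Finset.prod_ne_zero_iff.2 fun P hP => pow_ne_zero _ (hg0 P hP)),
      ord_prod_pow P' T g m hg0]
    have hnn : ∀ P ∈ T, 0 ≤ (m P : ℤ) * P'.ord (g P) := fun P _ =>
      mul_nonneg (Int.natCast_nonneg _) (hgreg P' hP' P)
    by_cases hP'T : P' ∈ T
    · have h1 : (m P' : ℤ) * P'.ord (g P') ≤ ∑ P ∈ T, (m P : ℤ) * P'.ord (g P) :=
        Finset.single_le_sum hnn hP'T
      have h2 : 1 ≤ P'.ord (g P') := hvalP P' hP'T
      have h3 : (m P' : ℤ) = -P'.ord u := by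
        rw [hm]
        exact Int.toNat_of_nonneg (by have := ((hTmem P').1 hP'T).1; omega)
      have h4 : (m P' : ℤ) ≤ (m P' : ℤ) * P'.ord (g P') := by
        have := mul_le_mul_of_nonneg_left h2 (Int.natCast_nonneg (m P'))
        simpa using this
      omega
    · have h1 : 0 ≤ P'.ord u := by
        by_contra hneg
        exact hP'T ((hTmem P').2 ⟨not_le.1 hneg, hP'⟩)
      have h2 : 0 ≤ ∑ P ∈ T, (m P : ℤ) * P'.ord (g P) := Finset.sum_nonneg hnn
      omega
  · intro P' hP'
    rw [ord_prod_pow P' T g m hg0]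
    exact Finset.sum_nonneg fun P _ =>
      mul_nonneg (Int.natCast_nonneg _) (hgreg P' hP' P)
  · intro P' c hc hP'
    rw [ord_prod_pow P' T g m hg0]
    refine Finset.sum_eq_zero fun P hP => ?_
    have hne : c ≠ val P := fun h' => hvalV P hP (h' ▸ hc)
    rw [(ord_sub_const_eq_zero P' hP' hne).2, mul_zero]

/-- **Separation.**  Two distinct places at which `x` is regular are separated by an element of
the chart ring. -/
theorem exists_sep (h : IsFF1 K F x) {Q Q' : Place K F} (hQ : 0 ≤ Q.ord x)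
    (hQ' : 0 ≤ Q'.ord x) (hne : Q ≠ Q') :
    ∃ t : F, IsIntegral (Algebra.adjoin K {x}) t ∧ 0 < Q.ord t ∧ Q'.ord t = 0 := by
  classical
  have := h.hasPrincipalDivisors
  obtain ⟨c₁, hc₁⟩ := exists_value h.transcendental Q (h.resK Q) hQ
  obtain ⟨c₂, hc₂⟩ := exists_value h.transcendental Q' (h.resK Q') hQ'
  have hne₁ : x - algebraMap K F c₁ ≠ 0 := by
    intro h0
    rw [h0] at hc₁
    simp at hc₁
  have hne₂ : x - algebraMap K F c₂ ≠ 0 := by
    intro h0
    rw [h0] at hc₂
    simp at hc₂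
  -- the two fibres
  have hfin₁ : {P : Place K F | 0 < P.ord (x - algebraMap K F c₁)}.Finite :=
    (finite_ord_ne_zero (K := K) hne₁).subset fun P hP => ne_of_gt hP
  have hfin₂ : {P : Place K F | 0 < P.ord (x - algebraMap K F c₂)}.Finite :=
    (finite_ord_ne_zero (K := K) hne₂).subset fun P hP => ne_of_gt hP
  set S : Finset (Place K F) := hfin₁.toFinset ∪ hfin₂.toFinset with hS
  have hSmem : ∀ P, P ∈ S ↔
      0 < P.ord (x - algebraMap K F c₁) ∨ 0 < P.ord (x - algebraMap K F c₂) := fun P => by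
    rw [hS, Finset.mem_union, Set.Finite.mem_toFinset, Set.Finite.mem_toFinset]
    rfl
  obtain ⟨f, hf0, hfQ, hfS⟩ := Counting.exists_ord_neg_pos Q (S.erase Q) (Finset.notMem_erase Q S)
  have hraw := fun P : Place K F => Counting.isRawVal_ord (K := K) P
  have h1f : f + 1 ≠ 0 := by
    intro h0
    have : f = -1 := eq_neg_of_add_eq_zero_left h0
    rw [this, (hraw Q).map_neg one_ne_zero, Q.ord_one] at hfQ
    exact lt_irrefl _ hfQ
  set u : F := (f + 1)⁻¹ with hu
  have hu0 : u ≠ 0 := inv_ne_zero h1f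
  have huQ : 0 < Q.ord u := by
    have h1 : Q.ord (f + 1) = Q.ord f :=
      (hraw Q).map_add_of_lt hf0 one_ne_zero (by rw [Q.ord_one]; exact hfQ)
    rw [hu, Q.ord_inv, h1]
    omega
  have huS : ∀ P ∈ S, P ≠ Q → P.ord u = 0 := by
    intro P hP hPQ
    have h1 : P.ord (1 + f) = P.ord 1 :=
      (hraw P).map_add_of_lt one_ne_zero hf0
        (by rw [P.ord_one]; exact hfS P (Finset.mem_erase.2 ⟨hPQ, hP⟩))
    rw [hu, P.ord_inv, add_comm, h1, P.ord_one, neg_zero]
  have huS' : ∀ P ∈ S, 0 ≤ P.ord u := by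
    intro P hP
    by_cases hPQ : P = Q
    · rw [hPQ]
      exact huQ.le
    · exact (huS P hP hPQ).ge
  obtain ⟨p, hp0, hint, -, hpV⟩ := exists_clear h hu0 {c₁, c₂} (by
    intro P c hc hP
    rw [Finset.mem_insert, Finset.mem_singleton] at hc
    refine huS' P ((hSmem P).2 ?_)
    rcases hc with rfl | rfl
    · exact Or.inl hP
    · exact Or.inr hP)
  refine ⟨u * p, hint, ?_, ?_⟩
  · rw [Q.ord_mul hu0 hp0, hpV Q c₁ (by simp) hc₁]
    omega
  · rw [Q'.ord_mul hu0 hp0, hpV Q' c₂ (by simp) hc₂,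
      huS Q' ((hSmem Q').2 (Or.inr hc₂)) (Ne.symm hne)]
    rfl

/-- **Fractions.**  The valuation ring of a place `Q` at which `x` is regular is the
localisation of the chart ring at its centre: every function regular at `Q` is `a / b` with
`a`, `b` in the chart ring and `b` a unit at `Q`. -/
theorem exists_frac (h : IsFF1 K F x) {Q : Place K F} (hQ : 0 ≤ Q.ord x) {c : F}
    (hc : 0 ≤ Q.ord c) :
    ∃ a b : F, IsIntegral (Algebra.adjoin K {x}) a ∧ IsIntegral (Algebra.adjoin K {x}) b ∧
      Q.ord b = 0 ∧ b ≠ 0 ∧ a = c * b := by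
  classical
  have := h.hasPrincipalDivisors
  have := h.finiteDimensional
  rcases eq_or_ne c 0 with rfl | hc0
  · exact ⟨0, 1, isIntegral_zero, isIntegral_one, Q.ord_one, one_ne_zero, by simp⟩
  have hfin : {P : Place K F | P.ord c < 0 ∧ 0 ≤ P.ord x}.Finite :=
    (finite_ord_ne_zero (K := K) hc0).subset fun P hP => ne_of_lt hP.1
  set T : Finset (Place K F) := hfin.toFinset with hT
  have hTmem : ∀ P, P ∈ T ↔ P.ord c < 0 ∧ 0 ≤ P.ord x := fun P => by
    rw [hT, Set.Finite.mem_toFinset]
    rfl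
  have hsep : ∀ P : Place K F, ∃ t : F, P ∈ T →
      IsIntegral (Algebra.adjoin K {x}) t ∧ 0 < P.ord t ∧ Q.ord t = 0 := by
    intro P
    by_cases hP : P ∈ T
    · have hPQ : P ≠ Q := by
        rintro rfl
        exact absurd ((hTmem P).1 hP).1 (not_lt.2 hc)
      obtain ⟨t, ht⟩ := exists_sep h ((hTmem P).1 hP).2 hQ hPQ
      exact ⟨t, fun _ => ht⟩
    · exact ⟨0, fun h' => absurd h' hP⟩
  choose t ht using hsep
  set m : Place K F → ℕ := fun P => (-P.ord c).toNat with hm
  have ht0 : ∀ P ∈ T, t P ≠ 0 := by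
    intro P hP h0
    have := (ht P hP).2.1
    rw [h0] at this
    simp at this
  have hb0 : ∏ P ∈ T, t P ^ m P ≠ 0 :=
    Finset.prod_ne_zero_iff.2 fun P hP => pow_ne_zero _ (ht0 P hP)
  have hbint : IsIntegral (Algebra.adjoin K {x}) (∏ P ∈ T, t P ^ m P) :=
    IsIntegral.prod _ fun P hP => (ht P hP).1.pow _
  have htreg : ∀ P' : Place K F, 0 ≤ P'.ord x → ∀ P ∈ T, 0 ≤ P'.ord (t P) := fun P' hP' P hP =>
    (Holo.isIntegral_adjoin_iff x (t P)).1 (ht P hP).1 P' hP'
  refine ⟨c * ∏ P ∈ T, t P ^ m P, ∏ P ∈ T, t P ^ m P, ?_, hbint, ?_, hb0, rfl⟩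
  · rw [Holo.isIntegral_adjoin_iff]
    intro P' hP'
    rw [P'.ord_mul hc0 hb0, ord_prod_pow P' T t m ht0]
    have hnn : ∀ P ∈ T, 0 ≤ (m P : ℤ) * P'.ord (t P) := fun P hP =>
      mul_nonneg (Int.natCast_nonneg _) (htreg P' hP' P hP)
    by_cases hP'T : P' ∈ T
    · have h1 : (m P' : ℤ) * P'.ord (t P') ≤ ∑ P ∈ T, (m P : ℤ) * P'.ord (t P) :=
        Finset.single_le_sum hnn hP'T
      have h2 : 1 ≤ P'.ord (t P') := (ht P' hP'T).2.1
      have h3 : (m P' : ℤ) = -P'.ord c := by
        rw [hm]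
        exact Int.toNat_of_nonneg (by have := ((hTmem P').1 hP'T).1; omega)
      have h4 : (m P' : ℤ) ≤ (m P' : ℤ) * P'.ord (t P') := by
        have := mul_le_mul_of_nonneg_left h2 (Int.natCast_nonneg (m P'))
        simpa using this
      omega
    · have h1 : 0 ≤ P'.ord c := by
        by_contra hneg
        exact hP'T ((hTmem P').2 ⟨not_le.1 hneg, hP'⟩)
      have h2 : 0 ≤ ∑ P ∈ T, (m P : ℤ) * P'.ord (t P) := Finset.sum_nonneg hnn
      omega
  · rw [ord_prod_pow Q T t m ht0]
    exact Finset.sum_eq_zero fun P hP => by rw [(ht P hP).2.2, mul_zero]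

end Fermat.Agent.CAR.LiftFF
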