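import Mathlib
import Fermat.Agent.CAR.LiftFF
import Fermat.Agent.Lib.Red.IntegralX
import Fermat.Agent.Lib.FF.SettingP

/-!
# CAR / LIFT (task CAR-11): RED's good-fibre normality in the shape CAR consumes

Generic setting of the RED layer: `(L, A, π, k)`, a level `N` with `(N : k) ≠ 0`, a base function
`B : BaseFn.Data A π N` (`x = B.x`, `x̄ = B.xt`), the Gauss valuation ring `Ow` of
`F' = L·F_N` and its residue map `redF : Ow → κ = modularFunctionFieldFullC k N`.

Hypotheses: `T3 B hπ hNk`, `T3' B hπ hNk` = the statements `hT3`, `hT3'` of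
`Lib/Red/DiscFinal.lean` / `InstGenusX.genusFF_le_modular` / `BAD.IsChartBase.lift, lift'`
(literally: the definitions unfold to them).

Finite chart (`B' = integralClosure (A[x]) F'`, `R̄ = integralClosure (k[x̄]) κ`):

* `isIntegral_AX_iff_place`, `isIntegral_xt_iff_place` : both rings in place form;
* `isIntegral_redF`, `exists_lift`, `isIntegral_xt_iff_exists_lift` : **`R̄ = redF B'`**;
* `lift_frac` (Lf-1): for a place `Q` of `κ` with `x̄(Q) ≠ ∞`, every `c ∈ V_Q` is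
  `redF a / redF b` with `a, b ∈ B'`, `redF b ∈ V_Q^×`;
* `lift_sep` (Lf-2): distinct finite places are separated by `redF y`, `y ∈ B'`.

Chart at infinity (`B'_∞ = {y ∈ Ow regular where x ≠ 0}`), from `T3'` (Lf-3):
`mem_Binf_iff`, `redF_mem_Rinf`, `exists_lift_inf`, `lift_frac_inf`, `lift_sep_inf`.

Transport (Lf-4): `isIntegral_map` — an `L`-algebra map `φ` into a field `F''` sends `B'` into
the integral closure of any subring `R ⊇ A` over which `φ x` is integral.
-/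

set_option autoImplicit false

noncomputable section

namespace Fermat.Agent.CAR.Lift

open HahnSeries ModularCurve Polynomial AlgebraicCurve Fermat.Agent.S28 IntermediateField
  Fermat.Agent.Lib.FF Fermat.Agent.Lib.Red Fermat.Agent.S24

variable {L : Type*} [Field L] [Algebra ℚ L] {A : ValuationSubring L} {k : Type} [Field k]
  {π : A →+* k} {N : ℕ} [NeZero N] (B : BaseFn.Data A π N)

/-- **(T3)**: good reduction of the chart `x ≠ ∞` (literal shape of `DiscInst.hT3`). -/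
def T3 (hπ : ∀ a : A, ¬ IsUnit a → π a = 0) (hNk : (N : k) ≠ 0) : Prop :=
  ∀ s : ↥(modularFunctionFieldFullC k N),
    (∀ Q : Place k ↥(modularFunctionFieldFullC k N), 0 ≤ Q.ord (B.xt hπ hNk) → 0 ≤ Q.ord s) →
    ∃ y : Ow A π N hNk, redF A π N hπ hNk y = s ∧
      ∀ P : Place L ↥(laurentBaseChange L (modularFunctionFieldFull N)),
        0 ≤ P.ord B.x →
          0 ≤ P.ord (y : ↥(laurentBaseChange L (modularFunctionFieldFull N)))

/-- **(T3')**: good reduction of the chart `x ≠ 0` (literal shape of `DiscInst.hT3'`). -/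
def T3' (hπ : ∀ a : A, ¬ IsUnit a → π a = 0) (hNk : (N : k) ≠ 0) : Prop :=
  ∀ s : ↥(modularFunctionFieldFullC k N),
    (∀ Q : Place k ↥(modularFunctionFieldFullC k N), Q.ord (B.xt hπ hNk) ≤ 0 → 0 ≤ Q.ord s) →
    ∃ y : Ow A π N hNk, redF A π N hπ hNk y = s ∧
      ∀ P : Place L ↥(laurentBaseChange L (modularFunctionFieldFull N)),
        P.ord B.x ≤ 0 →
          0 ≤ P.ord (y : ↥(laurentBaseChange L (modularFunctionFieldFull N)))

variable (hπ : ∀ a : A, ¬ IsUnit a → π a = 0) (hsurj : Function.Surjective π)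
  (hNk : (N : k) ≠ 0)

/-! ### The finite chart -/

include hπ hsurj in
/-- `B' = integralClosure (A[x]) F'` in place form: Gauss-integral and regular where `x` is. -/
theorem isIntegral_AX_iff_place {y : ↥(laurentBaseChange L (modularFunctionFieldFull N))} :
    IsIntegral ↥(B.AX) y ↔ y ∈ Ow A π N hNk ∧
      ∀ P : Place L ↥(laurentBaseChange L (modularFunctionFieldFull N)),
        0 ≤ P.ord B.x → 0 ≤ P.ord y := by
  have : FiniteDimensional ↥(L⟮B.x⟯) ↥(laurentBaseChange L (modularFunctionFieldFull N)) :=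
    B.finite_L hπ hsurj hNk
  rw [B.isIntegral_AX_iff hπ hsurj hNk, Holo.isIntegral_adjoin_iff]

include hsurj in
/-- `R̄ = integralClosure (k[x̄]) κ` in place form. -/
theorem isIntegral_xt_iff_place {s : ↥(modularFunctionFieldFullC k N)} :
    IsIntegral ↥(Algebra.adjoin k {B.xt hπ hNk}) s ↔
      ∀ Q : Place k ↥(modularFunctionFieldFullC k N), 0 ≤ Q.ord (B.xt hπ hNk) → 0 ≤ Q.ord s := by
  have : FiniteDimensional ↥(k⟮B.xt hπ hNk⟯) ↥(modularFunctionFieldFullC k N) :=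
    B.finite_k hπ hsurj hNk
  rw [Holo.isIntegral_adjoin_iff]

/-- `redF B' ⊆ R̄`. -/
theorem isIntegral_redF (y : Ow A π N hNk)
    (hy : IsIntegral ↥(B.AX) (y : ↥(laurentBaseChange L (modularFunctionFieldFull N)))) :
    IsIntegral ↥(Algebra.adjoin k {B.xt hπ hNk}) (redF A π N hπ hNk y) :=
  B.isIntegral_redF hπ hNk y hy

include hsurj in
/-- `R̄ ⊆ redF B'` (from (T3)). -/
theorem exists_lift (h : T3 B hπ hNk) {s : ↥(modularFunctionFieldFullC k N)}
    (hs : IsIntegral ↥(Algebra.adjoin k {B.xt hπ hNk}) s) :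
    ∃ y : Ow A π N hNk,
      IsIntegral ↥(B.AX) (y : ↥(laurentBaseChange L (modularFunctionFieldFull N))) ∧
        redF A π N hπ hNk y = s := by
  obtain ⟨y, hy, hreg⟩ := h s ((isIntegral_xt_iff_place B hπ hsurj hNk).1 hs)
  exact ⟨y, (isIntegral_AX_iff_place B hπ hsurj hNk).2 ⟨y.2, hreg⟩, hy⟩

include hsurj in
/-- **`R̄ = redF B'`.** -/
theorem isIntegral_xt_iff_exists_lift (h : T3 B hπ hNk)
    {s : ↥(modularFunctionFieldFullC k N)} :
    IsIntegral ↥(Algebra.adjoin k {B.xt hπ hNk}) s ↔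
      ∃ y : Ow A π N hNk,
        IsIntegral ↥(B.AX) (y : ↥(laurentBaseChange L (modularFunctionFieldFull N))) ∧
          redF A π N hπ hNk y = s :=
  ⟨exists_lift B hπ hsurj hNk h, fun ⟨y, hy, hs⟩ => hs ▸ isIntegral_redF B hπ hNk y hy⟩

include hsurj in
/-- `IsFF1` for the special fibre and `x̄` (only `k` algebraically closed is needed). -/
theorem isFF1_xt [IsAlgClosed k] :
    IsFF1 k ↥(modularFunctionFieldFullC k N) (B.xt hπ hNk) := by
  have : FiniteDimensional ↥(k⟮B.xt hπ hNk⟯) ↥(modularFunctionFieldFullC k N) :=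
    B.finite_k hπ hsurj hNk
  exact isFF1_of_isAlgClosed (B.xt hπ hNk) (B.transcendental_xt hπ hNk)

include hsurj in
/-- **(Lf-1) / (LIFT_s).**  For a place `Q` of the special fibre with `x̄(Q) ≠ ∞`, the valuation
ring `V_Q` is the localisation of `redF B'` at the centre of `Q`: every `c ∈ V_Q` is
`redF a / redF b` with `a, b ∈ B'` and `redF b` a unit at `Q`. -/
theorem lift_frac [IsAlgClosed k] (h : T3 B hπ hNk)
    (Q : Place k ↥(modularFunctionFieldFullC k N)) (hQ : 0 ≤ Q.ord (B.xt hπ hNk))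
    {c : ↥(modularFunctionFieldFullC k N)} (hc : 0 ≤ Q.ord c) :
    ∃ a b : Ow A π N hNk,
      IsIntegral ↥(B.AX) (a : ↥(laurentBaseChange L (modularFunctionFieldFull N))) ∧
      IsIntegral ↥(B.AX) (b : ↥(laurentBaseChange L (modularFunctionFieldFull N))) ∧
      Q.ord (redF A π N hπ hNk b) = 0 ∧ redF A π N hπ hNk b ≠ 0 ∧
      redF A π N hπ hNk a = c * redF A π N hπ hNk b := by
  obtain ⟨a₀, b₀, ha₀, hb₀, hQb, hb0, hab⟩ :=
    LiftFF.exists_frac (isFF1_xt B hπ hsurj hNk) hQ hc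
  obtain ⟨a, ha, rfl⟩ := exists_lift B hπ hsurj hNk h ha₀
  obtain ⟨b, hb, rfl⟩ := exists_lift B hπ hsurj hNk h hb₀
  exact ⟨a, b, ha, hb, hQb, hb0, hab⟩

include hsurj in
/-- **(Lf-2).**  `redF B'` separates the places of the special fibre at which `x̄` is regular. -/
theorem lift_sep [IsAlgClosed k] (h : T3 B hπ hNk)
    {Q Q' : Place k ↥(modularFunctionFieldFullC k N)} (hQ : 0 ≤ Q.ord (B.xt hπ hNk))
    (hQ' : 0 ≤ Q'.ord (B.xt hπ hNk)) (hne : Q ≠ Q') :
    ∃ y : Ow A π N hNk,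
      IsIntegral ↥(B.AX) (y : ↥(laurentBaseChange L (modularFunctionFieldFull N))) ∧
      0 < Q.ord (redF A π N hπ hNk y) ∧ Q'.ord (redF A π N hπ hNk y) = 0 := by
  obtain ⟨t, ht, h1, h2⟩ := LiftFF.exists_sep (isFF1_xt B hπ hsurj hNk) hQ hQ' hne
  obtain ⟨y, hy, rfl⟩ := exists_lift B hπ hsurj hNk h ht
  exact ⟨y, hy, h1, h2⟩

/-! ### The chart at infinity -/

/-- `B'_∞`: Gauss-integral functions regular where `x ≠ 0`. -/
def Binf : Subring ↥(laurentBaseChange L (modularFunctionFieldFull N)) where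
  carrier := {y | y ∈ Ow A π N hNk ∧
    ∀ P : Place L ↥(laurentBaseChange L (modularFunctionFieldFull N)),
      P.ord B.x ≤ 0 → 0 ≤ P.ord y}
  mul_mem' := by
    rintro a b ⟨ha, ha'⟩ ⟨hb, hb'⟩
    refine ⟨mul_mem ha hb, fun P hP => ?_⟩
    rw [← mem_iff_ord_nonneg]
    exact mul_mem ((mem_iff_ord_nonneg P).2 (ha' P hP)) ((mem_iff_ord_nonneg P).2 (hb' P hP))
  one_mem' := ⟨one_mem _, fun P _ => by rw [P.ord_one]⟩
  add_mem' := by
    rintro a b ⟨ha, ha'⟩ ⟨hb, hb'⟩
    refine ⟨add_mem ha hb, fun P hP => ?_⟩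
    rw [← mem_iff_ord_nonneg]
    exact add_mem ((mem_iff_ord_nonneg P).2 (ha' P hP)) ((mem_iff_ord_nonneg P).2 (hb' P hP))
  zero_mem' := ⟨zero_mem _, fun P _ => by rw [P.ord_zero]⟩
  neg_mem' := by
    rintro a ⟨ha, ha'⟩
    refine ⟨neg_mem ha, fun P hP => ?_⟩
    rw [← mem_iff_ord_nonneg]
    exact neg_mem ((mem_iff_ord_nonneg P).2 (ha' P hP))

theorem mem_Binf_iff {y : ↥(laurentBaseChange L (modularFunctionFieldFull N))} :
    y ∈ Binf B hNk ↔ y ∈ Ow A π N hNk ∧
      ∀ P : Place L ↥(laurentBaseChange L (modularFunctionFieldFull N)),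
        P.ord B.x ≤ 0 → 0 ≤ P.ord y := Iff.rfl

include hπ hsurj in
/-- `B'_∞ = Ow ∩ integralClosure (L[x⁻¹]) F'`. -/
theorem mem_Binf_iff_isIntegral {y : ↥(laurentBaseChange L (modularFunctionFieldFull N))} :
    y ∈ Binf B hNk ↔ y ∈ Ow A π N hNk ∧ IsIntegral ↥(Algebra.adjoin L {(B.x)⁻¹}) y := by
  have : FiniteDimensional ↥(L⟮B.x⟯) ↥(laurentBaseChange L (modularFunctionFieldFull N)) :=
    B.finite_L hπ hsurj hNk
  rw [mem_Binf_iff, Holo.isIntegral_adjoin_inv_iff]

include hsurj in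
/-- `R̄_∞ = integralClosure (k[x̄⁻¹]) κ` in place form. -/
theorem isIntegral_xt_inv_iff_place {s : ↥(modularFunctionFieldFullC k N)} :
    IsIntegral ↥(Algebra.adjoin k {(B.xt hπ hNk)⁻¹}) s ↔
      ∀ Q : Place k ↥(modularFunctionFieldFullC k N), Q.ord (B.xt hπ hNk) ≤ 0 → 0 ≤ Q.ord s := by
  have : FiniteDimensional ↥(k⟮B.xt hπ hNk⟯) ↥(modularFunctionFieldFullC k N) :=
    B.finite_k hπ hsurj hNk
  rw [Holo.isIntegral_adjoin_inv_iff]

include hsurj in
/-- `R̄_∞ ⊆ redF B'_∞` (from (T3')). -/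
theorem exists_lift_inf (h : T3' B hπ hNk) {s : ↥(modularFunctionFieldFullC k N)}
    (hs : IsIntegral ↥(Algebra.adjoin k {(B.xt hπ hNk)⁻¹}) s) :
    ∃ y : Ow A π N hNk,
      (y : ↥(laurentBaseChange L (modularFunctionFieldFull N))) ∈ Binf B hNk ∧
        redF A π N hπ hNk y = s := by
  obtain ⟨y, hy, hreg⟩ := h s ((isIntegral_xt_inv_iff_place B hπ hsurj hNk).1 hs)
  exact ⟨y, ⟨y.2, hreg⟩, hy⟩

include hsurj in
/-- **(Lf-3), fractions at infinity.**  For a place `Q` of the special fibre with `x̄(Q) ≠ 0`,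
every `c ∈ V_Q` is `redF a / redF b` with `a, b ∈ B'_∞`, `redF b` a unit at `Q`. -/
theorem lift_frac_inf [IsAlgClosed k] (h : T3' B hπ hNk)
    (Q : Place k ↥(modularFunctionFieldFullC k N)) (hQ : Q.ord (B.xt hπ hNk) ≤ 0)
    {c : ↥(modularFunctionFieldFullC k N)} (hc : 0 ≤ Q.ord c) :
    ∃ a b : Ow A π N hNk,
      (a : ↥(laurentBaseChange L (modularFunctionFieldFull N))) ∈ Binf B hNk ∧
      (b : ↥(laurentBaseChange L (modularFunctionFieldFull N))) ∈ Binf B hNk ∧
      Q.ord (redF A π N hπ hNk b) = 0 ∧ redF A π N hπ hNk b ≠ 0 ∧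
      redF A π N hπ hNk a = c * redF A π N hπ hNk b := by
  have hQ' : 0 ≤ Q.ord (B.xt hπ hNk)⁻¹ := by
    rw [Q.ord_inv]
    omega
  obtain ⟨a₀, b₀, ha₀, hb₀, hQb, hb0, hab⟩ :=
    LiftFF.exists_frac (isFF1_xt B hπ hsurj hNk).inv hQ' hc
  obtain ⟨a, ha, rfl⟩ := exists_lift_inf B hπ hsurj hNk h ha₀
  obtain ⟨b, hb, rfl⟩ := exists_lift_inf B hπ hsurj hNk h hb₀
  exact ⟨a, b, ha, hb, hQb, hb0, hab⟩

include hsurj in
/-- **(Lf-3), separation at infinity.** -/
theorem lift_sep_inf [IsAlgClosed k] (h : T3' B hπ hNk)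
    {Q Q' : Place k ↥(modularFunctionFieldFullC k N)} (hQ : Q.ord (B.xt hπ hNk) ≤ 0)
    (hQ' : Q'.ord (B.xt hπ hNk) ≤ 0) (hne : Q ≠ Q') :
    ∃ y : Ow A π N hNk,
      (y : ↥(laurentBaseChange L (modularFunctionFieldFull N))) ∈ Binf B hNk ∧
      0 < Q.ord (redF A π N hπ hNk y) ∧ Q'.ord (redF A π N hπ hNk y) = 0 := by
  have h1 : 0 ≤ Q.ord (B.xt hπ hNk)⁻¹ := by
    rw [Q.ord_inv]
    omega
  have h2 : 0 ≤ Q'.ord (B.xt hπ hNk)⁻¹ := by
    rw [Q'.ord_inv]
    omega
  obtain ⟨t, ht, h3, h4⟩ := LiftFF.exists_sep (isFF1_xt B hπ hsurj hNk).inv h1 h2 hne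
  obtain ⟨y, hy, rfl⟩ := exists_lift_inf B hπ hsurj hNk h ht
  exact ⟨y, hy, h3, h4⟩

/-! ### Transport -/

omit [NeZero N] in
/-- **(Lf-4).**  An `L`-algebra map `φ : F' → F''` sends `B' = integralClosure (A[x]) F'` into
the integral closure of every subring `R` of `F''` containing `A` over which `φ x` is integral
(e.g. `R = A[J₀]` and `φ = π_i^*`, by the modular equations). -/
theorem isIntegral_map {F'' : Type*} [Field F''] [Algebra L F'']
    (φ : ↥(laurentBaseChange L (modularFunctionFieldFull N)) →ₐ[L] F'') (R : Subring F'')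
    (hA : ∀ a : A, algebraMap L F'' (a : L) ∈ R) (hx : IsIntegral R (φ B.x))
    {y : ↥(laurentBaseChange L (modularFunctionFieldFull N))} (hy : IsIntegral ↥(B.AX) y) :
    IsIntegral R (φ y) := by
  -- `φ (A[x]) ⊆ integralClosure R F''`
  have hAX : ∀ z : ↥(B.AX),
      φ (z : ↥(laurentBaseChange L (modularFunctionFieldFull N))) ∈ integralClosure R F'' := by
    rintro ⟨z, p, rfl⟩
    show IsIntegral R (φ (Polynomial.aeval B.x (p.map A.subtype)))
    rw [← Polynomial.aeval_algHom_apply, Polynomial.aeval_eq_sum_range]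
    refine IsIntegral.sum _ fun i _ => ?_
    rw [Algebra.smul_def, Polynomial.coeff_map]
    refine IsIntegral.mul ?_ (hx.pow i)
    exact isIntegral_algebraMap (R := R) (x := (⟨_, hA (p.coeff i)⟩ : R))
  obtain ⟨f, hf, hfy⟩ := hy
  let ψ : ↥(B.AX) →+* ↥(integralClosure R F'') :=
    ((φ : ↥(laurentBaseChange L (modularFunctionFieldFull N)) →+* F'').comp
      (B.AX).subtype).codRestrict (integralClosure R F'') hAX
  have h1 : IsIntegral ↥(integralClosure R F'') (φ y) := by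
    refine ⟨f.map ψ, hf.map ψ, ?_⟩
    rw [Polynomial.eval₂_map]
    have h2 : (algebraMap ↥(integralClosure R F'') F'').comp ψ =
        (φ : ↥(laurentBaseChange L (modularFunctionFieldFull N)) →+* F'').comp
          (algebraMap ↥(B.AX) ↥(laurentBaseChange L (modularFunctionFieldFull N))) := rfl
    rw [h2]
    have h3 := Polynomial.hom_eval₂ f
      (algebraMap ↥(B.AX) ↥(laurentBaseChange L (modularFunctionFieldFull N)))
      (φ : ↥(laurentBaseChange L (modularFunctionFieldFull N)) →+* F'') y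
    rw [hfy, map_zero] at h3
    exact h3.symm
  exact isIntegral_trans (R := R) (A := ↥(integralClosure R F'')) (φ y) h1

end Fermat.Agent.CAR.Lift
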