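/-
CAR (Lf-5), shadow route (helper90): `K0`-RATIONAL LIFTING.

`A` a valuation subring of `ℚ̄` over a prime `q`, `I = A.inertiaSubgroupIn ℚ` its inertia group,
`K0 = K0.K0 A = ℚ̄^I` the inertia field, `W0 = A ∩ K0`; `F = ℚ̄·F_N` with its Gauss valuation
ring `OwA A N hN` and residue map `redA A N hN` (`(N : k) ≠ 0`).

* `exists_subEmb_eq_of_fixed` : a function whose `q`-coefficients are fixed by `I` comes from
  `K0·F_N`;
* `le_span_subEmb_of_stable` : a finite-dimensional `ℚ̄`-subspace of `F` stable under `I` is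
  spanned by its `K0`-rational elements (`Lib.Descent.le_span_fixed`);
* `exists_rational_of_stable` : **the principle** — for such a `V` and `y ∈ V ∩ Ow` there is a
  `K0`-rational `y' ∈ V ∩ Ow` with the same reduction (lattice basis of `V` defined over `K0`,
  `Padic.exists_isLatBasis_of_sub`; integral coordinates; `W0` has the residue field of `A`);
* `finite_orbit`, `orbitSpan` : the span of the `I`-orbit of a function is finite-dimensional
  and `I`-stable;
* `exists_rational_regular` : if `y ∈ Ow` is regular at all places of an `I`-stable set of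
  places, there is a `K0`-rational `y' ∈ Ow`, regular at the same places, with the same reduction;
* `T3_rational`, `T3'_rational` : **(T3), (T3') with `K0`-rational lifts**, for a base function
  `x` fixed by `I`.
-/
import Mathlib
import Fermat.Agent.Padic.LatticeRat
import Fermat.Agent.CAR.K0
import Fermat.Agent.CAR.Lift
import Fermat.Agent.ESJ.Jac.FiniteLevelCore
import Fermat.Agent.ESJ.Dict.Bc

set_option autoImplicit false
set_option linter.style.haveILetI false
set_option linter.unusedSectionVars false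

namespace Fermat.Agent.CAR.LiftRatB

open AlgebraicCurve HahnSeries ModularCurve Module
open Fermat.Agent.Lib.Red Fermat.Agent.Padic Fermat.Agent.Lib.Descent

local notation "Qb" => AlgebraicClosure ℚ
local notation "GQ" => (AlgebraicClosure ℚ ≃ₐ[ℚ] AlgebraicClosure ℚ)

noncomputable section

variable (A : ValuationSubring Qb) (N : ℕ) [NeZero N]

/-! ### Rational spanning over the inertia field -/

omit [NeZero N] in
/-- A function all of whose `q`-coefficients are fixed by the inertia group comes from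
`K0·F_N`. -/
theorem exists_subEmb_eq_of_fixed (f : ↥(modularFunctionFieldBar N))
    (hf : ∀ σ ∈ A.inertiaSubgroupIn ℚ, ∀ i : ℤ,
      σ ((f : LaurentSeries Qb).coeff i) = (f : LaurentSeries Qb).coeff i) :
    ∃ y : ↥(laurentBaseChange ↥(K0.K0 A) (modularFunctionFieldFull N)),
      subEmb ↥(K0.K0 A) N y = f := by
  obtain ⟨y, hy⟩ := mem_range_coeffMap_of_coeff (K := ↥(K0.K0 A))
    (f : LaurentSeries Qb) (fun i =>
      ⟨⟨(f : LaurentSeries Qb).coeff i, (K0.mem_K0_iff A _).mpr fun σ hσ => hf σ hσ i⟩, rfl⟩)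
  have hmem : y ∈ laurentBaseChange ↥(K0.K0 A) (modularFunctionFieldFull N) :=
    mem_laurentBaseChange_of_coeffMap_mem (modularFunctionFieldFull N) (by rw [hy]; exact f.2)
  exact ⟨⟨y, hmem⟩, Subtype.ext hy⟩

omit [NeZero N] in
/-- **Rational spanning over `K0`.**  A finite-dimensional `ℚ̄`-subspace of `ℚ̄·F_N` which is
stable under the inertia group is spanned by its `K0`-rational elements. -/
theorem le_span_subEmb_of_stable
    (V : Submodule Qb ↥(modularFunctionFieldBar N)) (hVfin : FiniteDimensional Qb V)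
    (hV : ∀ σ ∈ A.inertiaSubgroupIn ℚ, ∀ f ∈ V,
      arithmeticGalois (modularFunctionFieldFull N) σ • f ∈ V) :
    V ≤ Submodule.span Qb
      {f | f ∈ V ∧ ∃ y : ↥(laurentBaseChange ↥(K0.K0 A) (modularFunctionFieldFull N)),
        subEmb ↥(K0.K0 A) N y = f} := by
  classical
  -- the coefficient map
  let c : ↥(modularFunctionFieldBar N) →ₗ[Qb] (ℤ → Qb) :=
    { toFun := fun f => fun i => (f : LaurentSeries Qb).coeff i
      map_add' := fun f g => by
        funext i
        show ((f + g : ↥(modularFunctionFieldBar N)) : LaurentSeries Qb).coeff i = _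
        rw [AddMemClass.coe_add, HahnSeries.coeff_add]
        rfl
      map_smul' := fun a f => by
        funext i
        show ((a • f : ↥(modularFunctionFieldBar N)) : LaurentSeries Qb).coeff i =
            a * (f : LaurentSeries Qb).coeff i
        have h1 : ((a • f : ↥(modularFunctionFieldBar N)) : LaurentSeries Qb) =
            HahnSeries.C a * (f : LaurentSeries Qb) := by
          rw [Algebra.smul_def, Fermat.Agent.Lib.Red.C_eq_algebraMap]
          rfl
        rw [h1, coeff_C_mul] }
  have hc : ∀ f i, c f i = (f : LaurentSeries Qb).coeff i := fun f i => rfl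
  have hcinj : Function.Injective c := by
    intro f g hfg
    apply Subtype.ext
    ext i
    exact congrFun hfg i
  set W : Submodule Qb (ℤ → Qb) := V.map c with hW
  have : FiniteDimensional Qb W := by
    rw [hW]
    infer_instance
  let Φ : Set (Qb →+* Qb) := {φ | ∃ σ ∈ A.inertiaSubgroupIn ℚ, ((σ : GQ) : Qb →+* Qb) = φ}
  have hΦ : ∀ φ ∈ Φ, ∀ x ∈ W, (fun i => φ (x i)) ∈ W := by
    rintro _ ⟨σ, hσ, rfl⟩ x ⟨f, hf, rfl⟩
    refine ⟨arithmeticGalois (modularFunctionFieldFull N) σ • f, hV σ hσ f hf, ?_⟩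
    funext i
    rw [hc, coe_arithmeticGalois_smul, coeffMap_coeff]
    rfl
  have h1 := le_span_fixed W Φ hΦ
  intro f hf
  have h2 : c f ∈ Submodule.span Qb {x | x ∈ W ∧ ∀ φ ∈ Φ, ∀ i, φ (x i) = x i} :=
    h1 ⟨f, hf, rfl⟩
  have h3 : Submodule.span Qb {x | x ∈ W ∧ ∀ φ ∈ Φ, ∀ i, φ (x i) = x i} ≤
      (Submodule.span Qb
        {f | f ∈ V ∧ ∃ y : ↥(laurentBaseChange ↥(K0.K0 A) (modularFunctionFieldFull N)),
          subEmb ↥(K0.K0 A) N y = f}).map c := by
    rw [Submodule.span_le]
    rintro x ⟨⟨g, hg, rfl⟩, hfix⟩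
    exact ⟨g, Submodule.subset_span
      ⟨hg, exists_subEmb_eq_of_fixed A N g (fun σ hσ i => hfix _ ⟨σ, hσ, rfl⟩ i)⟩, rfl⟩
  obtain ⟨g, hg, hgf⟩ := h3 h2
  rw [← hcinj hgf]
  exact hg

/-! ### The principle -/

set_option synthInstance.maxHeartbeats 400000 in
set_option maxHeartbeats 1000000 in
/-- **`K0`-rational elements with a prescribed reduction.**  Let `V` be a finite-dimensional
`ℚ̄`-subspace of `ℚ̄·F_N` stable under the inertia group of `A`.  Every `y ∈ V ∩ O_w` has the same
reduction as some `K0`-rational `y' ∈ V ∩ O_w`. -/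
theorem exists_rational_of_stable {q : ℕ} (hq : q.Prime) (hA : A.LiesOverPrime q)
    (hN : (N : IsLocalRing.ResidueField A) ≠ 0)
    (V : Submodule Qb ↥(modularFunctionFieldBar N)) (hVfin : FiniteDimensional Qb V)
    (hV : ∀ σ ∈ A.inertiaSubgroupIn ℚ, ∀ f ∈ V,
      arithmeticGalois (modularFunctionFieldFull N) σ • f ∈ V)
    (y : OwA A N hN) (hy : (y : ↥(modularFunctionFieldBar N)) ∈ V) :
    ∃ y' : OwA A N hN, (y' : ↥(modularFunctionFieldBar N)) ∈ V ∧
      (∃ z : ↥(laurentBaseChange ↥(K0.K0 A) (modularFunctionFieldFull N)),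
        subEmb ↥(K0.K0 A) N z = (y' : ↥(modularFunctionFieldBar N))) ∧
      redA A N hN y' = redA A N hN y := by
  classical
  obtain ⟨d, b₀, b, hb₀, hb⟩ := exists_isLatBasis_of_sub ↥(K0.K0 A) A N hN V hVfin
    (le_span_subEmb_of_stable A N V hVfin hV)
  have h := redData_A A N hN
  obtain ⟨a, ha⟩ := hb.exists_coeff_O h y hy
  choose w hw using fun i => K0.resW0_surjective hq hA (IsLocalRing.residue A (a i))
  refine ⟨∑ i, h.cO (K0.inclW0 A (w i)) * b i, ?_, ?_, ?_⟩
  · rw [h.coe_sum]
    exact Submodule.sum_mem _ fun i _ => Submodule.smul_mem _ _ (hb.mem i)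
  · refine ⟨∑ i, ((w i : ↥(K0.W0 A)) : ↥(K0.K0 A)) • b₀ i, ?_⟩
    rw [h.coe_sum, map_sum]
    refine Finset.sum_congr rfl fun i _ => ?_
    rw [subEmb_smul, ← hb₀ i]
    rfl
  · rw [ha, h.red_sum, h.red_sum]
    refine Finset.sum_congr rfl fun i _ => ?_
    rw [← hw i]
    rfl

/-! ### Orbits -/

omit [NeZero N] in
/-- The Galois orbit of a function of `ℚ̄·F_N` is finite. -/
theorem finite_orbit (f : ↥(modularFunctionFieldBar N)) :
    (Set.range fun σ : GQ => arithmeticGalois (modularFunctionFieldFull N) σ • f).Finite := by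
  obtain ⟨E, hE, hfix⟩ :=
    Fermat.Agent.ESJ.Jac.FiniteLevel.exists_level_elt (modularFunctionFieldFull N) f
  let r : GQ → (↥E →ₐ[ℚ] Qb) := fun σ => (σ : Qb →ₐ[ℚ] Qb).comp E.val
  have hfac : ∀ σ τ : GQ, r σ = r τ →
      arithmeticGalois (modularFunctionFieldFull N) σ • f =
        arithmeticGalois (modularFunctionFieldFull N) τ • f := by
    intro σ τ hστ
    have h1 : ∀ a ∈ E, (σ⁻¹ * τ) a = a := by
      intro a ha
      have h2 : σ a = τ a := congrArg (fun φ : ↥E →ₐ[ℚ] Qb => φ ⟨a, ha⟩) hστ
      show σ⁻¹ (τ a) = a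
      rw [← h2]
      exact σ.symm_apply_apply a
    have h3 := hfix (σ⁻¹ * τ) h1
    rw [map_mul, mul_smul, map_inv, inv_smul_eq_iff] at h3
    exact h3.symm
  have : Finite (↥E →ₐ[ℚ] Qb) := inferInstance
  refine (Set.finite_range (Function.extend r
    (fun σ => arithmeticGalois (modularFunctionFieldFull N) σ • f) (fun _ => f))).subset ?_
  rintro _ ⟨σ, rfl⟩
  exact ⟨r σ, Function.FactorsThrough.extend_apply (fun σ τ hστ => hfac σ τ hστ) _ σ⟩

/-- The `ℚ̄`-span of the orbit of `f` under the inertia group. -/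
def orbitSpan (f : ↥(modularFunctionFieldBar N)) : Submodule Qb ↥(modularFunctionFieldBar N) :=
  Submodule.span Qb {g | ∃ σ ∈ A.inertiaSubgroupIn ℚ,
    arithmeticGalois (modularFunctionFieldFull N) σ • f = g}

omit [NeZero N] in
theorem mem_orbitSpan (f : ↥(modularFunctionFieldBar N)) : f ∈ orbitSpan A N f :=
  Submodule.subset_span ⟨1, Subgroup.one_mem _, by rw [map_one, one_smul]⟩

omit [NeZero N] in
theorem finiteDimensional_orbitSpan (f : ↥(modularFunctionFieldBar N)) :
    FiniteDimensional Qb (orbitSpan A N f) := by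
  refine FiniteDimensional.span_of_finite Qb ((finite_orbit N f).subset ?_)
  rintro g ⟨σ, -, rfl⟩
  exact ⟨σ, rfl⟩

omit [NeZero N] in
/-- The action of a semilinear automorphism on a scalar multiple. -/
theorem semilinear_smul_smul (g : SemilinearAut Qb ↥(modularFunctionFieldBar N)) (a : Qb)
    (v : ↥(modularFunctionFieldBar N)) :
    g • (a • v) = (SemilinearAut.baseAut g a) • (g • v) := by
  rw [Algebra.smul_def, Algebra.smul_def, smul_mul', SemilinearAut.smul_algebraMap]

omit [NeZero N] in
theorem orbitSpan_stable (f : ↥(modularFunctionFieldBar N)) :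
    ∀ σ ∈ A.inertiaSubgroupIn ℚ, ∀ v ∈ orbitSpan A N f,
      arithmeticGalois (modularFunctionFieldFull N) σ • v ∈ orbitSpan A N f := by
  intro σ hσ v hv
  induction hv using Submodule.span_induction with
  | mem g hg =>
    obtain ⟨τ, hτ, rfl⟩ := hg
    refine Submodule.subset_span ⟨σ * τ, Subgroup.mul_mem _ hσ hτ, ?_⟩
    rw [map_mul, mul_smul]
  | zero =>
    rw [smul_zero]
    exact Submodule.zero_mem _
  | add u v _ _ hu hv =>
    rw [smul_add]
    exact Submodule.add_mem _ hu hv
  | smul a v _ hv =>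
    rw [semilinear_smul_smul]
    exact Submodule.smul_mem _ _ hv

/-! ### Regularity on a stable set of places -/

omit [NeZero N] in
/-- The order of a transformed function at a place. -/
theorem ord_smul_eq (g : SemilinearAut Qb ↥(modularFunctionFieldBar N))
    (P : Place Qb ↥(modularFunctionFieldBar N)) (f : ↥(modularFunctionFieldBar N)) :
    P.ord (g • f) = (g⁻¹ • P).ord f := by
  have h := SemilinearAut.ord_smul (g := g) (v := g⁻¹ • P) f
  rwa [smul_inv_smul] at h

set_option synthInstance.maxHeartbeats 400000 in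
set_option maxHeartbeats 1000000 in
/-- **Rational lifts, general form.**  Let `p` be a set of places of `ℚ̄·F_N` stable under the
inertia group.  If `y ∈ O_w` is regular at all places of `p`, there is a `K0`-rational
`y' ∈ O_w`, regular at all places of `p`, with the same reduction. -/
theorem exists_rational_regular {q : ℕ} (hq : q.Prime) (hA : A.LiesOverPrime q)
    (hN : (N : IsLocalRing.ResidueField A) ≠ 0)
    (p : Place Qb ↥(modularFunctionFieldBar N) → Prop)
    (hp : ∀ σ ∈ A.inertiaSubgroupIn ℚ, ∀ P, p P →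
      p ((arithmeticGalois (modularFunctionFieldFull N) σ)⁻¹ • P))
    (y : OwA A N hN)
    (hreg : ∀ P, p P → 0 ≤ P.ord (y : ↥(modularFunctionFieldBar N))) :
    ∃ y' : OwA A N hN, redA A N hN y' = redA A N hN y ∧
      (∀ P, p P → 0 ≤ P.ord (y' : ↥(modularFunctionFieldBar N))) ∧
      ∃ z : ↥(laurentBaseChange ↥(K0.K0 A) (modularFunctionFieldFull N)),
        subEmb ↥(K0.K0 A) N z = (y' : ↥(modularFunctionFieldBar N)) := by
  have hall : ∀ v ∈ orbitSpan A N (y : ↥(modularFunctionFieldBar N)),
      ∀ P, p P → 0 ≤ P.ord v := by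
    intro v hv
    induction hv using Submodule.span_induction with
    | mem g hg =>
      obtain ⟨σ, hσ, rfl⟩ := hg
      intro P hP
      rw [ord_smul_eq]
      exact hreg _ (hp σ hσ P hP)
    | zero =>
      intro P _
      rw [Place.ord_zero]
    | add u v _ _ hu hv =>
      intro P hP
      rw [Fermat.Agent.Lib.Red.GenusLe.ord_nonneg_iff] at *
      exact (P.adicValuation).map_add_le ((Fermat.Agent.Lib.Red.GenusLe.ord_nonneg_iff P u).mp
        (hu P hP)) ((Fermat.Agent.Lib.Red.GenusLe.ord_nonneg_iff P v).mp (hv P hP))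
    | smul a v _ hv =>
      intro P hP
      rw [Fermat.Agent.Lib.Red.GenusLe.ord_nonneg_iff, Algebra.smul_def, map_mul]
      exact mul_le_one' (P.adicValuation_algebraMap_le_one a)
        ((Fermat.Agent.Lib.Red.GenusLe.ord_nonneg_iff P v).mp (hv P hP))
  obtain ⟨y', hy'V, hrat, hred⟩ := exists_rational_of_stable A N hq hA hN
    (orbitSpan A N (y : ↥(modularFunctionFieldBar N)))
    (finiteDimensional_orbitSpan A N _) (orbitSpan_stable A N _) y (mem_orbitSpan A N _)
  exact ⟨y', hred, hall _ hy'V, hrat⟩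

/-! ### (T3) and (T3') with `K0`-rational lifts -/

set_option synthInstance.maxHeartbeats 400000 in
set_option maxHeartbeats 1000000 in
/-- **(T3) with `K0`-rational lifts**: for a base function `x` fixed by the inertia group. -/
theorem T3_rational {q : ℕ} (hq : q.Prime) (hA : A.LiesOverPrime q)
    (hN : (N : IsLocalRing.ResidueField A) ≠ 0)
    (B : BaseFn.Data A (IsLocalRing.residue A) N)
    (hx : ∀ σ ∈ A.inertiaSubgroupIn ℚ,
      arithmeticGalois (modularFunctionFieldFull N) σ • B.x = B.x)
    (h : Lift.T3 B (residue_eq_zero_of_not_isUnit A) hN) :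
    ∀ s : ↥(modularFunctionFieldFullC (IsLocalRing.ResidueField A) N),
      (∀ Q : Place (IsLocalRing.ResidueField A)
          ↥(modularFunctionFieldFullC (IsLocalRing.ResidueField A) N),
        0 ≤ Q.ord (B.xt (residue_eq_zero_of_not_isUnit A) hN) → 0 ≤ Q.ord s) →
      ∃ y : OwA A N hN, redA A N hN y = s ∧
        (∀ P : Place Qb ↥(modularFunctionFieldBar N), 0 ≤ P.ord B.x →
          0 ≤ P.ord (y : ↥(modularFunctionFieldBar N))) ∧
        ∃ z : ↥(laurentBaseChange ↥(K0.K0 A) (modularFunctionFieldFull N)),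
          subEmb ↥(K0.K0 A) N z = (y : ↥(modularFunctionFieldBar N)) := by
  intro s hs
  obtain ⟨y, hy, hreg⟩ := h s hs
  obtain ⟨y', hred, hreg', hrat⟩ := exists_rational_regular A N hq hA hN
    (fun P => 0 ≤ P.ord B.x)
    (fun σ hσ P hP => by
      show 0 ≤ ((arithmeticGalois (modularFunctionFieldFull N) σ)⁻¹ • P).ord B.x
      rw [← ord_smul_eq, hx σ hσ]
      exact hP) y hreg
  exact ⟨y', hred.trans hy, hreg', hrat⟩

set_option synthInstance.maxHeartbeats 400000 in
set_option maxHeartbeats 1000000 in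
/-- **(T3') with `K0`-rational lifts**: for a base function `x` fixed by the inertia group. -/
theorem T3'_rational {q : ℕ} (hq : q.Prime) (hA : A.LiesOverPrime q)
    (hN : (N : IsLocalRing.ResidueField A) ≠ 0)
    (B : BaseFn.Data A (IsLocalRing.residue A) N)
    (hx : ∀ σ ∈ A.inertiaSubgroupIn ℚ,
      arithmeticGalois (modularFunctionFieldFull N) σ • B.x = B.x)
    (h : Lift.T3' B (residue_eq_zero_of_not_isUnit A) hN) :
    ∀ s : ↥(modularFunctionFieldFullC (IsLocalRing.ResidueField A) N),
      (∀ Q : Place (IsLocalRing.ResidueField A)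
          ↥(modularFunctionFieldFullC (IsLocalRing.ResidueField A) N),
        Q.ord (B.xt (residue_eq_zero_of_not_isUnit A) hN) ≤ 0 → 0 ≤ Q.ord s) →
      ∃ y : OwA A N hN, redA A N hN y = s ∧
        (∀ P : Place Qb ↥(modularFunctionFieldBar N), P.ord B.x ≤ 0 →
          0 ≤ P.ord (y : ↥(modularFunctionFieldBar N))) ∧
        ∃ z : ↥(laurentBaseChange ↥(K0.K0 A) (modularFunctionFieldFull N)),
          subEmb ↥(K0.K0 A) N z = (y : ↥(modularFunctionFieldBar N)) := by
  intro s hs
  obtain ⟨y, hy, hreg⟩ := h s hs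
  obtain ⟨y', hred, hreg', hrat⟩ := exists_rational_regular A N hq hA hN
    (fun P => P.ord B.x ≤ 0)
    (fun σ hσ P hP => by
      show ((arithmeticGalois (modularFunctionFieldFull N) σ)⁻¹ • P).ord B.x ≤ 0
      rw [← ord_smul_eq, hx σ hσ]
      exact hP) y hreg
  exact ⟨y', hred.trans hy, hreg', hrat⟩

end

end Fermat.Agent.CAR.LiftRatB
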