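import Mathlib
import Fermat.Agent.CAR.LevelTransfer

/-!
# CAR: the auxiliary level conditions for `q ∈ {2, 3}` (ELL-1, second part)

`CAR.newInertiaAt_of_aux` reduces the inertia clause `NewInertiaAt N q p A` (`q ∥ N`) to the
levels divisible by an auxiliary prime `r ≡ b mod m`, `r ≠ q, p`.  Here we add the conditions
`q = 2 → 3 ∣ N` and `q = 3 → 2 ∣ N` (one more application of `CAR.newInertiaAt_of_mul` with
`a = 5 - q`), and restate the resulting hypothesis `hCar` of `CAR.tateCmpACarExists_of_trunk`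
in terms of the prime-to-`q` part `M'` of the level (`N = M' * q`, `q ∤ M'`).
-/

set_option autoImplicit false
set_option linter.style.haveILetI false

namespace Fermat.Agent.CAR

open ModularCurve AlgebraicCurve Fermat.Agent.ESJ Fermat.Agent.ESJ.Cong

local notation "Qb" => AlgebraicClosure ℚ

/-- Adding one fixed auxiliary prime `a ≠ q` to the level: if the inertia clause holds at all
levels `q ∥ N` with `a ∣ N` satisfying a property `P` stable under `N ↦ N * a`, then it holds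
at all levels `q ∥ N` satisfying `P`. -/
theorem newInertiaAt_of_dvd_aux (a q p : ℕ) [NeZero a] [NeZero q] (ha : a.Prime) (hq : q.Prime)
    (haq : a ≠ q) (A : ValuationSubring Qb) (P : ℕ → Prop) (hP : ∀ N : ℕ, P N → P (N * a))
    (h : ∀ (N : ℕ) [NeZero N], q ∣ N → ¬ q ^ 2 ∣ N → P N → a ∣ N → NewInertiaAt N q p A)
    (N : ℕ) [NeZero N] (hqN : q ∣ N) (hq2 : ¬ q ^ 2 ∣ N) (hPN : P N) :
    NewInertiaAt N q p A := by
  by_cases haN : a ∣ N
  · exact h N hqN hq2 hPN haN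
  · have haNq : ¬ a ∣ N * q := fun hd => by
      rcases (Nat.Prime.dvd_mul ha).mp hd with h1 | h1
      · exact haN h1
      · exact haq ((Nat.prime_dvd_prime_iff_eq ha hq).mp h1)
    refine newInertiaAt_of_mul N a q p ha haNq hq A
      (h (N * a) (Dvd.dvd.mul_right hqN a) ?_ (hP N hPN) (dvd_mul_left a N))
    intro hd
    apply hq2
    have hcop : Nat.Coprime (q ^ 2) a :=
      Nat.Coprime.pow_left 2 ((Nat.coprime_primes hq ha).mpr (Ne.symm haq))
    exact hcop.dvd_of_dvd_mul_right hd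

/-- **ELL-1 with the conditions for `q ∈ {2, 3}`.**  To prove the inertia clause at every level
`N` with `q ∥ N`, it suffices to prove it at the levels which are divisible by some prime
`r ≡ b mod m`, `r ≠ q, p`, and moreover by `3` if `q = 2` and by `2` if `q = 3`. -/
theorem newInertiaAt_of_aux23 (m b : ℕ) (hm : m ≠ 0) (hb : b.Coprime m) (q p : ℕ) [NeZero q]
    (hq : q.Prime) (A : ValuationSubring Qb)
    (h : ∀ (N : ℕ) [NeZero N], q ∣ N → ¬ q ^ 2 ∣ N →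
      (∃ r : ℕ, r.Prime ∧ r ≡ b [MOD m] ∧ r ∣ N ∧ r ≠ q ∧ r ≠ p) →
      (q = 2 → 3 ∣ N) → (q = 3 → 2 ∣ N) → NewInertiaAt N q p A)
    (N : ℕ) [NeZero N] (hqN : q ∣ N) (hq2 : ¬ q ^ 2 ∣ N) : NewInertiaAt N q p A := by
  refine newInertiaAt_of_aux m b hm hb q p hq A ?_ N hqN hq2
  intro N' _ hqN' hq2' hr
  have hP : ∀ (a : ℕ) (N : ℕ),
      (∃ r : ℕ, r.Prime ∧ r ≡ b [MOD m] ∧ r ∣ N ∧ r ≠ q ∧ r ≠ p) →
      (∃ r : ℕ, r.Prime ∧ r ≡ b [MOD m] ∧ r ∣ N * a ∧ r ≠ q ∧ r ≠ p) := by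
    rintro a N ⟨r, h1, h2, h3, h4, h5⟩
    exact ⟨r, h1, h2, Dvd.dvd.mul_right h3 a, h4, h5⟩
  by_cases h2 : q = 2
  · refine newInertiaAt_of_dvd_aux 3 q p Nat.prime_three hq (by omega) A _ (hP 3) ?_ N'
      hqN' hq2' hr
    intro N'' _ hqN'' hq2'' hr'' h3
    exact h N'' hqN'' hq2'' hr'' (fun _ => h3) (fun h' => by omega)
  · by_cases h3 : q = 3
    · refine newInertiaAt_of_dvd_aux 2 q p Nat.prime_two hq (by omega) A _ (hP 2) ?_ N'
        hqN' hq2' hr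
      intro N'' _ hqN'' hq2'' hr'' h2'
      exact h N'' hqN'' hq2'' hr'' (fun h' => absurd h' h2) (fun _ => h2')
    · exact h N' hqN' hq2' hr (fun h' => absurd h' h2) (fun h' => absurd h' h3)

/-- The hypothesis `hCar` of `CAR.tateCmpACarExists_of_trunk` from the inertia clause at the
levels `q ∥ N` divisible by an auxiliary prime `r ≡ b mod m`, `r ≠ q, p`, and by `3` if `q = 2`,
by `2` if `q = 3`. -/
theorem hCar_of_newInertiaAt_aux23 (m b : ℕ) (hm : m ≠ 0) (hb : b.Coprime m)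
    (h : ∀ (N q p : ℕ) [NeZero N] [NeZero q], p.Prime → q.Prime → q ≠ p → q ∣ N → ¬ q ^ 2 ∣ N →
      (∃ r : ℕ, r.Prime ∧ r ≡ b [MOD m] ∧ r ∣ N ∧ r ≠ q ∧ r ≠ p) →
      (q = 2 → 3 ∣ N) → (q = 3 → 2 ∣ N) →
      ∀ A : ValuationSubring Qb, A.LiesOverPrime q → NewInertiaAt N q p A)
    (M N q p : ℕ) [NeZero M] [NeZero N] (hp : p.Prime) (hq : q.Prime) (hqp : q ≠ p)
    (hM : M = N * q) (hqN : q ∣ N) (hq2 : ¬ q ^ 2 ∣ N) : TorsionNewInertia M N q p :=
  hCar_of_newInertiaAt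
    (fun N q p _ _ hp hq hqp hqN hq2 A hA =>
      newInertiaAt_of_aux23 m b hm hb q p hq A
        (fun N' _ hqN' hq2' hr h2 h3 => h N' q p hp hq hqp hqN' hq2' hr h2 h3 A hA) N hqN hq2)
    M N q p hp hq hqp hM hqN hq2

/-- **The CORE hypothesis in terms of the prime-to-`q` level `M'`.**  The hypothesis `hCar` of
`CAR.tateCmpACarExists_of_trunk` from the inertia clause at the levels `N = M' * q`, `q ∤ M'`,
where `M'` is divisible by an auxiliary prime `r ≡ b mod m`, `r ≠ q, p`, and `(M', q)` is a good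
pair (`q = 2 → 3 ∣ M'`, `q = 3 → 2 ∣ M'`). -/
theorem hCar_of_newInertiaAt_core (m b : ℕ) (hm : m ≠ 0) (hb : b.Coprime m)
    (h : ∀ (M' q p : ℕ) [NeZero M'] [NeZero q], p.Prime → q.Prime → q ≠ p → ¬ q ∣ M' →
      (∃ r : ℕ, r.Prime ∧ r ≡ b [MOD m] ∧ r ∣ M' ∧ r ≠ q ∧ r ≠ p) →
      (q = 2 → 3 ∣ M') → (q = 3 → 2 ∣ M') →
      ∀ A : ValuationSubring Qb, A.LiesOverPrime q → NewInertiaAt (M' * q) q p A)
    (M N q p : ℕ) [NeZero M] [NeZero N] (hp : p.Prime) (hq : q.Prime) (hqp : q ≠ p)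
    (hM : M = N * q) (hqN : q ∣ N) (hq2 : ¬ q ^ 2 ∣ N) : TorsionNewInertia M N q p := by
  refine hCar_of_newInertiaAt_aux23 m b hm hb ?_ M N q p hp hq hqp hM hqN hq2
  intro N q p _ _ hp hq hqp hqN hq2 hr h2 h3 A hA
  obtain ⟨M', rfl⟩ : ∃ M', N = M' * q := ⟨N / q, (Nat.div_mul_cancel hqN).symm⟩
  have hM'0 : M' ≠ 0 := fun h0 => by
    have := NeZero.ne (M' * q)
    rw [h0, zero_mul] at this
    exact this rfl
  haveI : NeZero M' := ⟨hM'0⟩
  have hqM' : ¬ q ∣ M' := fun hd => hq2 (by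
    rw [pow_two]
    exact Nat.mul_dvd_mul hd (dvd_refl q))
  have hr' : ∃ r : ℕ, r.Prime ∧ r ≡ b [MOD m] ∧ r ∣ M' ∧ r ≠ q ∧ r ≠ p := by
    obtain ⟨r, h1, h2, h3, h4, h5⟩ := hr
    refine ⟨r, h1, h2, ?_, h4, h5⟩
    rcases (Nat.Prime.dvd_mul h1).mp h3 with h6 | h6
    · exact h6
    · exact absurd ((Nat.prime_dvd_prime_iff_eq h1 hq).mp h6) h4
  have h2' : q = 2 → 3 ∣ M' := fun hq2e => by
    have := h2 hq2e
    rw [hq2e] at this
    omega
  have h3' : q = 3 → 2 ∣ M' := fun hq3e => by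
    have := h3 hq3e
    rw [hq3e] at this
    omega
  exact h M' q p hp hq hqp hqM' hr' h2' h3' A hA

end Fermat.Agent.CAR
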