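import Mathlib

/-!
# CAR layer A — pure algebra for the S36 assembly

* `triple_eq_zero`: a group acting on a ring `E` (in which `x + x = 0 → x = 0`) through elements
  `u` with `(u - 1)² = 0` satisfies `(u₁ - 1)(u₂ - 1)(u₃ - 1) = 0`.
* `exists_fixed_of_unipotent`: hence a nonzero module on which every element `σ` of a subgroup
  acts with `(σ - 1)² = 0` has a nonzero vector fixed by the subgroup.
* `eq_two_of_charpoly`: if `f` has characteristic polynomial `(X - 1)²` and a quadratic
  relation `f² - t f + 1` kills a nonzero vector then `t = 2`.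
* `eq_zero_of_baseChange_family`: over a principal ideal domain, a family of linear maps to flat
  modules with trivial joint kernel keeps a trivial joint kernel after a torsion-free base change.
-/

set_option autoImplicit false

open scoped TensorProduct
open Polynomial

namespace Fermat.Agent.CAR.Unipotent

section Ring

variable {G E : Type*} [Group G] [Ring E] (h2 : ∀ x : E, x + x = 0 → x = 0)
  (ρ : G →* E) (I : Subgroup G) (hI : ∀ σ ∈ I, (ρ σ - 1) * (ρ σ - 1) = 0)

include hI in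
/-- `ρ σ⁻¹ - 1 = -(ρ σ - 1)` for a square-zero `ρ σ - 1`. -/
theorem map_inv_sub_one {σ : G} (hσ : σ ∈ I) : ρ σ⁻¹ - 1 = -(ρ σ - 1) := by
  have h1 : ρ σ⁻¹ * ρ σ = 1 := by rw [← map_mul, inv_mul_cancel, map_one]
  have hn := hI σ hσ
  have h3 : ρ σ⁻¹ = ρ σ⁻¹ * ρ σ - ρ σ⁻¹ * ρ σ * (ρ σ - 1) + ρ σ⁻¹ * ((ρ σ - 1) * (ρ σ - 1)) := by
    noncomm_ring
  rw [h1, hn] at h3
  rw [h3]
  noncomm_ring

include h2 hI in
/-- `n m n = 0` for `n = ρ σ - 1`, `m = ρ τ - 1`. -/
theorem sandwich_eq_zero {σ τ : G} (hσ : σ ∈ I) (hτ : τ ∈ I) :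
    (ρ σ - 1) * (ρ τ - 1) * (ρ σ - 1) = 0 := by
  have hn := hI σ hσ
  have hm := hI τ hτ
  have hA := hI (σ * τ) (I.mul_mem hσ hτ)
  have hB := hI (σ⁻¹ * τ) (I.mul_mem (I.inv_mem hσ) hτ)
  have eA : ρ (σ * τ) - 1 = (ρ σ - 1) + (ρ τ - 1) + (ρ σ - 1) * (ρ τ - 1) := by
    rw [map_mul]; noncomm_ring
  have eB : ρ (σ⁻¹ * τ) - 1 = -(ρ σ - 1) + (ρ τ - 1) - (ρ σ - 1) * (ρ τ - 1) := by
    have h := map_inv_sub_one ρ I hI hσ
    have h' : ρ σ⁻¹ = 1 - (ρ σ - 1) := by rw [← sub_eq_zero]; rw [← sub_eq_zero] at h; rw [← h]; noncomm_ring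
    rw [map_mul, h']; noncomm_ring
  rw [eA] at hA
  rw [eB] at hB
  set n := ρ σ - 1 with hn_def
  set m := ρ τ - 1 with hm_def
  have e1 : n * m * n + n * m * n * m = 0 := by
    apply h2
    have : (n * m * n + n * m * n * m) + (n * m * n + n * m * n * m) =
        (n + m + n * m) * (n + m + n * m) + (-n + m - n * m) * (-n + m - n * m)
          - (n * n + n * n) - (n * n + n * n) * m - (m * m + m * m) := by
      noncomm_ring
    rw [this, hA, hB, hn, hm]
    simp
  have e2 : n * m * n = (n * m * n + n * m * n * m) * (1 - m) + n * m * n * (m * m) := by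
    noncomm_ring
  rw [e2, e1, hm]
  simp

include h2 hI in
/-- `n m = - m n` for `n = ρ σ - 1`, `m = ρ τ - 1`. -/
theorem anticomm {σ τ : G} (hσ : σ ∈ I) (hτ : τ ∈ I) :
    (ρ σ - 1) * (ρ τ - 1) + (ρ τ - 1) * (ρ σ - 1) = 0 := by
  have hn := hI σ hσ
  have hm := hI τ hτ
  have hA := hI (σ * τ) (I.mul_mem hσ hτ)
  have eA : ρ (σ * τ) - 1 = (ρ σ - 1) + (ρ τ - 1) + (ρ σ - 1) * (ρ τ - 1) := by
    rw [map_mul]; noncomm_ring
  rw [eA] at hA
  have h1 := sandwich_eq_zero h2 ρ I hI hσ hτ
  have h1' := sandwich_eq_zero h2 ρ I hI hτ hσ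
  set n := ρ σ - 1 with hn_def
  set m := ρ τ - 1 with hm_def
  have : n * m + m * n = (n + m + n * m) * (n + m + n * m) - n * n - (n * n) * m - m * m
      - m * n * m - n * m * n - n * (m * m) - (n * m * n) * m := by
    noncomm_ring
  rw [this, hA, hn, hm, h1, h1']
  simp

include h2 hI in
/-- **The augmentation ideal cubes to zero.** -/
theorem triple_eq_zero {σ τ κ : G} (hσ : σ ∈ I) (hτ : τ ∈ I) (hκ : κ ∈ I) :
    (ρ σ - 1) * (ρ τ - 1) * (ρ κ - 1) = 0 := by
  have h1 := anticomm h2 ρ I hI (I.mul_mem hσ hτ) hκ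
  have h2' := anticomm h2 ρ I hI hσ hκ
  have h3 := anticomm h2 ρ I hI hτ hκ
  have eA : ρ (σ * τ) - 1 = (ρ σ - 1) + (ρ τ - 1) + (ρ σ - 1) * (ρ τ - 1) := by
    rw [map_mul]; noncomm_ring
  rw [eA] at h1
  set n := ρ σ - 1 with hn_def
  set m := ρ τ - 1 with hm_def
  set k := ρ κ - 1 with hk_def
  apply h2
  have : n * m * k + n * m * k = ((n + m + n * m) * k + k * (n + m + n * m)) - (n * k + k * n)
      - (m * k + k * m) + n * (m * k + k * m) - (n * k + k * n) * m := by
    noncomm_ring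
  rw [this, h1, h2', h3]
  simp

end Ring

section Module

variable {G R M : Type*} [Group G] [CommRing R] [AddCommGroup M] [Module R M]

/-- **Kolchin for square-zero unipotents**: a nonzero module without `2`-torsion on which every
element `σ` of a subgroup `I` acts with `(σ - 1)² = 0` has a nonzero `I`-fixed vector. -/
theorem exists_fixed_of_unipotent [Nontrivial M] (h2 : ∀ x : M, x + x = 0 → x = 0)
    (ρ : G →* Module.End R M) (I : Subgroup G)
    (hI : ∀ σ ∈ I, (ρ σ - 1) * (ρ σ - 1) = 0) :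
    ∃ w : M, w ≠ 0 ∧ ∀ σ ∈ I, ρ σ w = w := by
  have h2E : ∀ f : Module.End R M, f + f = 0 → f = 0 := by
    intro f hf
    ext x
    exact h2 _ (by simpa using congrArg (fun g : Module.End R M => g x) hf)
  have fix : ∀ (w : M), (∀ σ ∈ I, (ρ σ - 1) w = 0) → ∀ σ ∈ I, ρ σ w = w := by
    intro w hw σ hσ
    have := hw σ hσ
    rw [LinearMap.sub_apply, Module.End.one_apply, sub_eq_zero] at this
    exact this
  obtain ⟨w, hw⟩ := exists_ne (0 : M)
  by_cases c1 : ∀ σ ∈ I, (ρ σ - 1) w = 0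
  · exact ⟨w, hw, fix w c1⟩
  push Not at c1
  obtain ⟨σ, hσ, hw1⟩ := c1
  by_cases c2 : ∀ τ ∈ I, (ρ τ - 1) ((ρ σ - 1) w) = 0
  · exact ⟨_, hw1, fix _ c2⟩
  push Not at c2
  obtain ⟨τ, hτ, hw2⟩ := c2
  refine ⟨_, hw2, fix _ ?_⟩
  intro κ hκ
  have h := triple_eq_zero h2E ρ I hI hκ hτ hσ
  have h' := congrArg (fun g : Module.End R M => g w) h
  simpa using h'

/-- If `f` has characteristic polynomial `(X - 1)²`, is injective, and `f² - t f + 1` kills a
nonzero vector, then `t = 2`. -/
theorem eq_two_of_charpoly [IsDomain R] [Module.Free R M] [Module.Finite R M]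
    (f g : Module.End R M) (hgf : g * f = 1) (hchar : f.charpoly = (X - 1) ^ 2) (t : R) (v : M)
    (hv : v ≠ 0) (h : aeval f (X ^ 2 - C t * X + 1 : R[X]) v = 0) : t = 2 := by
  have hCH := LinearMap.aeval_self_charpoly f
  rw [hchar] at hCH
  have e1 : (f - 1) * (f - 1) = 0 := by
    have : aeval f ((X - 1) ^ 2 : R[X]) = (f - 1) * (f - 1) := by
      simp [pow_two]
    rw [← this]; exact hCH
  have e2 : aeval f (X ^ 2 - C t * X + 1 : R[X]) = (f - 1) * (f - 1) + (2 - t) • f := by
    simp only [map_add, map_sub, map_mul, aeval_X, aeval_C, map_one,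
      Algebra.algebraMap_eq_smul_one, smul_mul_assoc, one_mul, sub_smul, ofNat_smul_eq_nsmul,
      pow_two]
    noncomm_ring
  rw [e2, e1, zero_add, LinearMap.smul_apply] at h
  have h3 : (2 - t) • v = 0 := by
    have := congrArg g h
    rw [map_smul, map_zero, ← Module.End.mul_apply, hgf, Module.End.one_apply] at this
    exact this
  rcases smul_eq_zero.mp h3 with h4 | h4
  · exact (sub_eq_zero.mp h4).symm
  · exact absurd h4 hv

end Module

section Flat

variable {R : Type*} [CommRing R] [IsDomain R] [IsPrincipalIdealRing R]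
  (A : Type*) [CommRing A] [Algebra R A] [Module.IsTorsionFree R A]
  {T Y Y' : Type*} [AddCommGroup T] [Module R T] [AddCommGroup Y] [Module R Y]
  [AddCommGroup Y'] [Module R Y'] [Module.Flat R Y] [Module.Flat R Y']

/-- The coordinate maps `A₀ ⊗ T → T` of a free module `A₀` with basis `b`. -/
noncomputable def coordT {A₀ : Type*} [AddCommGroup A₀] [Module R A₀] {ι : Type*}
    (b : Module.Basis ι R A₀) (T : Type*) [AddCommGroup T] [Module R T] (j : ι) :
    A₀ ⊗[R] T →ₗ[R] T :=
  (TensorProduct.lid R T).toLinearMap ∘ₗ (b.coord j).rTensor T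

omit [IsDomain R] [IsPrincipalIdealRing R] in
theorem coordT_tmul {A₀ : Type*} [AddCommGroup A₀] [Module R A₀] {ι : Type*}
    (b : Module.Basis ι R A₀) (j : ι) (a : A₀) (t : T) :
    coordT b T j (a ⊗ₜ t) = b.repr a j • t := by
  simp [coordT]

omit [IsDomain R] [IsPrincipalIdealRing R] [Module.Flat R Y] in
theorem coordT_lTensor {A₀ : Type*} [AddCommGroup A₀] [Module R A₀] {ι : Type*}
    (b : Module.Basis ι R A₀) (j : ι) (f : T →ₗ[R] Y) (y : A₀ ⊗[R] T) :
    coordT b Y j (f.lTensor A₀ y) = f (coordT b T j y) := by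
  induction y using TensorProduct.induction_on with
  | zero => simp
  | tmul a t => simp [coordT_tmul]
  | add y z hy hz => simp only [map_add, hy, hz]

omit [IsDomain R] [IsPrincipalIdealRing R] in
theorem eq_zero_of_coordT {A₀ : Type*} [AddCommGroup A₀] [Module R A₀] {ι : Type*} [Fintype ι]
    (b : Module.Basis ι R A₀) (y : A₀ ⊗[R] T) (h : ∀ j, coordT b T j y = 0) : y = 0 := by
  have key : ∀ y : A₀ ⊗[R] T, y = ∑ j, b j ⊗ₜ[R] coordT b T j y := by
    intro y
    induction y using TensorProduct.induction_on with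
    | zero => simp
    | tmul a t =>
      simp only [coordT_tmul]
      conv_lhs => rw [← b.sum_repr a, TensorProduct.sum_tmul]
      refine Finset.sum_congr rfl fun j _ => ?_
      rw [TensorProduct.smul_tmul]
    | add y z hy hz =>
      conv_lhs => rw [hy, hz]
      rw [← Finset.sum_add_distrib]
      refine Finset.sum_congr rfl fun j _ => ?_
      rw [map_add, TensorProduct.tmul_add]
  rw [key y]
  simp [h]

omit [IsDomain R] [IsPrincipalIdealRing R] [Module.IsTorsionFree R A] [Module.Flat R Y'] in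
/-- Vanishing after base change to `A` descends to a submodule `A₀ ⊆ A` (flat target). -/
theorem lTensor_eq_zero_of_baseChange (A₀ : Submodule R A) (φ : T →ₗ[R] Y) (y₀ : A₀ ⊗[R] T)
    (hφ : φ.baseChange A (A₀.subtype.rTensor T y₀) = 0) : φ.lTensor A₀ y₀ = 0 := by
  have hinj : Function.Injective (A₀.subtype.rTensor Y) :=
    Module.Flat.rTensor_preserves_injective_linearMap _ A₀.injective_subtype
  apply hinj
  rw [map_zero, ← hφ]
  rw [LinearMap.baseChange_eq_ltensor]
  rw [← LinearMap.comp_apply, ← LinearMap.comp_apply, LinearMap.rTensor_comp_lTensor,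
    LinearMap.lTensor_comp_rTensor]

/-- **Flat descent for a family**: linear maps `g₁ g₂ : T → Y'` and `f i : T → Y` to flat
modules over a principal ideal domain with trivial joint kernel keep a trivial joint kernel
after a torsion-free base change. -/
theorem eq_zero_of_baseChange_family (g₁ g₂ : T →ₗ[R] Y') {ι : Type*} (f : ι → T →ₗ[R] Y)
    (h : ∀ x : T, g₁ x = 0 → g₂ x = 0 → (∀ i, f i x = 0) → x = 0)
    (y : A ⊗[R] T) (h₁ : g₁.baseChange A y = 0) (h₂ : g₂.baseChange A y = 0)
    (hf : ∀ i, (f i).baseChange A y = 0) : y = 0 := by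
  classical
  obtain ⟨A₀, hfin, hA₀⟩ := TensorProduct.exists_finite_submodule_left_of_setFinite
    ({y} : Set (A ⊗[R] T)) (Set.finite_singleton y)
  obtain ⟨y₀, hy₀⟩ := hA₀ (Set.mem_singleton y)
  have : Module.Finite R A₀ := hfin
  have : Module.IsTorsionFree R A₀ := inferInstance
  have : Module.Free R A₀ := inferInstance
  have d₁ : g₁.lTensor A₀ y₀ = 0 :=
    lTensor_eq_zero_of_baseChange A A₀ g₁ y₀ (by rw [hy₀]; exact h₁)
  have d₂ : g₂.lTensor A₀ y₀ = 0 :=
    lTensor_eq_zero_of_baseChange A A₀ g₂ y₀ (by rw [hy₀]; exact h₂)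
  have df : ∀ i, (f i).lTensor A₀ y₀ = 0 := fun i =>
    lTensor_eq_zero_of_baseChange A A₀ (f i) y₀ (by rw [hy₀]; exact hf i)
  have hy₀0 : y₀ = 0 := by
    refine eq_zero_of_coordT (Module.Free.chooseBasis R A₀) y₀ fun j => h _ ?_ ?_ fun i => ?_
    · have := coordT_lTensor (Module.Free.chooseBasis R A₀) j g₁ y₀
      rw [d₁, map_zero] at this
      exact this.symm
    · have := coordT_lTensor (Module.Free.chooseBasis R A₀) j g₂ y₀
      rw [d₂, map_zero] at this
      exact this.symm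
    · have := coordT_lTensor (Module.Free.chooseBasis R A₀) j (f i) y₀
      rw [df i, map_zero] at this
      exact this.symm
  rw [← hy₀, hy₀0, map_zero]

end Flat

end Fermat.Agent.CAR.Unipotent
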