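import Mathlib
import Fermat.Prelude.Def_CuspForm_HeckeGaloisRepDatum
import Fermat.Prelude.Def_CuspForm_Newforms
import Fermat.Prelude.Def_GaloisRep_LocalConditions
import Fermat.Prelude.Def_GaloisRep_Residual
import Fermat.Agent.BAD.S35Of
import Fermat.Agent.CAR.Interfaces
import Fermat.Agent.CAR.Unipotent
import Fermat.Agent.Lib.FrobeniusExists

/-!
# CAR layer A — S36 from Frobenius density and the `q² ∥ M` Tate data

`S36_of : FrobDensity → TateCmpACarExists → (frozen statement S36)`.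

The representation is the one extracted from the eigen-lattice `W` of the newform in
`O₁ ⊗ Ta` (as for S35).  If it were unipotent on an inertia group `I` at `q`:

1. every `σ ∈ I` satisfies `σ² - t σ + 1 = 0` on `W` (`exists_quadratic_of_frob`, the cyclotomic
   character is trivial on `I`), and the element-wise transfer of the extraction forces `t = 2`,
   i.e. `(σ - 1)² = 0` on `W`;
2. a group of square-zero unipotents has a nonzero fixed vector
   (`Unipotent.exists_fixed_of_unipotent`);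
3. `W` is killed by the two degeneracy maps (newform glue), and `ker δ₁ ∩ ker δ₂` has no
   inertia invariants (`CarNewData.inertia`), also after the flat base change to `O₁`
   (`Unipotent.eq_zero_of_baseChange_family`): contradiction.

The hypothesis `hres` of the frozen statement is not used.
-/

set_option autoImplicit false
set_option linter.style.haveILetI false

open scoped TensorProduct
open Polynomial CongruenceSubgroup

namespace Fermat.Agent.CAR

open Fermat.Agent.ESJ.Rep Fermat.Agent.BAD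

namespace S36Of

section Lattice

variable {p N N' q : ℕ} [Fact p.Prime] [NeZero N] [NeZero N'] (D : TateDatumA p N)

/-- **The eigen-lattice of a newform has no inertia invariants at `q`** (`q² ∥ N`). -/
theorem latA_inertia (B : CarNewData p N N' q D) (hN' : N' ∣ N) (hne : N' ≠ N)
    {g : CuspForm (Gamma0 N) 2} (hg : g.IsNewform) (𝒪 : Type) [CommRing 𝒪] [IsDomain 𝒪]
    [CharZero 𝒪] [Algebra ℤ_[p] 𝒪] (χ' : (EigChar.chiC hg.1).range →+* 𝒪)
    (χ : CuspForm.heckeAlgebra N 2 (∅ : Set ℕ) →+* 𝒪)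
    (hχ : χ = χ'.comp (EigChar.chiC hg.1).rangeRestrict)
    (P : ValuationSubring Qb) (hP : P.LiesOverPrime q)
    (w : AdicMod.latA D 𝒪 χ)
    (hw : ∀ σ ∈ P.inertiaSubgroupIn ℚ, AdicMod.rhoA D 𝒪 χ σ w = w) :
    w = 0 := by
  subst hχ
  haveI : Module.Flat ℤ_[p] 𝒪 := FlatKer.flat_padicInt p 𝒪
  haveI : FaithfulSMul ℤ_[p] 𝒪 :=
    (faithfulSMul_iff_algebraMap_injective _ _).mpr (FlatKer.injective_algebraMap_padicInt p 𝒪)
  haveI : Module.IsTorsionFree ℤ_[p] 𝒪 := inferInstance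
  haveI : Module.Free ℤ_[p] B.Ta' := Module.Free.of_equiv B.cmp'.cmpTa.symm
  -- the degeneracy maps kill the eigen-lattice
  have hkill : ∀ (δ : D.Ta →ₗ[ℤ_[p]] B.Ta'),
      (∀ ℓ : Nat.Primes, ¬ (ℓ : ℕ) ∣ N → ∀ x : D.Ta, δ (D.hecke ℓ x) = B.hecke' ℓ (δ x)) →
      ∀ y ∈ AdicMod.latA D 𝒪 (χ'.comp (EigChar.chiC hg.1).rangeRestrict),
        δ.baseChange 𝒪 y = 0 := by
    intro δ hδ y hy
    refine NewGlue.eq_zero_of_mem_eigenspace hN' hne hg B.cmp' 𝒪 χ' _ ?_
    rw [mem_eigenspace]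
    intro i
    have hcomm : (B.hecke' i.1).baseChange 𝒪 (δ.baseChange 𝒪 y) =
        δ.baseChange 𝒪 ((D.hecke i.1).baseChange 𝒪 y) := by
      rw [← LinearMap.comp_apply, ← LinearMap.comp_apply, ← LinearMap.baseChange_comp,
        ← LinearMap.baseChange_comp]
      congr 2
      ext x
      exact (hδ i.1 i.2 x).symm
    have hy' := (AdicMod.mem_latA D 𝒪 _).mp hy i.1 i.2
    rw [hcomm]
    have : (D.hecke i.1).baseChange 𝒪 y =
        AdicMod.ev 𝒪 (χ'.comp (EigChar.chiC hg.1).rangeRestrict) i.1 • y := hy'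
    rw [this, map_smul]
    rfl
  suffices hw0 : (w : 𝒪 ⊗[ℤ_[p]] D.Ta) = 0 from Subtype.ext hw0
  refine Unipotent.eq_zero_of_baseChange_family 𝒪 B.δ₁ B.δ₂
    (fun σ : P.inertiaSubgroupIn ℚ => D.gal (σ : GQ) - 1) ?_ (w : 𝒪 ⊗[ℤ_[p]] D.Ta)
    (hkill B.δ₁ B.δ₁_hecke _ w.2) (hkill B.δ₂ B.δ₂_hecke _ w.2) ?_
  · intro x h1 h2 h3
    refine B.inertia P hP x h1 h2 fun σ hσ => ?_
    have := h3 ⟨σ, hσ⟩
    rw [LinearMap.sub_apply, Module.End.one_apply, sub_eq_zero] at this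
    exact this
  · intro σ
    have h1 := congrArg Subtype.val (hw σ.1 σ.2)
    rw [AdicMod.rhoA_apply_coe, AdicMod.galO_apply] at h1
    rw [LinearMap.baseChange_sub, LinearMap.sub_apply, h1, Module.End.one_eq_id,
      LinearMap.baseChange_id, LinearMap.id_apply, sub_self]

end Lattice

end S36Of

/-- **S36, conditional form.** Frobenius density and the Tate data at the primes `q² ∥ M`
imply the frozen statement S36. -/
theorem S36_of (hFrob : FrobDensity) (hcar : TateCmpACarExists)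
    {M : ℕ} [NeZero M] {g : CuspForm (CongruenceSubgroup.Gamma0 M) 2} (hg : g.IsNewform)
    (lam : ℕ) [Fact lam.Prime]
    (S : Finset ℕ)
    (O' : Type) [CommRing O'] [IsDomain O'] [IsDiscreteValuationRing O']
    [IsAdicComplete (IsLocalRing.maximalIdeal O') O'] [Finite (IsLocalRing.ResidueField O')]
    [CharZero O'] (hlamO' : (lam : O') ∈ IsLocalRing.maximalIdeal O')
    (hlam2 : lam ≠ 2)
    (chig : CuspForm.heckeAlgebra M 2 (↑S : Set ℕ) →+* ℂ)
    (hchig : ∀ (ℓ : ℕ) (hℓ : ℓ.Prime) (hℓM : ¬ ℓ ∣ M) (hℓS : ℓ ∉ (↑S : Set ℕ)),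
      chig (CuspForm.heckeAlgebra.T hℓ hℓM hℓS) = ModularFormClass.qCoeff g ℓ)
    (iota : chig.range →+* O')
    (hlamS : lam ∈ S) (hMS : ∀ q : ℕ, q.Prime → q ∣ M → q ∈ S)
    (hres : ∀ (O'' : Type) [CommRing O''] [IsDomain O''] [IsDiscreteValuationRing O'']
      [IsAdicComplete (IsLocalRing.maximalIdeal O'') O''] [Finite (IsLocalRing.ResidueField O'')] [CharZero O'']
      [Algebra O' O''] [Module.Finite O' O''] [IsLocalHom (algebraMap O' O'')],
      Function.Injective (algebraMap O' O'') → ∀ (ρ : GaloisRepAdic O''),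
      (∀ (ℓ : ℕ) (hℓ : ℓ.Prime) (hℓlam : ℓ ≠ lam) (hℓM : ¬ ℓ ∣ M) (hℓS : ℓ ∉ (↑S : Set ℕ)),
        ∀ A : ValuationSubring (AlgebraicClosure ℚ), A.LiesOverPrime ℓ →
          ∀ σ : AlgebraicClosure ℚ ≃ₐ[ℚ] AlgebraicClosure ℚ, A.IsFrobeniusAt σ ℓ →
            LinearMap.charpoly (ρ.ρ σ) =
              X ^ 2 - C (algebraMap O' O'' ((iota.comp chig.rangeRestrict) (CuspForm.heckeAlgebra.T hℓ hℓM hℓS))) * X
                + C ((ℓ : O'')))
      → ρ.residual.IsAbsolutelyIrreducible ∧ ρ.residual.IsOdd)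
    :
    ∃ (O'' : Type) (_ : CommRing O'') (_ : IsDomain O'') (_ : IsDiscreteValuationRing O'')
      (_ : IsAdicComplete (IsLocalRing.maximalIdeal O'') O'') (_ : Finite (IsLocalRing.ResidueField O''))
      (_ : CharZero O'') (_ : Algebra O' O'') (_ : Module.Finite O' O'') (_ : IsLocalHom (algebraMap O' O'')),
      Function.Injective (algebraMap O' O'') ∧
      ∃ ρ : GaloisRepAdic O'',
        (∀ (ℓ : ℕ) (hℓ : ℓ.Prime) (hℓM : ¬ ℓ ∣ M) (hℓS : ℓ ∉ (↑S : Set ℕ)),
          ∀ A : ValuationSubring (AlgebraicClosure ℚ), A.LiesOverPrime ℓ →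
            ∀ σ : AlgebraicClosure ℚ ≃ₐ[ℚ] AlgebraicClosure ℚ, A.IsFrobeniusAt σ ℓ →
              LinearMap.charpoly (ρ.ρ σ) =
                X ^ 2 - C (algebraMap O' O'' ((iota.comp chig.rangeRestrict) (CuspForm.heckeAlgebra.T hℓ hℓM hℓS))) * X
                  + C ((ℓ : O''))) ∧
        (∀ q : ℕ, q.Prime → q ≠ lam → M.factorization q = 2 → ¬ ρ.IsUnipotentOnInertiaAt q) := by
  classical
  have hg1 := hg.1
  -- Step A/B: the full eigencharacter, inclusion of ranges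
  set χg := EigChar.chiC hg.1 with hχg
  have hcg := S35Of.chig_eq hg.1 S chig hchig hMS
  have hle : chig.range ≤ χg.range := by
    rintro x ⟨t, rfl⟩
    exact ⟨_, (hcg t).symm⟩
  let i : chig.range →+* χg.range := Subring.inclusion hle
  have hi : Function.Injective i := Subring.inclusion_injective hle
  haveI hfinT : Module.Finite ℤ (CuspForm.heckeAlgebra M 2 (∅ : Set ℕ)) :=
    Fermat.Agent.S22.result M 2 ∅
  haveI : Module.Finite ℤ χg.range :=
    Module.Finite.of_surjective (χg.rangeRestrict.toIntAlgHom.toLinearMap)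
      χg.rangeRestrict_surjective
  -- Step C: extend `iota`
  obtain ⟨O₁, i1, i2, i3, i4, i5, i6, i7, i8, i9, hinj, χ', hχ'⟩ :=
    exists_extension_of_ringHom i hi O' iota
  have hlam₁ : (lam : O₁) ∈ IsLocalRing.maximalIdeal O₁ := by
    have h1 : ¬ IsUnit (lam : O') := hlamO'
    have h2 : ¬ IsUnit (algebraMap O' O₁ (lam : O')) := fun h => h1 (isUnit_of_map_unit _ _ h)
    rw [map_natCast] at h2
    exact h2
  obtain ⟨f⟩ := exists_padicInt_ringHom lam O₁ hlam₁
  letI : Algebra ℤ_[lam] O₁ := f.toAlgebra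
  -- Step E: the Tate datum and the eigen-lattice
  obtain ⟨D, hD⟩ := hcar lam M
  set χ : CuspForm.heckeAlgebra M 2 (∅ : Set ℕ) →+* O₁ := χ'.comp χg.rangeRestrict with hχ
  let a : ℕ → O₁ := fun ℓ => if h : ℓ.Prime then AdicMod.ev O₁ χ ⟨ℓ, h⟩ else 0
  have hquad : ∀ ℓ : ℕ, ℓ.Prime → ℓ ∉ S → ∀ A : ValuationSubring Qb, A.LiesOverPrime ℓ →
      ∀ σ : GQ, A.IsFrobeniusAt σ ℓ →
        AdicMod.rhoA D O₁ χ σ * AdicMod.rhoA D O₁ χ σ - a ℓ • AdicMod.rhoA D O₁ χ σ
          + (ℓ : O₁) • (1 : Module.End O₁ (AdicMod.latA D O₁ χ)) = 0 := by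
    intro ℓ hℓ hℓS A hA σ hσ
    have hℓM : ¬ ℓ ∣ M := fun hd => hℓS (hMS ℓ hℓ hd)
    have hℓp : ℓ ≠ lam := fun h => hℓS (h ▸ hlamS)
    have ha : a ℓ = AdicMod.ev O₁ χ ⟨ℓ, hℓ⟩ := dif_pos hℓ
    rw [ha]
    exact AdicMod.rhoA_quadratic D O₁ χ ⟨ℓ, hℓ⟩ hℓM hℓp A hA σ hσ
  -- Step F: extraction
  obtain ⟨O₂, j1, j2, j3, j4, j5, j6, j7, j8, j9, hinj', ρ', h1, -, hT1, hT2⟩ :=
    AdicExtract.exists_galoisRepAdic_of_module hFrob O₁ hlam₁ S hlamS a
      (AdicMod.latA D O₁ χ) (AdicMod.rhoA D O₁ χ) (AdicMod.rhoA_continuous D O₁ χ hlam₁) hquad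
  letI alg : Algebra O' O₂ := ((algebraMap O₁ O₂).comp (algebraMap O' O₁)).toAlgebra
  haveI tow : IsScalarTower O' O₁ O₂ := IsScalarTower.of_algebraMap_eq (fun x => rfl)
  haveI fin : Module.Finite O' O₂ := Module.Finite.trans O₁ O₂
  haveI loc : IsLocalHom (algebraMap O' O₂) := by
    show IsLocalHom ((algebraMap O₁ O₂).comp (algebraMap O' O₁))
    infer_instance
  have hinj₂ : Function.Injective (algebraMap O' O₂) := hinj'.comp hinj
  refine ⟨O₂, j1, j2, j3, j4, j5, j6, alg, fin, loc, hinj₂, ρ', ?_, ?_⟩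
  · -- clause 1
    intro ℓ hℓ hℓM hℓS A hA σ hσ
    have hℓS' : ℓ ∉ S := fun h => hℓS (Finset.mem_coe.mpr h)
    have h := h1 ℓ hℓ hℓS' A hA σ hσ
    have ha : algebraMap O₁ O₂ (a ℓ) = algebraMap O' O₂
        ((iota.comp chig.rangeRestrict) (CuspForm.heckeAlgebra.T hℓ hℓM hℓS)) := by
      have e1 : a ℓ = AdicMod.ev O₁ χ ⟨ℓ, hℓ⟩ := dif_pos hℓ
      have e2 : χg.rangeRestrict (CuspForm.heckeFormsGen M 2 ⟨ℓ, hℓ⟩) =
          i (chig.rangeRestrict (CuspForm.heckeAlgebra.T hℓ hℓM hℓS)) := by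
        apply Subtype.ext
        show χg (CuspForm.heckeFormsGen M 2 ⟨ℓ, hℓ⟩) = chig (CuspForm.heckeAlgebra.T hℓ hℓM hℓS)
        rw [hchig ℓ hℓ hℓM hℓS, hχg]
        exact EigChar.chiC_heckeFormsGen hg.1 ⟨ℓ, hℓ⟩
      have e3 : a ℓ = algebraMap O' O₁ (iota (chig.rangeRestrict
          (CuspForm.heckeAlgebra.T hℓ hℓM hℓS))) := by
        rw [e1]
        show χ' (χg.rangeRestrict (CuspForm.heckeFormsGen M 2 ⟨ℓ, hℓ⟩)) = _
        rw [e2, hχ']
      rw [e3]
      rfl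
    rw [ha] at h
    exact h
  · -- clause 2
    intro q hq hqlam hfac hunip
    have hM0 : M ≠ 0 := NeZero.ne M
    have hq2M : q ^ 2 ∣ M := (hq.pow_dvd_iff_le_factorization hM0).mpr hfac.ge
    have hq3M : ¬ q ^ 3 ∣ M := fun h => by
      have := (hq.pow_dvd_iff_le_factorization hM0).mp h
      omega
    have hqM : q ∣ M := dvd_trans (dvd_pow_self q two_ne_zero) hq2M
    have hMeq : M = M / q * q := (Nat.div_mul_cancel hqM).symm
    haveI : NeZero (M / q) := ⟨fun h0 => hM0 (by rw [hMeq, h0, zero_mul])⟩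
    have hqN : q ∣ M / q := by
      obtain ⟨c, hc⟩ := hq2M
      refine ⟨c, ?_⟩
      rw [hc, pow_two, mul_assoc, Nat.mul_div_cancel_left _ hq.pos]
    have hq2N : ¬ q ^ 2 ∣ M / q := by
      intro hd
      apply hq3M
      obtain ⟨c, hc⟩ := hd
      exact ⟨c, by rw [hMeq, hc]; ring⟩
    obtain ⟨B⟩ := hD (M / q) q hq hqlam hMeq hqN hq2N
    have hN'M : M / q ∣ M := ⟨q, hMeq⟩
    have hne : M / q ≠ M := by
      intro h
      have h3 : M / q * q = M / q * 1 := by rw [← hMeq, mul_one, h]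
      have h4 : q = 1 := Nat.eq_of_mul_eq_mul_left (Nat.pos_of_ne_zero (NeZero.ne (M / q))) h3
      exact hq.one_lt.ne' h4
    obtain ⟨P, hP⟩ := Fermat.Agent.Lib.FrobeniusExists.exists_liesOverPrime hq
    -- every inertia element is a square-zero unipotent on the eigen-lattice
    have hsq : ∀ σ ∈ P.inertiaSubgroupIn ℚ,
        (AdicMod.rhoA D O₁ χ σ - 1) * (AdicMod.rhoA D O₁ χ σ - 1) = 0 := by
      intro σ hσ
      obtain ⟨t, ht⟩ := exists_quadratic_of_frob hFrob O₁ hlam₁ S hlamS a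
        (AdicMod.latA D O₁ χ) (AdicMod.rhoA D O₁ χ) (AdicMod.rhoA_continuous D O₁ χ hlam₁)
        hquad σ
      rw [cyclo_inertia lam hq hqlam P hP σ hσ, Units.val_one, map_one, one_smul] at ht
      have haeval : aeval (AdicMod.rhoA D O₁ χ σ) (X ^ 2 - C t * X + 1 : O₁[X]) = 0 := by
        simp only [map_add, map_sub, map_mul, aeval_X, aeval_C, map_one,
          Algebra.algebraMap_eq_smul_one, smul_mul_assoc, one_mul, pow_two]
        exact ht
      obtain ⟨v, hv0, hv⟩ := hT2 σ _ haeval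
      have hmap : (X ^ 2 - C t * X + 1 : O₁[X]).map (algebraMap O₁ O₂) =
          X ^ 2 - C (algebraMap O₁ O₂ t) * X + 1 := by
        simp
      rw [hmap] at hv
      have hgf : ρ'.ρ σ⁻¹ * ρ'.ρ σ = 1 := by rw [← map_mul, inv_mul_cancel, map_one]
      have ht2 := Unipotent.eq_two_of_charpoly (ρ'.ρ σ) (ρ'.ρ σ⁻¹) hgf (hunip P hP σ hσ) _ v
        hv0 hv
      have ht2' : t = 2 := hinj' (by rw [ht2, map_ofNat])
      rw [ht2'] at ht
      have e : (AdicMod.rhoA D O₁ χ σ - 1) * (AdicMod.rhoA D O₁ χ σ - 1) =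
          AdicMod.rhoA D O₁ χ σ * AdicMod.rhoA D O₁ χ σ - (2 : O₁) • AdicMod.rhoA D O₁ χ σ
            + 1 := by
        rw [two_smul]
        simp only [sub_mul, mul_sub, mul_one, one_mul]
        abel
      rw [e]
      exact ht
    have h2W : ∀ x : AdicMod.latA D O₁ χ, x + x = 0 → x = 0 := by
      intro x hx
      have h3 : (2 : O₁) • x = 0 := by rw [two_smul]; exact hx
      rcases smul_eq_zero.mp h3 with h4 | h4
      · exact absurd h4 two_ne_zero
      · exact h4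
    obtain ⟨w, hw0, hwfix⟩ := Unipotent.exists_fixed_of_unipotent h2W (AdicMod.rhoA D O₁ χ)
      (P.inertiaSubgroupIn ℚ) hsq
    exact hw0 (S36Of.latA_inertia D B hN'M hne hg O₁ χ' χ rfl P hP w hwfix)

end Fermat.Agent.CAR
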