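import Mathlib
import Fermat.Agent.CAR.S36Of
import Fermat.Agent.CAR.LevelTransfer23
import Fermat.Agent.CAR.Formal.NormBc
import Fermat.Agent.ESJ.Jac.Main
import Fermat.Agent.ESJ.RedK.GoodFinal
import Fermat.Agent.ESJ.Rep.FrobDens

/-!
# CAR: the final wiring — S36 from the `K0`-level core statement

`Core m b` is the one statement left to the CAR instance layer: the `K0`-level inertia clause
`Formal.NormBc.NewInertiaK0At (M' * q) q p (K0.inertiaField A)` at the levels `N = M' q`,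
`q ∤ M'`, `q ≠ p`, with `M'` divisible by an auxiliary prime `r ≡ b mod m` (`r ≠ q, p`) and
`(M', q)` a good pair (`q = 2 → 3 ∣ M'`, `q = 3 → 2 ∣ M'`), for every valuation subring `A` of
`ℚ̄` over `q`.

* `tateCmpACarExists_of_core_aux` : `(K) → (E) → Core m b → TateCmpACarExists`
  (`NormBc.newInertiaAt_of_K0`, `hCar_of_newInertiaAt_core`, `tateCmpACarExists_of_trunk`);
* `tateCmpACarExists_of_core` : the same for `r ≡ 11 mod 12`;
* `tateCmpACarExists_final` : with the trunk (K), (E) plugged in (`ESJ.kummerCmp`,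
  `ESJ.RedK.torsionESRelation_all`);
* `S36_of_core` : `Core 12 11 →` the frozen statement S36 (`S36_of` with
  `ESJ.Rep.frobDensity`), so that `Agent/S36.lean` is a single `exact`.
-/

set_option autoImplicit false
set_option linter.unusedVariables false

open Polynomial

namespace Fermat.Agent.CAR.Final

open Fermat.Agent.ESJ Fermat.Agent.ESJ.Rep

local notation "Qb" => AlgebraicClosure ℚ

/-- **CAR-CORE, `K0`-level form, at the auxiliary levels**: the one statement the instance layer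
has to prove. -/
def Core (m b : ℕ) : Prop :=
  ∀ (M' q p : ℕ) [NeZero M'] [NeZero q], p.Prime → q.Prime → q ≠ p → ¬ q ∣ M' →
    (∃ r : ℕ, r.Prime ∧ r ≡ b [MOD m] ∧ r ∣ M' ∧ r ≠ q ∧ r ≠ p) →
    (q = 2 → 3 ∣ M') → (q = 3 → 2 ∣ M') →
    ∀ A : ValuationSubring Qb, A.LiesOverPrime q →
      Fermat.Agent.CAR.Formal.NormBc.NewInertiaK0At (M' * q) q p
        (Fermat.Agent.CAR.K0.inertiaField A)

/-- `TateCmpACarExists` from the trunk ((K), (E)) and the core statement with auxiliary primes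
`r ≡ b mod m`. -/
theorem tateCmpACarExists_of_core_aux (m b : ℕ) (hm : m ≠ 0) (hb : b.Coprime m)
    (hK : ∀ (N p : ℕ) [NeZero N], p.Prime → KummerCmp N p)
    (hE : ∀ (N p : ℕ) [NeZero N], p.Prime → TorsionESRelation N p)
    (hcore : Core m b) : TateCmpACarExists :=
  tateCmpACarExists_of_trunk hK hE
    (hCar_of_newInertiaAt_core m b hm hb
      (fun M' q p _ _ hp hq hqp hqM hr h2 h3 A hA =>
        Fermat.Agent.CAR.Formal.NormBc.newInertiaAt_of_K0 (M' * q) q p hp.pos hq A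
          (hcore M' q p hp hq hqp hqM hr h2 h3 A hA)))

/-- `TateCmpACarExists` from the trunk ((K), (E)) and the core statement with auxiliary primes
`r ≡ 11 mod 12`. -/
theorem tateCmpACarExists_of_core
    (hK : ∀ (N p : ℕ) [NeZero N], p.Prime → KummerCmp N p)
    (hE : ∀ (N p : ℕ) [NeZero N], p.Prime → TorsionESRelation N p)
    (hcore : ∀ (M' q p : ℕ) [NeZero M'] [NeZero q], p.Prime → q.Prime → q ≠ p → ¬ q ∣ M' →
      (∃ r : ℕ, r.Prime ∧ r ≡ 11 [MOD 12] ∧ r ∣ M' ∧ r ≠ q ∧ r ≠ p) →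
      (q = 2 → 3 ∣ M') → (q = 3 → 2 ∣ M') →
      ∀ A : ValuationSubring Qb, A.LiesOverPrime q →
        Fermat.Agent.CAR.Formal.NormBc.NewInertiaK0At (M' * q) q p
          (Fermat.Agent.CAR.K0.inertiaField A)) : TateCmpACarExists :=
  tateCmpACarExists_of_core_aux 12 11 (by norm_num) (by norm_num) hK hE hcore

/-- The trunk statement (K) at every level. -/
theorem kummerCmp_all (N p : ℕ) [NeZero N] (hp : p.Prime) : KummerCmp N p :=
  Fermat.Agent.ESJ.kummerCmp N p hp.pos

/-- The trunk statement (E) at every level. -/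
theorem torsionES_all (N p : ℕ) [NeZero N] (_hp : p.Prime) : TorsionESRelation N p :=
  Fermat.Agent.ESJ.RedK.torsionESRelation_all N p

/-- **`TateCmpACarExists` from the core statement alone** (trunk plugged in), for any auxiliary
congruence class `b mod m`. -/
theorem tateCmpACarExists_final_aux (m b : ℕ) (hm : m ≠ 0) (hb : b.Coprime m)
    (hcore : Core m b) : TateCmpACarExists :=
  tateCmpACarExists_of_core_aux m b hm hb (fun N p _ hp => kummerCmp_all N p hp)
    (fun N p _ hp => torsionES_all N p hp) hcore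

/-- **`TateCmpACarExists` from the core statement alone**, auxiliary primes `r ≡ 11 mod 12`. -/
theorem tateCmpACarExists_final (hcore : Core 12 11) : TateCmpACarExists :=
  tateCmpACarExists_final_aux 12 11 (by norm_num) (by norm_num) hcore

/-- **S36 from the core statement** (any auxiliary congruence class): the frozen statement S36,
literally. -/
theorem S36_of_core_aux (m b : ℕ) (hm : m ≠ 0) (hb : b.Coprime m) (hcore : Core m b)
    {M : ℕ} [NeZero M] {g : CuspForm (CongruenceSubgroup.Gamma0 M) 2} (hg : g.IsNewform)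
    (lam : ℕ) [Fact lam.Prime]
    (S : Finset ℕ)
    (O' : Type) [CommRing O'] [IsDomain O'] [IsDiscreteValuationRing O']
    [IsAdicComplete (IsLocalRing.maximalIdeal O') O'] [Finite (IsLocalRing.ResidueField O')]
    [CharZero O'] (hlamO' : (lam : O') ∈ IsLocalRing.maximalIdeal O')
    (hlam2 : lam ≠ 2)
    (chig : CuspForm.heckeAlgebra M 2 (↑S : Set ℕ) →+* ℂ)
    (hchig : ∀ (ℓ : ℕ) (hℓ : ℓ.Prime) (hℓM : ¬ ℓ ∣ M) (hℓS : ℓ ∉ (↑S : Set ℕ)),
      chig (CuspForm.heckeAlgebra.T hℓ hℓM hℓS) = ModularFormClass.qCoeff g ℓ)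
    (iota : chig.range →+* O')
    (hlamS : lam ∈ S) (hMS : ∀ q : ℕ, q.Prime → q ∣ M → q ∈ S)
    (hres : ∀ (O'' : Type) [CommRing O''] [IsDomain O''] [IsDiscreteValuationRing O'']
      [IsAdicComplete (IsLocalRing.maximalIdeal O'') O''] [Finite (IsLocalRing.ResidueField O'')] [CharZero O'']
      [Algebra O' O''] [Module.Finite O' O''] [IsLocalHom (algebraMap O' O'')],
      Function.Injective (algebraMap O' O'') → ∀ (ρ : GaloisRepAdic O''),
      (∀ (ℓ : ℕ) (hℓ : ℓ.Prime) (hℓlam : ℓ ≠ lam) (hℓM : ¬ ℓ ∣ M) (hℓS : ℓ ∉ (↑S : Set ℕ)),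
        ∀ A : ValuationSubring (AlgebraicClosure ℚ), A.LiesOverPrime ℓ →
          ∀ σ : AlgebraicClosure ℚ ≃ₐ[ℚ] AlgebraicClosure ℚ, A.IsFrobeniusAt σ ℓ →
            LinearMap.charpoly (ρ.ρ σ) =
              X ^ 2 - C (algebraMap O' O'' ((iota.comp chig.rangeRestrict) (CuspForm.heckeAlgebra.T hℓ hℓM hℓS))) * X
                + C ((ℓ : O'')))
      → ρ.residual.IsAbsolutelyIrreducible ∧ ρ.residual.IsOdd)
    :
    ∃ (O'' : Type) (_ : CommRing O'') (_ : IsDomain O'') (_ : IsDiscreteValuationRing O'')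
      (_ : IsAdicComplete (IsLocalRing.maximalIdeal O'') O'') (_ : Finite (IsLocalRing.ResidueField O''))
      (_ : CharZero O'') (_ : Algebra O' O'') (_ : Module.Finite O' O'') (_ : IsLocalHom (algebraMap O' O'')),
      Function.Injective (algebraMap O' O'') ∧
      ∃ ρ : GaloisRepAdic O'',
        (∀ (ℓ : ℕ) (hℓ : ℓ.Prime) (hℓM : ¬ ℓ ∣ M) (hℓS : ℓ ∉ (↑S : Set ℕ)),
          ∀ A : ValuationSubring (AlgebraicClosure ℚ), A.LiesOverPrime ℓ →
            ∀ σ : AlgebraicClosure ℚ ≃ₐ[ℚ] AlgebraicClosure ℚ, A.IsFrobeniusAt σ ℓ →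
              LinearMap.charpoly (ρ.ρ σ) =
                X ^ 2 - C (algebraMap O' O'' ((iota.comp chig.rangeRestrict) (CuspForm.heckeAlgebra.T hℓ hℓM hℓS))) * X
                  + C ((ℓ : O''))) ∧
        (∀ q : ℕ, q.Prime → q ≠ lam → M.factorization q = 2 → ¬ ρ.IsUnipotentOnInertiaAt q) :=
  S36_of frobDensity (tateCmpACarExists_final_aux m b hm hb hcore) hg lam S O' hlamO' hlam2
    chig hchig iota hlamS hMS hres

/-- **S36 from the core statement** with auxiliary primes `r ≡ 11 mod 12`: the frozen statement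
S36, literally.  `Agent/S36.lean` is `exact S36_of_core core hg lam S O' hlamO' hlam2 chig hchig
iota hlamS hMS hres`. -/
theorem S36_of_core (hcore : Core 12 11)
    {M : ℕ} [NeZero M] {g : CuspForm (CongruenceSubgroup.Gamma0 M) 2} (hg : g.IsNewform)
    (lam : ℕ) [Fact lam.Prime]
    (S : Finset ℕ)
    (O' : Type) [CommRing O'] [IsDomain O'] [IsDiscreteValuationRing O']
    [IsAdicComplete (IsLocalRing.maximalIdeal O') O'] [Finite (IsLocalRing.ResidueField O')]
    [CharZero O'] (hlamO' : (lam : O') ∈ IsLocalRing.maximalIdeal O')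
    (hlam2 : lam ≠ 2)
    (chig : CuspForm.heckeAlgebra M 2 (↑S : Set ℕ) →+* ℂ)
    (hchig : ∀ (ℓ : ℕ) (hℓ : ℓ.Prime) (hℓM : ¬ ℓ ∣ M) (hℓS : ℓ ∉ (↑S : Set ℕ)),
      chig (CuspForm.heckeAlgebra.T hℓ hℓM hℓS) = ModularFormClass.qCoeff g ℓ)
    (iota : chig.range →+* O')
    (hlamS : lam ∈ S) (hMS : ∀ q : ℕ, q.Prime → q ∣ M → q ∈ S)
    (hres : ∀ (O'' : Type) [CommRing O''] [IsDomain O''] [IsDiscreteValuationRing O'']
      [IsAdicComplete (IsLocalRing.maximalIdeal O'') O''] [Finite (IsLocalRing.ResidueField O'')] [CharZero O'']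
      [Algebra O' O''] [Module.Finite O' O''] [IsLocalHom (algebraMap O' O'')],
      Function.Injective (algebraMap O' O'') → ∀ (ρ : GaloisRepAdic O''),
      (∀ (ℓ : ℕ) (hℓ : ℓ.Prime) (hℓlam : ℓ ≠ lam) (hℓM : ¬ ℓ ∣ M) (hℓS : ℓ ∉ (↑S : Set ℕ)),
        ∀ A : ValuationSubring (AlgebraicClosure ℚ), A.LiesOverPrime ℓ →
          ∀ σ : AlgebraicClosure ℚ ≃ₐ[ℚ] AlgebraicClosure ℚ, A.IsFrobeniusAt σ ℓ →
            LinearMap.charpoly (ρ.ρ σ) =
              X ^ 2 - C (algebraMap O' O'' ((iota.comp chig.rangeRestrict) (CuspForm.heckeAlgebra.T hℓ hℓM hℓS))) * X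
                + C ((ℓ : O'')))
      → ρ.residual.IsAbsolutelyIrreducible ∧ ρ.residual.IsOdd)
    :
    ∃ (O'' : Type) (_ : CommRing O'') (_ : IsDomain O'') (_ : IsDiscreteValuationRing O'')
      (_ : IsAdicComplete (IsLocalRing.maximalIdeal O'') O'') (_ : Finite (IsLocalRing.ResidueField O''))
      (_ : CharZero O'') (_ : Algebra O' O'') (_ : Module.Finite O' O'') (_ : IsLocalHom (algebraMap O' O'')),
      Function.Injective (algebraMap O' O'') ∧
      ∃ ρ : GaloisRepAdic O'',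
        (∀ (ℓ : ℕ) (hℓ : ℓ.Prime) (hℓM : ¬ ℓ ∣ M) (hℓS : ℓ ∉ (↑S : Set ℕ)),
          ∀ A : ValuationSubring (AlgebraicClosure ℚ), A.LiesOverPrime ℓ →
            ∀ σ : AlgebraicClosure ℚ ≃ₐ[ℚ] AlgebraicClosure ℚ, A.IsFrobeniusAt σ ℓ →
              LinearMap.charpoly (ρ.ρ σ) =
                X ^ 2 - C (algebraMap O' O'' ((iota.comp chig.rangeRestrict) (CuspForm.heckeAlgebra.T hℓ hℓM hℓS))) * X
                  + C ((ℓ : O''))) ∧
        (∀ q : ℕ, q.Prime → q ≠ lam → M.factorization q = 2 → ¬ ρ.IsUnipotentOnInertiaAt q) :=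
  S36_of_core_aux 12 11 (by norm_num) (by norm_num) hcore hg lam S O' hlamO' hlam2
    chig hchig iota hlamS hMS hres

end Fermat.Agent.CAR.Final
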