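import Mathlib
import Fermat.Agent.CAR.Lift

/-!
# CAR / LIFT at the cusps (brick B4, part 1): the chart `x ≠ 0` as the finite chart of `x⁻¹`

Generic RED setting `(L, A, π, k)`, level `N`, base function `B : BaseFn.Data A π N`.
If the integral series `B.X` is a unit of `A((q))` (inverse `E`), then `E` is again base-function
data (`invData B E hE`), with `x_inv = x⁻¹`, `x̄_inv = x̄⁻¹`, and

  `T3' B  ⟹  T3 (invData B E hE)`     (`T3_invData`).

Hence the whole finite-chart theory of `CAR/Lift.lean` applies to the chart at infinity with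
**`B'_∞ := integralClosure (A[x⁻¹])`** (`IsIntegral ↥((invData B E hE).AX)`):

* `lift_frac_cusp` : for a place `Q` of the special fibre with `x̄(Q) ≠ 0`, every `c ∈ V_Q` is
  `redF a / redF b` with `a, b` integral over `A[x⁻¹]`, `redF b` a unit at `Q`;
* `isIntegral_map_cusp` : an `L`-algebra map `φ` sends `integralClosure (A[x⁻¹])` into the
  integral closure of every subring `R ⊇ A` over which `φ x⁻¹ = (φ x)⁻¹` is integral;
* `exists_inv_Jd`, `ofJInv` : the instance `x = J(q^N)` (any coefficient ring).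
-/

set_option autoImplicit false

noncomputable section

namespace Fermat.Agent.CAR.LiftInv

open HahnSeries ModularCurve Polynomial AlgebraicCurve Fermat.Agent.S28 IntermediateField
  Fermat.Agent.Lib.FF Fermat.Agent.Lib.Red Fermat.Agent.S24

variable {L : Type*} [Field L] [Algebra ℚ L] {A : ValuationSubring L} {k : Type} [Field k]
  {π : A →+* k} {N : ℕ} [NeZero N] (B : BaseFn.Data A π N)

/-! ### The inverse base function -/

theorem incl_inv_eq (E : LaurentSeries A) (hE : E * B.X = 1) :
    incl A E = (incl A B.X)⁻¹ := by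
  have h1 : incl A E * incl A B.X = 1 := by rw [← map_mul, hE, map_one]
  exact eq_inv_of_mul_eq_one_left h1

theorem rbar_inv_eq (E : LaurentSeries A) (hE : E * B.X = 1) :
    rbar A π E = (rbar A π B.X)⁻¹ := by
  have h1 : rbar A π E * rbar A π B.X = 1 := by rw [← map_mul, hE, map_one]
  exact eq_inv_of_mul_eq_one_left h1

/-- The base-function data of the inverse series `E = X⁻¹`. -/
def invData (E : LaurentSeries A) (hE : E * B.X = 1) : BaseFn.Data A π N where
  X := E
  hX := by
    rw [incl_inv_eq B E hE]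
    exact inv_mem B.hX
  htr := by
    intro p hp
    have h1 : rbar A π E * rbar A π B.X = 1 := by rw [← map_mul, hE, map_one]
    have h2 : rbar A π B.X * rbar A π E = 1 := by rw [mul_comm]; exact h1
    letI : Invertible (rbar A π E) := ⟨rbar A π B.X, h2, h1⟩
    have h3 := Polynomial.eval₂_reverse_mul_pow (HahnSeries.C : k →+* LaurentSeries k)
      (rbar A π E) p
    rw [hp] at h3
    have h4 : rbar A π E ≠ 0 := by
      intro h0
      rw [h0, zero_mul] at h1
      exact zero_ne_one h1
    have h5 : Polynomial.eval₂ (HahnSeries.C : k →+* LaurentSeries k) (⅟(rbar A π E))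
        p.reverse = 0 := by
      rcases mul_eq_zero.mp h3 with h | h
      · exact h
      · exact absurd h (pow_ne_zero _ h4)
    have h6 : p.reverse = 0 := B.htr _ h5
    exact Polynomial.reverse_eq_zero.mp h6
  hJL := by
    have h1 : IntermediateField.adjoin L {incl A B.X} ≤ IntermediateField.adjoin L {incl A E} := by
      rw [IntermediateField.adjoin_simple_le_iff, ← inv_inv (incl A B.X), ← incl_inv_eq B E hE]
      exact inv_mem (IntermediateField.mem_adjoin_simple_self L _)
    exact h1 B.hJL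
  hJk := by
    have h1 : IntermediateField.adjoin k {rbar A π B.X} ≤
        IntermediateField.adjoin k {rbar A π E} := by
      rw [IntermediateField.adjoin_simple_le_iff, ← inv_inv (rbar A π B.X), ← rbar_inv_eq B E hE]
      exact inv_mem (IntermediateField.mem_adjoin_simple_self k _)
    exact h1 B.hJk

@[simp] theorem invData_X (E : LaurentSeries A) (hE : E * B.X = 1) : (invData B E hE).X = E := rfl

theorem invData_x (E : LaurentSeries A) (hE : E * B.X = 1) :
    (invData B E hE).x = (B.x)⁻¹ := by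
  apply Subtype.ext
  rw [BaseFn.Data.coe_x, invData_X, incl_inv_eq B E hE]
  rfl

theorem invData_xt (E : LaurentSeries A) (hE : E * B.X = 1)
    (hπ : ∀ a : A, ¬ IsUnit a → π a = 0) (hNk : (N : k) ≠ 0) :
    (invData B E hE).xt hπ hNk = (B.xt hπ hNk)⁻¹ := by
  apply Subtype.ext
  rw [BaseFn.Data.coe_xt, invData_X, rbar_inv_eq B E hE]
  have h : (((B.xt hπ hNk)⁻¹ : ↥(modularFunctionFieldFullC k N)) : LaurentSeries k) =
      ((B.xt hπ hNk : ↥(modularFunctionFieldFullC k N)) : LaurentSeries k)⁻¹ := rfl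
  rw [h, BaseFn.Data.coe_xt]

variable (hπ : ∀ a : A, ¬ IsUnit a → π a = 0) (hsurj : Function.Surjective π)
  (hNk : (N : k) ≠ 0)

/-- **`T3' B ⟹ T3 (B⁻¹)`**: the chart `x ≠ 0` is the finite chart of `x⁻¹`. -/
theorem T3_invData (E : LaurentSeries A) (hE : E * B.X = 1) (h : Lift.T3' B hπ hNk) :
    Lift.T3 (invData B E hE) hπ hNk := by
  intro s hs
  obtain ⟨y, hy, hreg⟩ := h s (fun Q hQ => hs Q (by
    rw [invData_xt, Q.ord_inv]
    omega))
  refine ⟨y, hy, fun P hP => hreg P ?_⟩
  rw [invData_x, P.ord_inv] at hP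
  omega

/-- **`T3 B ⟹ T3' (B⁻¹)`**. -/
theorem T3'_invData (E : LaurentSeries A) (hE : E * B.X = 1) (h : Lift.T3 B hπ hNk) :
    Lift.T3' (invData B E hE) hπ hNk := by
  intro s hs
  obtain ⟨y, hy, hreg⟩ := h s (fun Q hQ => hs Q (by
    rw [invData_xt, Q.ord_inv]
    omega))
  refine ⟨y, hy, fun P hP => hreg P ?_⟩
  rw [invData_x, P.ord_inv] at hP
  omega

include hsurj in
/-- **(Lf-3), integral form.**  For a place `Q` of the special fibre with `x̄(Q) ≠ 0`, every
`c ∈ V_Q` is `redF a / redF b` with `a`, `b` INTEGRAL OVER `A[x⁻¹]` and `redF b` a unit at `Q`. -/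
theorem lift_frac_cusp [IsAlgClosed k] (E : LaurentSeries A) (hE : E * B.X = 1)
    (h : Lift.T3' B hπ hNk)
    (Q : Place k ↥(modularFunctionFieldFullC k N)) (hQ : Q.ord (B.xt hπ hNk) ≤ 0)
    {c : ↥(modularFunctionFieldFullC k N)} (hc : 0 ≤ Q.ord c) :
    ∃ a b : Ow A π N hNk,
      IsIntegral ↥((invData B E hE).AX)
        (a : ↥(laurentBaseChange L (modularFunctionFieldFull N))) ∧
      IsIntegral ↥((invData B E hE).AX)
        (b : ↥(laurentBaseChange L (modularFunctionFieldFull N))) ∧
      Q.ord (redF A π N hπ hNk b) = 0 ∧ redF A π N hπ hNk b ≠ 0 ∧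
      redF A π N hπ hNk a = c * redF A π N hπ hNk b :=
  Lift.lift_frac (invData B E hE) hπ hsurj hNk (T3_invData B hπ hNk E hE h) Q (by
    rw [invData_xt, Q.ord_inv]
    omega) hc

include hsurj in
/-- Separation of the places with `x̄(Q) ≠ 0` by functions integral over `A[x⁻¹]`. -/
theorem lift_sep_cusp [IsAlgClosed k] (E : LaurentSeries A) (hE : E * B.X = 1)
    (h : Lift.T3' B hπ hNk)
    {Q Q' : Place k ↥(modularFunctionFieldFullC k N)} (hQ : Q.ord (B.xt hπ hNk) ≤ 0)
    (hQ' : Q'.ord (B.xt hπ hNk) ≤ 0) (hne : Q ≠ Q') :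
    ∃ y : Ow A π N hNk,
      IsIntegral ↥((invData B E hE).AX)
        (y : ↥(laurentBaseChange L (modularFunctionFieldFull N))) ∧
      0 < Q.ord (redF A π N hπ hNk y) ∧ Q'.ord (redF A π N hπ hNk y) = 0 :=
  Lift.lift_sep (invData B E hE) hπ hsurj hNk (T3_invData B hπ hNk E hE h)
    (by rw [invData_xt, Q.ord_inv]; omega) (by rw [invData_xt, Q'.ord_inv]; omega) hne

include hπ hsurj in
/-- `integralClosure (A[x⁻¹])` in place form: Gauss-integral and regular where `x ≠ 0`
(`= Lift.Binf B`). -/
theorem isIntegral_invData_iff (E : LaurentSeries A) (hE : E * B.X = 1)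
    {y : ↥(laurentBaseChange L (modularFunctionFieldFull N))} :
    IsIntegral ↥((invData B E hE).AX) y ↔ y ∈ Lift.Binf B hNk := by
  rw [Lift.isIntegral_AX_iff_place (invData B E hE) hπ hsurj hNk, Lift.mem_Binf_iff]
  refine and_congr Iff.rfl (forall_congr' fun P => ?_)
  rw [invData_x, P.ord_inv]
  constructor
  · intro h hP
    exact h (by omega)
  · intro h hP
    exact h (by omega)

/-- **(Lf-4) at the cusps.**  An `L`-algebra map `φ : F' → F''` sends
`integralClosure (A[x⁻¹])` into the integral closure of every subring `R` of `F''` containing `A`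
over which `(φ x)⁻¹` is integral. -/
theorem isIntegral_map_cusp (E : LaurentSeries A) (hE : E * B.X = 1)
    {F'' : Type*} [Field F''] [Algebra L F'']
    (φ : ↥(laurentBaseChange L (modularFunctionFieldFull N)) →ₐ[L] F'') (R : Subring F'')
    (hA : ∀ a : A, algebraMap L F'' (a : L) ∈ R) (hx : IsIntegral R (φ B.x)⁻¹)
    {y : ↥(laurentBaseChange L (modularFunctionFieldFull N))}
    (hy : IsIntegral ↥((invData B E hE).AX) y) : IsIntegral R (φ y) := by
  refine Lift.isIntegral_map (invData B E hE) φ R hA ?_ hy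
  rw [invData_x, map_inv₀]
  exact hx

/-! ### The instance `x = J(q^N)` -/

/-- `J(q)` is a unit of `R((q))`, for every commutative ring `R`. -/
theorem exists_inv_jqModC (R : Type*) [CommRing R] :
    ∃ E : LaurentSeries R, E * jqModC R = 1 := by
  set U : PowerSeries R := jNum.map (Int.castRingHom R) with hU
  have hU1 : PowerSeries.constantCoeff U = 1 := by
    rw [hU, ← PowerSeries.coeff_zero_eq_constantCoeff_apply, PowerSeries.coeff_map,
      PowerSeries.coeff_zero_eq_constantCoeff_apply, constantCoeff_jNum, map_one]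
  have hUu : IsUnit U := by
    rw [PowerSeries.isUnit_iff_constantCoeff, hU1]
    exact isUnit_one
  obtain ⟨U', hU'⟩ := hUu.exists_left_inv
  refine ⟨HahnSeries.single (1 : ℤ) 1 * HahnSeries.ofPowerSeries ℤ R U', ?_⟩
  have h1 : HahnSeries.single (1 : ℤ) (1 : R) * HahnSeries.ofPowerSeries ℤ R U' *
      (HahnSeries.single (-1 : ℤ) 1 * HahnSeries.ofPowerSeries ℤ R U) =
      (HahnSeries.single (1 : ℤ) (1 : R) * HahnSeries.single (-1 : ℤ) 1) *
        (HahnSeries.ofPowerSeries ℤ R U' * HahnSeries.ofPowerSeries ℤ R U) := by ring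
  rw [jqModC, h1, HahnSeries.single_mul_single, ← map_mul, hU', map_one, add_neg_cancel, mul_one,
    mul_one]
  rfl

/-- `J(q^d)` is a unit of `R((q))`, for every commutative ring `R`. -/
theorem exists_inv_Jd (R : Type*) [CommRing R] (d : ℕ) :
    ∃ E : LaurentSeries R, E * TD.Jd R d = 1 := by
  obtain ⟨E, hE⟩ := exists_inv_jqModC R
  by_cases h : d = 0
  · subst h
    refine ⟨E, ?_⟩
    simp only [TD.Jd, dif_pos]
    exact hE
  · haveI : NeZero d := ⟨h⟩
    refine ⟨qExpand R d E, ?_⟩
    rw [TD.Jd_eq R d, ← map_mul, hE, map_one]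

variable (A π N) in
/-- The inverse of `J(q^N)` as an `A`-integral series. -/
def JInv : LaurentSeries A := (exists_inv_Jd A N).choose

variable (A π N) in
theorem JInv_mul : JInv A N * (BaseFn.Data.ofJ A π N).X = 1 := (exists_inv_Jd A N).choose_spec

variable (A π N) in
/-- The base-function data of `1/J(q^N)`. -/
def ofJInv : BaseFn.Data A π N := invData (BaseFn.Data.ofJ A π N) (JInv A N) (JInv_mul A π N)

variable (A π N) in
theorem ofJInv_x : (ofJInv A π N).x = (xL L N)⁻¹ := by
  rw [ofJInv, invData_x, BaseFn.Data.ofJ_x]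

variable (A π N) in
theorem ofJInv_xt : (ofJInv A π N).xt hπ hNk = (xk k N)⁻¹ := by
  rw [ofJInv, invData_xt, BaseFn.Data.ofJ_xt]

end Fermat.Agent.CAR.LiftInv
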