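import Mathlib
import Fermat.Agent.CAR.NewInertiaOf
import Fermat.Agent.BAD.LevelTransfer

/-!
# CAR (ELL-1): level transfer `N · r → N` for the inertia clause of CAR-CORE

`NewInertiaAt (N * r) q p A → NewInertiaAt N q p A` for every prime `q` (no condition on `q`
versus `N`) and every auxiliary prime `r ∤ N q`.  The constant is multiplied by
`[F_{N r q} : F_{N q}]`.

Proof: the pull-back of divisor classes along `F_{Nq} ⊆ F_{Nrq}` is Galois-equivariant, its
kernel is killed by the degree, and it commutes with the push-forwards along `α_q`, `β_q`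
(base change; the norm compatibilities in the `q`-direction are proved here for every `q`).
-/

set_option autoImplicit false
set_option linter.style.haveILetI false

noncomputable section

namespace Fermat.Agent.CAR.EllTransfer

open AlgebraicCurve ModularCurve IntermediateField
open Fermat.Agent.S24 Fermat.Agent.S28 Fermat.Agent.ESJ Fermat.Agent.ESJ.HeckeInputs
  Fermat.Agent.ESJ.LevelDesc Fermat.Agent.ESJ.Cong Fermat.Agent.ESJ.Cong.LevelGen
  Fermat.Agent.ESJ.Cong.LevelPull Fermat.Agent.ESJ.Cong.LevelPush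
  Fermat.Agent.ESJ.Cong.LevelPushDvd Fermat.Agent.BAD.LevelTransfer

local notation "Qb" => AlgebraicClosure ℚ
local notation "GQ" => (AlgebraicClosure ℚ ≃ₐ[ℚ] AlgebraicClosure ℚ)

/-- Two coefficient-preserving embeddings into the same level have the same degree. -/
theorem finrankAlong_congr_level {M M' M'' : ℕ} [NeZero M] [NeZero M'] [NeZero M'']
    (h : M' = M'') (i : FN M →ₐ[Qb] FN M') (j : FN M →ₐ[Qb] FN M'')
    (hi : ∀ x, ((i x : FN M') : LaurentSeries Qb) = (x : LaurentSeries Qb))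
    (hj : ∀ x, ((j x : FN M'') : LaurentSeries Qb) = (x : LaurentSeries Qb)) :
    finrankAlong Qb i = finrankAlong Qb j := by
  subst h
  have : i = j := AlgHom.ext fun x => Subtype.ext ((hi x).trans (hj x).symm)
  rw [this]

variable (N r q : ℕ) [NeZero N] [NeZero r] [NeZero q]

/-- `[F_{N r q} : F_{N q}] = r + 1`. -/
theorem finrank_incl_swap (hr : r.Prime) (hrN : ¬ r ∣ N * q) :
    finrankAlong Qb (incl N r q) = r + 1 := by
  rw [finrankAlong_congr_level (mul_right_comm N r q) (incl N r q) (heckeAlphaBar Qb (N * q) r)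
    (fun x => coe_incl N r q x) (fun x => coe_heckeAlphaBar (N * q) r x)]
  exact ConjAnalytic.finrank_alpha (N * q) r hr hrN


/-- `[F_{N r q} : α_q F_{N r}] = [F_{N q} : α_q F_N]` for every prime `q` (`r ∤ N q` prime). -/
theorem finrank_alpha_mul (hr : r.Prime) (hrN : ¬ r ∣ N * q) :
    finrankAlong Qb (heckeAlphaBar Qb (N * r) q) = finrankAlong Qb (heckeAlphaBar Qb N q) := by
  have hrN' : ¬ r ∣ N := fun h => hrN (Dvd.dvd.mul_right h q)
  have h1 := finrankAlong_comp (heckeAlphaBar Qb N r) (heckeAlphaBar Qb (N * r) q)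
  have h2 := finrankAlong_comp (heckeAlphaBar Qb N q) (incl N r q)
  have e3 : finrankAlong Qb (heckeAlphaBar Qb N r) = r + 1 :=
    ConjAnalytic.finrank_alpha N r hr hrN'
  rw [alpha_comp_alpha N r q, h2, finrank_incl_swap N r q hr hrN, e3] at h1
  have h3 : 0 < r + 1 := Nat.succ_pos r
  have h4 : (r + 1) * finrankAlong Qb (heckeAlphaBar Qb (N * r) q)
      = (r + 1) * finrankAlong Qb (heckeAlphaBar Qb N q) := by
    rw [← h1, mul_comm]
  exact Nat.eq_of_mul_eq_mul_left h3 h4

/-- `[F_{N r q} : β_q F_{N r}] = [F_{N q} : β_q F_N]` for every prime `q` (`r ∤ N q` prime). -/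
theorem finrank_beta_mul' (hr : r.Prime) (hrN : ¬ r ∣ N * q) :
    finrankAlong Qb (heckeBetaBar Qb (N * r) q) = finrankAlong Qb (heckeBetaBar Qb N q) := by
  have hrN' : ¬ r ∣ N := fun h => hrN (Dvd.dvd.mul_right h q)
  have h1 := finrankAlong_comp (heckeAlphaBar Qb N r) (heckeBetaBar Qb (N * r) q)
  have h2 := finrankAlong_comp (heckeBetaBar Qb N q) (incl N r q)
  have e3 : finrankAlong Qb (heckeAlphaBar Qb N r) = r + 1 :=
    ConjAnalytic.finrank_alpha N r hr hrN'
  rw [beta_comp_alpha N r q, h2, finrank_incl_swap N r q hr hrN, e3] at h1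
  have h3 : 0 < r + 1 := Nat.succ_pos r
  have h4 : (r + 1) * finrankAlong Qb (heckeBetaBar Qb (N * r) q)
      = (r + 1) * finrankAlong Qb (heckeBetaBar Qb N q) := by
    rw [← h1, mul_comm]
  exact Nat.eq_of_mul_eq_mul_left h3 h4

omit [NeZero r] in
/-- **Explicit generator**: for `N = q^a N'`, `q ∤ N'`, the function `J(q^(q^(a+1)))` generates
`F_{N q}` over `F_N`. -/
theorem closure_range_alpha_union_Jd (hq : q.Prime) (a N' : ℕ) (hqN' : ¬ q ∣ N')
    (hN : N = q ^ a * N') (θ : FN (N * q))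
    (hθ : (θ : LaurentSeries Qb) = TD.Jd Qb (q ^ (a + 1))) :
    Subfield.closure (Set.range (heckeAlphaBar Qb N q) ∪ {θ}) = ⊤ := by
  have hN0 : N ≠ 0 := NeZero.ne N
  have hN'0 : N' ≠ 0 := fun h => hN0 (by rw [hN, h, mul_zero])
  have hfwd : TD.FF Qb (N * q) 1 ≤ IntermediateField.adjoin Qb
      ((TD.FF Qb N 1 : Set (LaurentSeries Qb)) ∪ {TD.Jd Qb (q ^ (a + 1))}) := by
    have h0 := FF_mul_le_adjoin_fwd_pow Qb N' q a hN'0 hq hqN'
    rw [← hN] at h0
    exact h0
  refine closure_eq_top_of_adjoin _ (fun c => ?_)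
    ((TD.FF Qb N 1 : Set (LaurentSeries Qb)) ∪ {TD.Jd Qb (q ^ (a + 1))}) ?_ hfwd
  · rw [← (heckeAlphaBar Qb N q).commutes c]
    exact Subfield.subset_closure (Or.inl (Set.mem_range_self _))
  · rintro z (hz | hz)
    · have hz' : z ∈ TD.FF Qb N 1 := hz
      have hzb : z ∈ modularFunctionFieldBar N := mem_bar_of_mem_FF hz'
      have hcoe : ((heckeAlphaBar Qb N q ⟨z, hzb⟩ : FN (N * q)) : LaurentSeries Qb) = z :=
        coe_heckeAlphaBar N q ⟨z, hzb⟩
      refine ⟨hcoe ▸ (heckeAlphaBar Qb N q ⟨z, hzb⟩).2,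
        Subfield.subset_closure (Or.inl ⟨⟨z, hzb⟩, ?_⟩)⟩
      exact Subtype.ext hcoe
    · rw [Set.mem_singleton_iff] at hz
      subst hz
      refine ⟨hθ ▸ θ.2, Subfield.subset_closure (Or.inr ?_)⟩
      rw [Set.mem_singleton_iff]
      exact Subtype.ext hθ.symm

/-- Norm compatibility in the `q`-direction for the square `α_q ∘ α_r = incl ∘ α_q`, for EVERY
prime `q`: `N_{F_{Nrq}/α_q F_{Nr}}(f) = N_{F_{Nq}/α_q F_N}(f)` for `f ∈ F_{Nq}`. -/
theorem norm_alpha_incl (hq : q.Prime) (hr : r.Prime) (hrN : ¬ r ∣ N * q) (f : FN (N * q)) :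
    (letI := algebraAlong (heckeAlphaBar Qb (N * r) q);
      Algebra.norm (FN (N * r)) (incl N r q f))
      = heckeAlphaBar Qb N r
          (letI := algebraAlong (heckeAlphaBar Qb N q); Algebra.norm (FN N) f) := by
  have hN0 : N ≠ 0 := NeZero.ne N
  obtain ⟨a, N', hqN', hN⟩ := Nat.exists_eq_pow_mul_and_not_dvd hN0 q hq.ne_one
  have hqr : q ≠ r := fun h => hrN (h ▸ dvd_mul_left q N)
  have hqN'r : ¬ q ∣ N' * r := fun hd =>
    (hq.dvd_mul.mp hd).elim hqN' (fun h' => hqr ((Nat.prime_dvd_prime_iff_eq hq hr).mp h'))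
  have hNr : N * r = q ^ a * (N' * r) := by rw [hN, mul_assoc]
  have hdvdθ : q ^ (a + 1) ∣ N * q := by
    rw [hN, pow_succ]
    exact ⟨N', by ring⟩
  have hmemθ : TD.Jd Qb (q ^ (a + 1)) ∈ modularFunctionFieldBar (N * q) :=
    mem_bar_of_mem_FF (Jd_mem_FF_one hdvdθ)
  refine norm_along_of_closure_eq_top (heckeAlphaBar Qb N r) (heckeAlphaBar Qb N q)
    (heckeAlphaBar Qb (N * r) q) (incl N r q) (alpha_comp_alpha N r q)
    (finiteAlong_heckeAlphaBar N q) (finrank_alpha_mul N r q hr hrN)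
    ⟨TD.Jd Qb (q ^ (a + 1)), hmemθ⟩ ?_ ?_ f
  · exact closure_range_alpha_union_Jd N q hq a N' hqN' hN _ rfl
  · exact closure_range_alpha_union_Jd (N * r) q hq a (N' * r) hqN'r hNr _ (coe_incl N r q _)

/-- Norm compatibility in the `q`-direction for the square `β_q ∘ α_r = incl ∘ β_q`, for EVERY
prime `q`. -/
theorem norm_beta_incl' (hq : q.Prime) (hr : r.Prime) (hrN : ¬ r ∣ N * q) (f : FN (N * q)) :
    (letI := algebraAlong (heckeBetaBar Qb (N * r) q);
      Algebra.norm (FN (N * r)) (incl N r q f))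
      = heckeAlphaBar Qb N r
          (letI := algebraAlong (heckeBetaBar Qb N q); Algebra.norm (FN N) f) := by
  refine norm_along_of_closure_eq_top (heckeAlphaBar Qb N r) (heckeBetaBar Qb N q)
    (heckeBetaBar Qb (N * r) q) (incl N r q) (beta_comp_alpha N r q)
    (finiteAlong_heckeBetaBar N q) (finrank_beta_mul' N r q hr hrN)
    (heckeAlphaBar Qb N q (jLevel Qb N))
    (closure_range_heckeBetaBar_union N q hq) ?_ f
  have e : incl N r q (heckeAlphaBar Qb N q (jLevel Qb N))
      = heckeAlphaBar Qb (N * r) q (jLevel Qb (N * r)) := by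
    apply Subtype.ext
    rw [coe_incl, coe_heckeAlphaBar, coe_heckeAlphaBar, coe_jLevel, coe_jLevel]
  rw [e]
  exact closure_range_heckeBetaBar_union (N * r) q hq

set_option synthInstance.maxHeartbeats 400000 in
set_option maxHeartbeats 1000000 in
/-- **(ELL-1)** The inertia clause of CAR-CORE descends from level `N r` to level `N`, for every
prime `q` and every auxiliary prime `r ∤ N q`; the constant is multiplied by `r + 1`. -/
theorem newInertiaAt_of_mul (p : ℕ) (hr : r.Prime) (hrN : ¬ r ∣ N * q) (hq : q.Prime)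
    (A : ValuationSubring Qb) (h : NewInertiaAt (N * r) q p A) : NewInertiaAt N q p A := by
  haveI hP1 := hasPrincipalDivisors_bar (N * r)
  haveI hP2 := hasPrincipalDivisors_bar (N * q)
  haveI hP3 := hasPrincipalDivisors_bar (N * r * q)
  -- the two pull-backs
  have hFIπ := fundamentalIdentityAlong_incl N r q
  have hFIπ' := fundamentalIdentityAlong_heckeAlphaBar N r
  set π : JZero (N * q) →+ JZero (N * r * q) :=
    pic0Pull (incl N r q) (isIntegral_incl N r q) hFIπ with hπ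
  set π' : JZero N →+ JZero (N * r) :=
    pic0Pull (heckeAlphaBar Qb N r) (heckeAlphaBarIntegral N r) hFIπ' with hπ'
  -- Galois equivariance of `π`
  have hπG : ∀ (σ : GQ) (x : JZero (N * q)), π (σ • x) = σ • π x := by
    intro σ x
    rw [galois_smul_pic0_def, galois_smul_pic0_def]
    exact pic0Pull_smul (incl N r q) (isIntegral_incl N r q) hFIπ
      (comm_intertwines_incl N r q σ) x
  -- the kernel of `π` is killed by `r + 1`
  have hπker : ∀ x : JZero (N * q), π x = 0 → (r + 1) • x = 0 := by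
    intro x hx
    have hS : SumRamInertiaAlong (incl N r q) (isIntegral_incl N r q) := by
      letI := algebraAlong (incl N r q)
      haveI := isScalarTower_along (incl N r q)
      haveI := isIntegral_along (incl N r q) (isIntegral_incl N r q)
      haveI : FiniteDimensional (FN (N * q)) (FN (N * r * q)) := finiteAlong_incl N r q
      haveI := isAlgebraic_bar (N * q)
      haveI := isAlgebraic_bar (N * r * q)
      exact Fermat.Agent.Lib.FF.ExtNorm.sumRamificationInertia (jBar (N * q))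
        (jBar (N * r * q))
    have h1 := nsmul_eq_zero_of_pic0Pull_eq_zero (incl N r q) (isIntegral_incl N r q) hFIπ
      (finiteAlong_incl N r q) (normFormulaAlong_incl N r q) hS x hx
    rwa [finrank_incl_swap N r q hr hrN] at h1
  -- base change with the two push-forwards
  have hA1 : ∀ x : JZero (N * q), levelPushAlpha (N * r) q (π x) = π' (levelPushAlpha N q x) :=
    fun x => (pic0Pull_pic0Push (heckeAlphaBar Qb N r) (heckeAlphaBar Qb N q)
      (heckeAlphaBar Qb (N * r) q) (incl N r q) (heckeAlphaBarIntegral N r)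
      (heckeAlphaBarIntegral N q) (heckeAlphaBarIntegral (N * r) q) (isIntegral_incl N r q)
      hFIπ' hFIπ (alpha_comp_alpha N r q) (finiteAlong_heckeAlphaBar N q)
      (normFormulaAlong_alpha N q) (finiteAlong_heckeAlphaBar (N * r) q)
      (normFormulaAlong_alpha (N * r) q) (norm_alpha_incl N r q hq hr hrN)
      (exists_ord_eq_one (N * q)) x).symm
  have hA2 : ∀ x : JZero (N * q), levelPushBeta (N * r) q (π x) = π' (levelPushBeta N q x) :=
    fun x => (pic0Pull_pic0Push (heckeAlphaBar Qb N r) (heckeBetaBar Qb N q)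
      (heckeBetaBar Qb (N * r) q) (incl N r q) (heckeAlphaBarIntegral N r)
      (heckeBetaBarIntegral N q) (heckeBetaBarIntegral (N * r) q) (isIntegral_incl N r q)
      hFIπ' hFIπ (beta_comp_alpha N r q) (finiteAlong_heckeBetaBar N q)
      (normFormulaAlong_heckeBetaBar N q) (finiteAlong_heckeBetaBar (N * r) q)
      (normFormulaAlong_heckeBetaBar (N * r) q) (norm_beta_incl' N r q hq hr hrN)
      (exists_ord_eq_one (N * q)) x).symm
  -- the transfer
  obtain ⟨c, hc, hcx⟩ := h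
  refine ⟨(r + 1) * c, Nat.mul_ne_zero (Nat.succ_ne_zero r) hc, ?_⟩
  rintro x ⟨n, hn⟩ hx1 hx2 hfix
  have hX := hcx (π x) ⟨n, by rw [← map_nsmul, hn, map_zero]⟩
    (by rw [hA1, hx1, map_zero]) (by rw [hA2, hx2, map_zero])
    (fun σ hσ => by rw [← hπG, hfix σ hσ])
  have h1 : π (c • x) = 0 := by rw [map_nsmul]; exact hX
  have h2 := hπker _ h1
  rw [mul_nsmul']
  exact h2


/-! ### Reduction of CAR-CORE to the levels without elliptic points at good pairs -/

/-- The levels at which the elliptic sub-crux (ELL-2) is attacked: `N` is divisible by a prime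
`r ≡ 11 mod 12` (so `Γ₀(N)` has no elliptic points) and `(N, q)` is a good pair of RED. -/
def EllGood (N q : ℕ) : Prop :=
  (∃ r : ℕ, r.Prime ∧ r % 12 = 11 ∧ r ∣ N) ∧ (5 ≤ q ∨ (q = 3 ∧ 2 ∣ N) ∨ (q = 2 ∧ 3 ∣ N))

omit [NeZero N] [NeZero r] in
/-- **(ELL-1), assembled**: the inertia clause at all levels `N` with `q ∥ N` follows from the
levels `N` with `q ∥ N` which satisfy `EllGood N q`. -/
theorem newInertiaAt_of_ellGood (p : ℕ) (hq : q.Prime) (A : ValuationSubring Qb)
    (H : ∀ (N : ℕ) [NeZero N], q ∣ N → ¬ q ^ 2 ∣ N → EllGood N q → NewInertiaAt N q p A)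
    (N : ℕ) [NeZero N] (hqN : q ∣ N) (hq2 : ¬ q ^ 2 ∣ N) : NewInertiaAt N q p A := by
  have hN0 : N ≠ 0 := NeZero.ne N
  have hNpos : 0 < N := Nat.pos_of_ne_zero hN0
  obtain ⟨r, hrgt, hr, hrmod⟩ := Nat.forall_exists_prime_gt_and_modEq (N * 6 * q)
    (q := 12) (a := 11) (by norm_num) (by decide)
  have hr11 : r % 12 = 11 := hrmod
  haveI : NeZero r := ⟨hr.ne_zero⟩
  have hqpos : 0 < q := hq.pos
  -- `r` is larger than, hence prime to, every level in sight
  have hrnd : ∀ m : ℕ, 0 < m → m ≤ N * 6 * q → ¬ r ∣ m := fun m hm hle hd =>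
    absurd (Nat.le_of_dvd hm hd) (by omega)
  have hrq : r ≠ q := by
    rintro rfl
    have : r ≤ N * 6 * r := Nat.le_mul_of_pos_left r (by positivity)
    omega
  have hcop : Nat.Coprime (q ^ 2) r :=
    Nat.Coprime.pow_left 2 ((Nat.coprime_primes hq hr).mpr (Ne.symm hrq))
  by_cases hgood : 5 ≤ q ∨ (q = 3 ∧ 2 ∣ N) ∨ (q = 2 ∧ 3 ∣ N)
  · -- one transfer
    have hrN : ¬ r ∣ N * q := hrnd (N * q) (by positivity) (by nlinarith)
    refine newInertiaAt_of_mul N r q p hr hrN hq A (H (N * r) (Dvd.dvd.mul_right hqN r) ?_ ?_)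
    · intro hd
      exact hq2 (hcop.dvd_of_dvd_mul_right hd)
    · refine ⟨⟨r, hr, hr11, dvd_mul_left r N⟩, ?_⟩
      rcases hgood with h5 | ⟨h3, h2⟩ | ⟨h2, h3⟩
      · exact Or.inl h5
      · exact Or.inr (Or.inl ⟨h3, Dvd.dvd.mul_right h2 r⟩)
      · exact Or.inr (Or.inr ⟨h2, Dvd.dvd.mul_right h3 r⟩)
  · -- `q ∈ {2, 3}` and the auxiliary prime `a = 5 - q` does not divide `N`: two transfers
    push Not at hgood
    obtain ⟨hq5, hq3, hq2'⟩ := hgood
    have hq23 : q = 2 ∨ q = 3 := by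
      have h2le := hq.two_le
      interval_cases q
      · exact Or.inl rfl
      · exact Or.inr rfl
      · exact absurd hq (by decide)
    obtain ⟨a, ha, haq, ha3, haN, hagood⟩ : ∃ a : ℕ, a.Prime ∧ a ≠ q ∧ a ≤ 3 ∧ ¬ a ∣ N ∧
        ((q = 3 ∧ a = 2) ∨ (q = 2 ∧ a = 3)) := by
      rcases hq23 with h | h
      · exact ⟨3, Nat.prime_three, by omega, le_refl 3, hq2' h, Or.inr ⟨h, rfl⟩⟩
      · exact ⟨2, Nat.prime_two, by omega, by norm_num, hq3 h, Or.inl ⟨h, rfl⟩⟩
    haveI : NeZero a := ⟨ha.ne_zero⟩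
    have hapos : 0 < a := ha.pos
    have haNq : ¬ a ∣ N * q := fun hd =>
      (ha.dvd_mul.mp hd).elim haN (fun h' => haq ((Nat.prime_dvd_prime_iff_eq ha hq).mp h'))
    have hrNa : ¬ r ∣ N * a * q := hrnd (N * a * q) (by positivity)
      (Nat.mul_le_mul_right q (Nat.mul_le_mul_left N (by omega : a ≤ 6)))
    have hcopa : Nat.Coprime (q ^ 2) a :=
      Nat.Coprime.pow_left 2 ((Nat.coprime_primes hq ha).mpr (Ne.symm haq))
    refine newInertiaAt_of_mul N a q p ha haNq hq A ?_
    refine newInertiaAt_of_mul (N * a) r q p hr hrNa hq A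
      (H (N * a * r) (Dvd.dvd.mul_right (Dvd.dvd.mul_right hqN a) r) ?_ ?_)
    · intro hd
      exact hq2 (hcopa.dvd_of_dvd_mul_right (hcop.dvd_of_dvd_mul_right hd))
    · refine ⟨⟨r, hr, hr11, dvd_mul_left r (N * a)⟩, ?_⟩
      rcases hagood with ⟨h3, h2⟩ | ⟨h2, h3⟩
      · exact Or.inr (Or.inl ⟨h3, h2 ▸ Dvd.dvd.mul_right (dvd_mul_left a N) r⟩)
      · exact Or.inr (Or.inr ⟨h2, h3 ▸ Dvd.dvd.mul_right (dvd_mul_left a N) r⟩)

/-- The hypothesis `hCar` of `CAR.tateCmpACarExists_of_trunk` from the inertia clause at the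
levels `N` with `q ∥ N` and `EllGood N q`. -/
theorem hCar_of_ellGood
    (h : ∀ (N q p : ℕ) [NeZero N] [NeZero q], p.Prime → q.Prime → q ≠ p → q ∣ N → ¬ q ^ 2 ∣ N →
      EllGood N q → ∀ A : ValuationSubring Qb, A.LiesOverPrime q → NewInertiaAt N q p A)
    (M N q p : ℕ) [NeZero M] [NeZero N] (hp : p.Prime) (hq : q.Prime) (hqp : q ≠ p)
    (hM : M = N * q) (hqN : q ∣ N) (hq2 : ¬ q ^ 2 ∣ N) : TorsionNewInertia M N q p :=
  hCar_of_newInertiaAt
    (fun N q p _ _ hp hq hqp hqN hq2 A hA =>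
      newInertiaAt_of_ellGood q p hq A
        (fun N' _ hqN' hq2' hE => h N' q p hp hq hqp hqN' hq2' hE A hA) N hqN hq2)
    M N q p hp hq hqp hM hqN hq2

end Fermat.Agent.CAR.EllTransfer
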