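/-
CAR, SHADOW of row 400 (helper73): **WireB — the second, independent end-to-end wire** of the
abstract chain of CAR-CORE, along ROUTE B:

  front end (normal form + normalisation of the two norms)
    ⟹ `Kill.exists_kill_one` (killing function `φ`, `f₄ = f₃ ^ e * φ ^ m`)
    ⟹ `LInst.hlocal_of_contract` (finite chart; `hglue` from the kill, `KillPointOne` at the
        supersingular points from the factorisation, `FactorVal` and the literal conclusion of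
        `NodeTriple.triple_ratio_pow_of_red`)
      + the cusp chart (`LInst.hlocal'_of_cusp` / `LInstCuspB.hlocal'_of_cuspBase`, as a binder)
    ⟹ the chart theorem (`Charts.exists_eq_const_mul_pow_of_charts_FNK`, as a binder `hglob`)
    ⟹ `Glob.pow_eq_const_mul_pow`.

The PRIMARY assembly is helper71's `Core.chain` (`CAR/Core/Chain.lean`, via `PointPkg`); this
file does NOT use `PointPkg`: it composes the literal on-main theorems of the owners.

* `TripleRatio` : the literal conclusion of `NodeTriple.triple_ratio_pow(_of_red)` at a triple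
  point, as a predicate of the point (its local ring and the three composite rings).
* `frontEnd` : normal form `f ^ E = q₀ ^ j * G ^ m * f₃` and the two norms of `f₃` in the shape
  `unit of W * g ^ m`, `g` congruent to constants on the two components of level `N`.
* `killPointOne_of_tripleRatio` : `Kill.KillPointOne` at a supersingular point of the finite
  chart of a `Contract`.
* `chainB` : **the abstract chain, route B**.
-/
import Mathlib
import Fermat.Agent.CAR.Core.Chain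
import Fermat.Agent.CAR.Glue.Kill
import Fermat.Agent.CAR.Glue.FactorVal
import Fermat.Agent.CAR.Glue.LocalInst
import Fermat.Agent.CAR.Glue.NodeTriple
import Fermat.Agent.CAR.Glob.Conclude
import Fermat.Agent.CAR.Inst.Hor

set_option autoImplicit false

namespace Fermat.Agent.CAR.WireB

open IsLocalRing Fermat.Agent.CAR.Formal Fermat.Agent.CAR.Formal.NF Fermat.Agent.CAR.Local
  Fermat.Agent.CAR.Local.Inst Fermat.Agent.CAR.Glue Fermat.Agent.CAR.Glue.NodeUnits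
  Fermat.Agent.CAR.Inst.Hor

section Abstract

variable {W k K0 FN F : Type*} [CommRing W] [Field k] [Field K0] [Field FN] [Field F]
  [Algebra W K0] [Algebra K0 FN] [Algebra K0 F] [Algebra W FN] [Algebra W F]
  [IsScalarTower W K0 FN] [IsScalarTower W K0 F]

/-- **The node relation at a triple point**, in the LITERAL shape of the conclusion of
`NodeTriple.triple_ratio_pow` / `triple_ratio_pow_of_red` (`n + 1 = q`): `Rp` the local ring of
the point, `Vc 0, Vc 1, Vc 2` the composite rings of the branches `inf, mid, zero`.  For every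
factorisation `f = u * h ^ m` (`u` a unit of `Rp`), norms `N_α f = cα * gα ^ m`,
`N_β f = cβ * gβ ^ m` with `cα, cβ` units of `W`, values `a, b, c ≠ 0` of `h` on the three
branches and values `γα₁, γα₂` (`γβ₁, γβ₂`) of `α gα` (`β gβ`) on the branches `inf`, `zero`:
`a ^ (n + 2) = (γα₁ / γα₂) * (γβ₁ / γβ₂) * c ^ (n + 2)` and
`(γβ₁ / γβ₂) * b ^ (n * (n + 2)) = (γα₁ / γα₂) ^ (n + 1) * c ^ (n * (n + 2))`. -/
def TripleRatio (res : W →+* k) (n m : ℕ) (α β : FN →+* F) (O : Fin 3 → ValuationSubring F)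
    (Rp : Subring F) (Vc : Fin 3 → ValuationSubring F) : Prop :=
  ∀ (f u h : F) (gα gβ : FN) (cα cβ : W) (a b c γα₁ γα₂ γβ₁ γβ₂ : k),
    (∀ i, f - 1 ∈ (O i).nonunits) →
    u ∈ Rp → u⁻¹ ∈ Rp → f = u * h ^ m → h ≠ 0 →
    IsUnit cα → gα ≠ 0 → normOf α f = algebraMap W FN cα * gα ^ m →
    IsUnit cβ → gβ ≠ 0 → normOf β f = algebraMap W FN cβ * gβ ^ m →
    HasVal res (Vc 0) h a → HasVal res (Vc 1) h b → HasVal res (Vc 2) h c →
    a ≠ 0 → b ≠ 0 → c ≠ 0 →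
    HasVal res (Vc 0) (α gα) γα₁ → HasVal res (Vc 2) (α gα) γα₂ →
    HasVal res (Vc 0) (β gβ) γβ₁ → HasVal res (Vc 2) (β gβ) γβ₂ →
    a ^ (n + 2) = (γα₁ / γα₂) * (γβ₁ / γβ₂) * c ^ (n + 2) ∧
      (γβ₁ / γβ₂) * b ^ (n * (n + 2)) = (γα₁ / γα₂) ^ (n + 1) * c ^ (n * (n + 2))

/-! ### The front end -/

/-- **The front end of the chain** (normal form and normalisation of the two norms).
`f ^ ((q-1)(q+1)) = q₀ ^ j * G ^ m * f₃` with `f₃ ≡ 1` on the three components, and the two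
norms of `f₃` are `(unit of W) * g ^ m` with `g` congruent to constants `wA`, `wC` (units
modulo the maximal ideal) on `PA`, `PC`. -/
theorem frontEnd [IsAlgClosed k]
    (res : W →+* k) (hres : Function.Surjective res) (q₀ : W)
    (hker : ∀ w : W, res w = 0 → q₀ ∣ w)
    (hunit : ∀ w : W, res w ≠ 0 → IsUnit w)
    (hK0 : ∀ a : K0, a ≠ 0 → ∃ (n : ℤ) (w : W), IsUnit w ∧
      a = algebraMap W K0 q₀ ^ n * algebraMap W K0 w)
    (m q : ℕ) (hcop : Nat.Coprime m q)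
    (α β : FN →+* F) (hαK : ∀ a : K0, α (algebraMap K0 FN a) = algebraMap K0 F a)
    (hβK : ∀ a : K0, β (algebraMap K0 FN a) = algebraMap K0 F a)
    (PA PC : ValuationSubring FN) (O : Fin 3 → ValuationSubring F) (ϖ d : F)
    (D : NF.Data α β q PA PC (O 0) (O 1) (O 2) (algebraMap W FN q₀) ϖ d)
    (hWA : ∀ w : W, algebraMap W FN w ∈ PA) (hWC : ∀ w : W, algebraMap W FN w ∈ PC)
    (f : F) (hf0 : f ≠ 0)
    (hNα : ∃ (a : K0) (g : FN), a ≠ 0 ∧ normOf α f = algebraMap K0 FN a * g ^ m)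
    (hNβ : ∃ (a : K0) (g : FN), a ≠ 0 ∧ normOf β f = algebraMap K0 FN a * g ^ m) :
    ∃ (j : ℤ) (G f₃ : F), G ≠ 0 ∧ algebraMap W K0 q₀ ^ j ≠ 0 ∧
      f ^ ((q - 1) * (q + 1)) = ϖ ^ j * G ^ m * f₃ ∧
      ϖ ^ j = algebraMap K0 F (algebraMap W K0 q₀ ^ j) ∧
      (∀ i, f₃ - 1 ∈ (O i).nonunits) ∧
      (∃ (c₀ wA wC : W) (g : FN), IsUnit c₀ ∧ normOf α f₃ = algebraMap W FN c₀ * g ^ m ∧
        g - algebraMap W FN wA ∈ PA.nonunits ∧ g - algebraMap W FN wC ∈ PC.nonunits ∧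
        res wA ≠ 0 ∧ res wC ≠ 0) ∧
      (∃ (c₀ wA wC : W) (g : FN), IsUnit c₀ ∧ normOf β f₃ = algebraMap W FN c₀ * g ^ m ∧
        g - algebraMap W FN wA ∈ PA.nonunits ∧ g - algebraMap W FN wC ∈ PC.nonunits ∧
        res wA ≠ 0 ∧ res wC ≠ 0) := by
  classical
  have hq := D.hq
  have hq1 := hq.one_lt
  have hm : m ≠ 0 := by
    rintro rfl
    rw [Nat.coprime_zero_left] at hcop
    exact hq1.ne' hcop
  have hαW : ∀ w : W, α (algebraMap W FN w) = algebraMap W F w := fun w => by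
    rw [IsScalarTower.algebraMap_apply W K0 FN, hαK, ← IsScalarTower.algebraMap_apply]
  have hϖ : ϖ = algebraMap W F q₀ := by rw [← D.αϖ, hαW]
  have hϖK : ϖ = algebraMap K0 F (algebraMap W K0 q₀) := by
    rw [hϖ, IsScalarTower.algebraMap_apply W K0 F]
  have hϖ0 : ϖ ≠ 0 := D.ha.ne_zero
  have hkerA : ∀ w : W, res w = 0 → algebraMap W FN w ∈ PA.nonunits := by
    intro w hw
    obtain ⟨w', rfl⟩ := hker w hw
    rw [map_mul, mul_comm]
    exact mul_mem_nonunits PA (hWA w') D.hA.mem_nonunits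
  have hkerC : ∀ w : W, res w = 0 → algebraMap W FN w ∈ PC.nonunits := by
    intro w hw
    obtain ⟨w', rfl⟩ := hker w hw
    rw [map_mul, mul_comm]
    exact mul_mem_nonunits PC (hWC w') D.hC.mem_nonunits
  have hresunit : ∀ w : W, IsUnit w → res w ≠ 0 := fun w hw => (hw.map res).ne_zero
  -- Step 1: the normal form
  obtain ⟨aα, gα, haα, hNα⟩ := hNα
  obtain ⟨aβ, gβ, haβ, hNβ⟩ := hNβ
  have hCst : ∀ c ∈ Set.range (algebraMap K0 FN), c ≠ 0 → ∃ (n : ℤ) (c' ε : FN),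
      c = algebraMap W FN q₀ ^ n * c' ^ m * ε ∧ ε - 1 ∈ PA.nonunits ∧ ε - 1 ∈ PC.nonunits := by
    rintro _ ⟨a, rfl⟩ hc0
    have ha : a ≠ 0 := fun h0 => hc0 (by rw [h0, map_zero])
    obtain ⟨n, w, hw, rfl⟩ := hK0 a ha
    obtain ⟨z, hz⟩ := IsAlgClosed.exists_pow_nat_eq (res w) (Nat.pos_of_ne_zero hm)
    obtain ⟨c₁, rfl⟩ := hres z
    have hc₁ : res c₁ ≠ 0 := by
      intro h0
      rw [h0, zero_pow hm] at hz
      exact hresunit w hw hz.symm
    obtain ⟨c₂, hc₂⟩ := (hunit c₁ hc₁).exists_right_inv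
    have hc₁F : algebraMap W FN c₁ * algebraMap W FN c₂ = 1 := by
      rw [← map_mul, hc₂, map_one]
    have hc₁0 : algebraMap W FN c₁ ≠ 0 := left_ne_zero_of_mul_eq_one hc₁F
    have hc₂e : algebraMap W FN c₂ = (algebraMap W FN c₁)⁻¹ := eq_inv_of_mul_eq_one_right hc₁F
    have e : algebraMap W FN w / algebraMap W FN c₁ ^ m - 1 =
        algebraMap W FN c₂ ^ m * algebraMap W FN (w - c₁ ^ m) := by
      rw [hc₂e, map_sub, map_pow, inv_pow, div_sub_one (pow_ne_zero m hc₁0), div_eq_inv_mul]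
    have hr0 : res (w - c₁ ^ m) = 0 := by rw [map_sub, map_pow, hz, sub_self]
    refine ⟨n, algebraMap W FN c₁, algebraMap W FN w / algebraMap W FN c₁ ^ m, ?_, ?_, ?_⟩
    · rw [map_mul, map_zpow₀, ← IsScalarTower.algebraMap_apply,
        ← IsScalarTower.algebraMap_apply]
      field_simp
    · rw [e]
      exact mul_mem_nonunits PA (pow_mem (hWA c₂) m) (hkerA _ hr0)
    · rw [e]
      exact mul_mem_nonunits PC (pow_mem (hWC c₂) m) (hkerC _ hr0)
  obtain ⟨j, G, f₃, hG0, hfE, h3a, h3b, h3c⟩ := D.normalForm_of_const m hcop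
    (Set.range (algebraMap K0 FN)) hCst f hf0 ⟨_, ⟨aα, rfl⟩, gα, hNα⟩ ⟨_, ⟨aβ, rfl⟩, gβ, hNβ⟩
  set E := (q - 1) * (q + 1) with hE
  have h3 : ∀ i, f₃ - 1 ∈ (O i).nonunits := Core.forall_fin3 h3a h3b h3c
  have hf₃0 : f₃ ≠ 0 := (pu_unit (O 0) h3a).1
  have hcKF : algebraMap K0 F (algebraMap W K0 q₀ ^ j) = ϖ ^ j := by
    rw [map_zpow₀, ← hϖK]
  have hcK0 : algebraMap W K0 q₀ ^ j ≠ 0 := by
    intro h0
    have h1 : ϖ ^ j = 0 := by rw [← hcKF, h0, map_zero]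
    exact zpow_ne_zero j hϖ0 h1
  set cK : K0 := algebraMap W K0 q₀ ^ j with hcK
  set X : F := ϖ ^ j with hX
  -- Step 2: the norms of `f₃`
  have normdata : ∀ φ : FN →+* F, (letI := φ.toAlgebra; FiniteDimensional FN F) →
      (letI := φ.toAlgebra; Module.finrank FN F) = q →
      (∀ a : K0, φ (algebraMap K0 FN a) = algebraMap K0 F a) →
      ∀ (a : K0) (g : FN), a ≠ 0 → normOf φ f = algebraMap K0 FN a * g ^ m →
      ∃ (a₃ : K0) (g₃ : FN), a₃ ≠ 0 ∧ normOf φ f₃ = algebraMap K0 FN a₃ * g₃ ^ m := by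
    intro φ hfin hdeg hφK a g ha hN
    have hNG : normOf φ G ≠ 0 := normOf_ne_zero φ hfin hG0
    have h1 : normOf φ (f ^ E) = normOf φ X * normOf φ G ^ m * normOf φ f₃ := by
      rw [hfE, map_mul, map_mul, map_pow]
    have h2 : normOf φ X = algebraMap K0 FN cK ^ q := by
      rw [← hcKF, ← hφK, normOf_map φ hdeg]
    rw [map_pow, hN, h2] at h1
    have hc : algebraMap K0 FN cK ≠ 0 := (map_ne_zero _).mpr hcK0
    refine ⟨a ^ E / cK ^ q, g ^ E / normOf φ G,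
      div_ne_zero (pow_ne_zero _ ha) (pow_ne_zero _ hcK0), ?_⟩
    rw [map_div₀, map_pow, map_pow, div_pow]
    field_simp
    rw [mul_pow] at h1
    linear_combination (-1 : FN) * h1
  obtain ⟨a₃, g₃, ha₃, hN₃α⟩ := normdata α D.finα D.degα hαK aα gα haα hNα
  obtain ⟨b₃, k₃, hb₃, hN₃β⟩ := normdata β D.finβ D.degβ hβK aβ gβ haβ hNβ
  have hf₃mem : ∀ i, f₃ ∈ O i ∧ f₃⁻¹ ∈ O i := fun i => (pu_unit (O i) (h3 i)).2
  have hναA : normOf α f₃ - 1 ∈ PA.nonunits := by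
    have h1 := D.point_αA (W := PA) (Wa := O 0) (Wb := O 1) le_rfl le_rfl D.αa D.αb hf₃0
      (hf₃mem 0).1 (hf₃mem 0).2 (hf₃mem 1).1 (hf₃mem 1).2 (c₁ := 1) (c₂ := 1) PA.one_mem
      PA.one_mem (by rw [map_one]; exact h3a) (by rw [map_one]; exact h3b)
    rwa [one_pow, mul_one] at h1
  have hναC : normOf α f₃ - 1 ∈ PC.nonunits :=
    D.point_αC (W := PC) (Wc := O 2) le_rfl D.αc hf₃0 (hf₃mem 2).1 (hf₃mem 2).2 (c := 1)
      (by rw [map_one]; exact pu_pow (O 2) h3c q)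
  have hνβA : normOf β f₃ - 1 ∈ PA.nonunits :=
    D.point_βA (W := PA) (Wa := O 0) le_rfl D.βa hf₃0 (hf₃mem 0).1 (hf₃mem 0).2 (c := 1)
      (by rw [map_one]; exact pu_pow (O 0) h3a q)
  have hνβC : normOf β f₃ - 1 ∈ PC.nonunits := by
    have h1 := D.point_βC (W := PC) (Wb := O 1) (Wc := O 2) le_rfl le_rfl D.βb D.βc hf₃0
      (hf₃mem 1).1 (hf₃mem 1).2 (hf₃mem 2).1 (hf₃mem 2).2 (c₁ := 1) (c₂ := 1) PC.one_mem
      PC.one_mem (by rw [map_one]; exact h3b) (by rw [map_one]; exact h3c)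
    rwa [one_pow, mul_one] at h1
  obtain ⟨c₀, wA, wC, g', hc₀, hNα', hgA, hgC, hrA, hrC⟩ := Core.norm_normalize res hres q₀ hker
    hunit hK0 hm D.hA D.hC hWA hWC hναA hναC ha₃ hN₃α
  obtain ⟨c₀', wA', wC', g'', hc₀', hNβ', hgA', hgC', hrA', hrC'⟩ := Core.norm_normalize res
    hres q₀ hker hunit hK0 hm D.hA D.hC hWA hWC hνβA hνβC hb₃ hN₃β
  rw [map_mul, map_pow] at hrA hrC hrA' hrC'
  have hγ0 : ∀ {x y : k}, x ^ m * y = 1 → x ≠ 0 := by
    intro x y h h0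
    rw [h0, zero_pow hm, zero_mul] at h
    exact zero_ne_one h
  exact ⟨j, G, f₃, hG0, hcK0, hfE, hcKF.symm, h3,
    ⟨c₀, wA, wC, g', hc₀, hNα', hgA, hgC, hγ0 hrA, hγ0 hrC⟩,
    ⟨c₀', wA', wC', g'', hc₀', hNβ', hgA', hgC', hγ0 hrA', hγ0 hrC'⟩⟩

/-! ### `KillPointOne` at a supersingular point of the finite chart -/

section KillPoint

variable {κ B' : Type*} [Field κ] [CommRing B']
  {O : Fin 3 → ValuationSubring F}
  {R : Subalgebra W F} [IsFractionRing R F] [IsNoetherianRing R] [IsIntegrallyClosed R]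
  {red : ∀ i, O i →+* κ}
  {hred : ∀ i, ∀ x : O i, red i x = 0 ↔ x ∈ maximalIdeal (O i)}
  {hBO : ∀ i, ∀ b : R, algebraMap R F b ∈ O i}
  {red' : B' →+* κ} {π₀ π₂ : B' →+* R} {Dd : κ → κ} {q₀ : W}
  {x' : B'} {u u₁ v₁ h : R} {Db G : κ} {N e : ℕ}

omit [Algebra K0 FN] [Algebra K0 F] [IsScalarTower W K0 FN] [IsScalarTower W K0 F]
  [Algebra W K0] in
/-- **`Kill.KillPointOne` at the supersingular point over `Vs`** (`Db ∈ 𝔪 (Vs)`), for `f₃ ≡ 1` on
the three components with `hhor` and normalised norms: the factorisation `f₃ = u₀ * h₀ ^ m` from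
`LStart.exists_factor` (the local ring is factorial by `Contract.ufm_pointRing`), the values of
`h₀` on the three branches from `FactorVal.exists_hasVal_of_factor`, and the relation
`a i ^ e = ρ i * c₀` from `TripleRatio` and `Kill.fin3_ratio`, with the point-independent
constants `ρ = Kill.rho3 (q - 1) (γ_A / γ_C) (γ'_A / γ'_C)`. -/
theorem killPointOne_of_tripleRatio
    (res : W →+* k) (hres : Function.Surjective res) (m q : ℕ) (hm : m ≠ 0)
    (α β : FN →+* F)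
    (hαW : ∀ w : W, α (algebraMap W FN w) = algebraMap W F w)
    (hβW : ∀ w : W, β (algebraMap W FN w) = algebraMap W F w)
    (PA PC : ValuationSubring FN) (ϖN : FN) (ϖ d : F)
    (D : NF.Data α β q PA PC (O 0) (O 1) (O 2) ϖN ϖ d)
    (H : Contract O red hred hBO red' π₀ π₂ Dd (algebraMap W R q₀) x' u u₁ v₁ h Db G N e)
    (hell : ∀ Vs : ValuationSubring κ, IsFinPlace red' Vs →
      ∃ y : B', Dd (red' y) ≠ 0 ∧ Dd (red' y) ^ 12 * G ∉ Vs.nonunits)
    (Vs : ValuationSubring κ) (hVs : IsFinPlace red' Vs) (hDb : Db ∈ Vs.nonunits)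
    (hrat : IsRatPoint res (Meet.pt H 1 Vs hVs))
    (htriple : TripleRatio res (q - 1) m α β O (pointRing F (Meet.pt H 1 Vs hVs)).toSubring
      (fun i => compositeSubring (O i) (red i) (hred i) Vs))
    (f₃ : F) (h3 : ∀ i, f₃ - 1 ∈ (O i).nonunits)
    (hhor : HHor (B := R) (algebraMap W R q₀) m f₃)
    (c₀ wA wC : W) (g : FN) (hc₀ : IsUnit c₀)
    (hNα : normOf α f₃ = algebraMap W FN c₀ * g ^ m)
    (hgA : g - algebraMap W FN wA ∈ PA.nonunits) (hgC : g - algebraMap W FN wC ∈ PC.nonunits)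
    (c₀' wA' wC' : W) (g' : FN) (hc₀' : IsUnit c₀')
    (hNβ : normOf β f₃ = algebraMap W FN c₀' * g' ^ m)
    (hgA' : g' - algebraMap W FN wA' ∈ PA.nonunits)
    (hgC' : g' - algebraMap W FN wC' ∈ PC.nonunits)
    (hwA' : res wA' ≠ 0) (hwC' : res wC' ≠ 0) :
    Kill.KillPointOne (κ := fun _ => κ) res O red hred (Meet.pt H 1 Vs hVs) (fun _ => Vs) m
      ((q - 1) * (q - 1 + 2)) f₃ (Kill.rho3 (q - 1) (res wA / res wC) (res wA' / res wC')) := by
  classical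
  have hqQ : algebraMap W R q₀ ∈ Meet.pt H 1 Vs hVs := Meet.q_mem_pt H 1 Vs hVs
  have hUFM : UniqueFactorizationMonoid (pointRing F (Meet.pt H 1 Vs hVs)) :=
    H.ufm_pointRing hell (Meet.pt H 1 Vs hVs) hqQ
  have hf₃0 : f₃ ≠ 0 := (pu_unit (O 0) (h3 0)).1
  obtain ⟨u₀, h₀, hu, hu', hh0, hfuh⟩ := LStart.exists_factor O hBO (Meet.pt H 1 Vs hVs) hUFM
    H.q_ne (fun 𝔮 h𝔮 _ => H.hmin 𝔮 h𝔮) m f₃ hf₃0 (fun i _ => (pu_unit (O i) (h3 i)).2) hhor
  have hall : ∀ i, centre (O i) (hBO i) ≤ Meet.pt H 1 Vs hVs := fun i => by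
    rw [← Meet.pt_eq_pt H Vs hVs hDb i 1]
    exact Meet.centre_le_pt H i Vs hVs
  have hbr : ∀ i, ∃ hA : ∀ a : R, algebraMap R F a ∈
      compositeSubring (O i) (red i) (hred i) Vs,
      pointIdeal (O i) (red i) (hred i) Vs hA = Meet.pt H 1 Vs hVs := fun i =>
    ⟨Meet.hA_of_isFinPlace H i Vs hVs, Meet.pt_eq_pt H Vs hVs hDb i 1⟩
  have hlift : ∀ i, centre (O i) (hBO i) ≤ Meet.pt H 1 Vs hVs → ∀ c ∈ Vs, ∃ a b : R,
      redOn (O i) (red i) (hBO i) b ∉ Vs.nonunits ∧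
      redOn (O i) (red i) (hBO i) a = c * redOn (O i) (red i) (hBO i) b :=
    fun i _ => H.toV3Base.lift i Vs hVs.1 (H.fin i Vs hVs)
  have hval : ∀ i, ∃ c : k, c ≠ 0 ∧
      HasVal res (compositeSubring (O i) (red i) (hred i) Vs) h₀ c := fun i =>
    FactorVal.exists_hasVal_of_factor (κ := fun _ => κ) O hBO (Meet.pt H 1 Vs hVs) red hred
      (fun _ => Vs) res (fun i _ => hbr i) hlift hrat hres m hm f₃ u₀ h₀ hu hu' hfuh i (hall i)
      (h3 i)
  obtain ⟨a, ha0, ha⟩ := hval 0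
  obtain ⟨b, hb0, hb⟩ := hval 1
  obtain ⟨c, hc0, hc⟩ := hval 2
  -- the values of the norm generators on the branches `inf` and `zero`
  have hcomp : ∀ (φ : FN →+* F), (∀ w : W, φ (algebraMap W FN w) = algebraMap W F w) →
      ∀ (P : ValuationSubring FN) (i : Fin 3), (O i).comap φ = P → ∀ (y : FN) (w : W),
      y - algebraMap W FN w ∈ P.nonunits →
      HasVal res (compositeSubring (O i) (red i) (hred i) Vs) (φ y) (res w) := by
    intro φ hφW P i hcomap y w hy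
    refine ⟨w, rfl, ?_⟩
    apply LStart.nonunits_le_nonunits_composite (κ := fun _ => κ) O red hred (fun _ => Vs) i
    rw [← hcomap, mem_nonunits_comap_iff', map_sub, hφW] at hy
    exact hy
  have hg0 : g ≠ 0 := by
    rintro rfl
    rw [zero_pow hm, mul_zero] at hNα
    exact normOf_ne_zero α D.finα hf₃0 hNα
  have hg'0 : g' ≠ 0 := by
    rintro rfl
    rw [zero_pow hm, mul_zero] at hNβ
    exact normOf_ne_zero β D.finβ hf₃0 hNβ
  obtain ⟨r1, r2⟩ := htriple f₃ u₀ h₀ g g' c₀ c₀' a b c (res wA) (res wC) (res wA') (res wC')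
    h3 hu hu' hfuh hh0 hc₀ hg0 hNα hc₀' hg'0 hNβ ha hb hc ha0 hb0 hc0
    (hcomp α hαW PA 0 D.αa g wA hgA) (hcomp α hαW PC 2 D.αc g wC hgC)
    (hcomp β hβW PA 0 D.βa g' wA' hgA') (hcomp β hβW PC 2 D.βc g' wC' hgC')
  refine ⟨hrat, hbr, u₀, h₀, ![a, b, c], c ^ ((q - 1) * (q - 1 + 2)), hu, hu', hfuh,
    Core.forall_fin3 ha hb hc, ?_⟩
  exact Kill.fin3_ratio (q - 1) (div_ne_zero hwA' hwC') r1 r2

end KillPoint

/-! ### The chain, route B -/

section Chain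

variable {κ B' : Type*} [Field κ] [CommRing B']

/-- **THE ABSTRACT CHAIN of CAR-CORE, ROUTE B** (shadow of `Core.chain`).

Inputs, each in the literal shape of its owner:
* `D : NF.Data …` (norm calculus, CAR-25), `hWA`, `hWC`;
* the finite chart `R` with its `Contract` `H` (CAR-31) and (ELL) `hell` (CAR-30);
* `hrat` : the supersingular points are `k`-rational; `htriple` : the literal conclusion of
  `NodeTriple.triple_ratio_pow_of_red` at every supersingular point (CAR-35);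
* `hcusp` : the conclusion of `LInst.hlocal'_of_cusp` / `LInstCuspB.hlocal'_of_cuspBase` for the
  chart at infinity `R'` (CAR-34);
* `hglob` : the chart theorem `Charts.exists_eq_const_mul_pow_of_charts_FNK` (CAR-37 + CAR-33);
* `hhorR`, `hhorR'` : the horizontal hypothesis for `f` on the two charts (`Inst.Hor`).

Output: `f ^ ((q-1)(q+1))² = b * h ^ m` with `b ∈ K0ˣ`. -/
theorem chainB [IsAlgClosed k]
    (res : W →+* k) (hres : Function.Surjective res) (q₀ : W)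
    (hker : ∀ w : W, res w = 0 → q₀ ∣ w)
    (hunit : ∀ w : W, res w ≠ 0 → IsUnit w)
    (hK0 : ∀ a : K0, a ≠ 0 → ∃ (n : ℤ) (w : W), IsUnit w ∧
      a = algebraMap W K0 q₀ ^ n * algebraMap W K0 w)
    (m q : ℕ) (hcop : Nat.Coprime m q) (m' : W) (hmm : (m : W) * m' = 1)
    (α β : FN →+* F) (hαK : ∀ a : K0, α (algebraMap K0 FN a) = algebraMap K0 F a)
    (hβK : ∀ a : K0, β (algebraMap K0 FN a) = algebraMap K0 F a)
    (PA PC : ValuationSubring FN) (O : Fin 3 → ValuationSubring F) (ϖ d : F)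
    (D : NF.Data α β q PA PC (O 0) (O 1) (O 2) (algebraMap W FN q₀) ϖ d)
    (hWA : ∀ w : W, algebraMap W FN w ∈ PA) (hWC : ∀ w : W, algebraMap W FN w ∈ PC)
    -- the finite chart
    (R : Subalgebra W F) [IsFractionRing R F] [IsNoetherianRing R] [IsIntegrallyClosed R]
    {red : ∀ i, O i →+* κ}
    {hred : ∀ i, ∀ x : O i, red i x = 0 ↔ x ∈ maximalIdeal (O i)}
    {hBO : ∀ i, ∀ b : R, algebraMap R F b ∈ O i}
    {red' : B' →+* κ} {π₀ π₂ : B' →+* R} {Dd : κ → κ}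
    {x' : B'} {u u₁ v₁ h : R} {Db G : κ} {N e : ℕ}
    (H : Contract O red hred hBO red' π₀ π₂ Dd (algebraMap W R q₀) x' u u₁ v₁ h Db G N e)
    (hell : ∀ Vs : ValuationSubring κ, IsFinPlace red' Vs →
      ∃ y : B', Dd (red' y) ≠ 0 ∧ Dd (red' y) ^ 12 * G ∉ Vs.nonunits)
    (hrat : ∀ (Vs : ValuationSubring κ) (hVs : IsFinPlace red' Vs), Db ∈ Vs.nonunits →
      IsRatPoint res (Meet.pt H 1 Vs hVs))
    (htriple : ∀ (Vs : ValuationSubring κ) (hVs : IsFinPlace red' Vs), Db ∈ Vs.nonunits →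
      TripleRatio res (q - 1) m α β O (pointRing F (Meet.pt H 1 Vs hVs)).toSubring
        (fun i => compositeSubring (O i) (red i) (hred i) Vs))
    -- the chart at infinity
    (R' : Subalgebra W F) (cusp : Ideal R' → Prop)
    (hcusp : ∀ f : F, (∀ i, f - 1 ∈ (O i).nonunits) →
      HHor (B := R') (algebraMap W R' q₀) m f →
      ∀ Q : Ideal R', Q.IsMaximal → algebraMap W R' q₀ ∈ Q → cusp Q →
        ∃ h : R', h ∉ Q ∧ ∃ s : F, s ^ m * f ∈ R' ∧ ∀ i, s - h ∈ (O i).nonunits)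
    -- the chart theorem
    (hglob : ∀ f : F, (∀ i, f - 1 ∈ (O i).nonunits) →
      (∀ Q : Ideal R, Q.IsMaximal → algebraMap W R q₀ ∈ Q →
        ∃ h : R, h ∉ Q ∧ ∃ s : F, s ^ m * f ∈ R ∧ ∀ i, s - h ∈ (O i).nonunits) →
      (∀ Q : Ideal R', Q.IsMaximal → algebraMap W R' q₀ ∈ Q → cusp Q →
        ∃ h : R', h ∉ Q ∧ ∃ s : F, s ^ m * f ∈ R' ∧ ∀ i, s - h ∈ (O i).nonunits) →
      ∃ (c : W) (τ : F), τ ≠ 0 ∧ algebraMap W F c ≠ 0 ∧ f = algebraMap W F c * τ ^ m)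
    (f : F) (hf0 : f ≠ 0)
    (hhorR : HHor (B := R) (algebraMap W R q₀) m f)
    (hhorR' : HHor (B := R') (algebraMap W R' q₀) m f)
    (hNα : ∃ (a : K0) (g : FN), a ≠ 0 ∧ normOf α f = algebraMap K0 FN a * g ^ m)
    (hNβ : ∃ (a : K0) (g : FN), a ≠ 0 ∧ normOf β f = algebraMap K0 FN a * g ^ m) :
    ∃ (b : K0) (h : F), b ≠ 0 ∧ h ≠ 0 ∧
      f ^ ((q - 1) * (q + 1) * ((q - 1) * (q + 1))) = algebraMap K0 F b * h ^ m := by
  classical
  have hq1 := D.hq.one_lt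
  have hm : m ≠ 0 := by
    rintro rfl
    rw [Nat.coprime_zero_left] at hcop
    exact hq1.ne' hcop
  have hαW : ∀ w : W, α (algebraMap W FN w) = algebraMap W F w := fun w => by
    rw [IsScalarTower.algebraMap_apply W K0 FN, hαK, ← IsScalarTower.algebraMap_apply]
  have hβW : ∀ w : W, β (algebraMap W FN w) = algebraMap W F w := fun w => by
    rw [IsScalarTower.algebraMap_apply W K0 FN, hβK, ← IsScalarTower.algebraMap_apply]
  have hϖ : ϖ = algebraMap W F q₀ := by rw [← D.αϖ, hαW]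
  have hϖ0 : ϖ ≠ 0 := D.ha.ne_zero
  have hWO : ∀ i, ∀ w : W, algebraMap W F w ∈ O i := fun i w => by
    have h1 := hBO i (algebraMap W R w)
    rwa [← IsScalarTower.algebraMap_apply] at h1
  have hϖO : ∀ i, ϖ ∈ (O i).nonunits := by
    refine Core.forall_fin3 D.ha.mem_nonunits ?_ D.hc.mem_nonunits
    rw [← D.hb.ord_pos_iff hϖ0, D.ordb]
    have h1 : (1 : ℤ) < q := by exact_mod_cast hq1
    omega
  have hkerO : ∀ i, ∀ w : W, res w = 0 → algebraMap W F w ∈ (O i).nonunits := by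
    intro i w hw
    obtain ⟨w', rfl⟩ := hker w hw
    rw [map_mul, ← hϖ, mul_comm]
    exact mul_mem_nonunits (O i) (hWO i w') (hϖO i)
  have hO : ∀ i, IsOver res (O i) := fun i =>
    { mem := hWO i
      nonunits_iff := fun w => ⟨fun hw => by
        by_contra hne
        obtain ⟨z, hz⟩ := (hunit w hne).exists_right_inv
        exact Core.notMem_nonunits_of_mul_eq_one (O i) (hWO i z)
          (by rw [← map_mul, hz, map_one]) hw, hkerO i w⟩ }
  have happrox : Kill.JointApprox O := by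
    intro x hx
    obtain ⟨H₀, hH0, h0, h1, h2⟩ := NF.exists_approx3 D.ha D.hb D.hc D.ne_ab D.ne_bc D.ne_ac
      (x 0) (x 1) (x 2) (hx 0) (hx 1) (hx 2)
    exact ⟨H₀, hH0, Core.forall_fin3 h0 h1 h2⟩
  -- Step 1: the front end
  obtain ⟨j, G₀, f₃, hG0, hcK0, hfE, hcKF, h3, ⟨c₀, wA, wC, g, hc₀, hN₃α, hgA, hgC, hwA, hwC⟩,
    ⟨c₀', wA', wC', g', hc₀', hN₃β, hgA', hgC', hwA', hwC'⟩⟩ :=
    frontEnd res hres q₀ hker hunit hK0 m q hcop α β hαK hβK PA PC O ϖ d D hWA hWC f hf0 hNα hNβ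
  have hf₃0 : f₃ ≠ 0 := (pu_unit (O 0) (h3 0)).1
  -- the horizontal hypothesis for `f₃`
  have hRϖ : algebraMap R F (algebraMap W R q₀) = ϖ := by
    rw [hϖ, ← IsScalarTower.algebraMap_apply]
  have hR'ϖ : algebraMap R' F (algebraMap W R' q₀) = ϖ := by
    rw [hϖ, ← IsScalarTower.algebraMap_apply]
  have hhor₃ : HHor (B := R) (algebraMap W R q₀) m f₃ := hhorR.of_normalForm hRϖ hϖ0 hG0 hfE
  have hhor₃' : HHor (B := R') (algebraMap W R' q₀) m f₃ :=
    hhorR'.of_normalForm hR'ϖ hϖ0 hG0 hfE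
  -- Step 2: the killing function
  set e₂ := (q - 1) * (q - 1 + 2) with he₂
  set ρ := Kill.rho3 (q - 1) (res wA / res wC) (res wA' / res wC') with hρ
  have hρ0 : ∀ i, ρ i ≠ 0 :=
    Kill.rho3_ne_zero (q - 1) (div_ne_zero hwA hwC) (div_ne_zero hwA' hwC')
  obtain ⟨φ, hφ0, -, h4, hkill⟩ := Kill.exists_kill_one (κ := fun _ => κ) res O hBO red hred hO
    hres happrox m e₂ hm f₃ hf₃0 h3 ρ hρ0 2 (Kill.rho3_two _ _ _)
  have hhor₄ : HHor (B := R) (algebraMap W R q₀) m (f₃ ^ e₂ * φ ^ m) := hhor₃.of_kill hφ0 rfl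
  have hhor₄' : HHor (B := R') (algebraMap W R' q₀) m (f₃ ^ e₂ * φ ^ m) :=
    hhor₃'.of_kill hφ0 rfl
  -- Step 3: the gluing datum at the supersingular points
  have hglue : ∀ (Vs : ValuationSubring κ) (hVs : IsFinPlace red' Vs), Db ∈ Vs.nonunits →
      ∀ u₀ h₀ : F, u₀ ∈ pointRing F (Meet.pt H 1 Vs hVs) →
        u₀⁻¹ ∈ pointRing F (Meet.pt H 1 Vs hVs) → f₃ ^ e₂ * φ ^ m = u₀ * h₀ ^ m →
        ∃ c : F, c ∈ pointRing F (Meet.pt H 1 Vs hVs) ∧
          ∀ i, h₀⁻¹ - c ∈ (compositeSubring (O i) (red i) (hred i) Vs).nonunits := by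
    intro Vs hVs hDb u₀ h₀ hu₀ hu₀' hfac
    have hKP := killPointOne_of_tripleRatio res hres m q hm α β hαW hβW PA PC
      (algebraMap W FN q₀) ϖ d D H hell Vs hVs hDb (hrat Vs hVs hDb) (htriple Vs hVs hDb) f₃ h3
      hhor₃ c₀ wA wC g hc₀ hN₃α hgA hgC c₀' wA' wC' g' hc₀' hN₃β hgA' hgC' hwA' hwC'
    obtain ⟨c, hc, hcg⟩ := hkill (Meet.pt H 1 Vs hVs) (fun _ => Vs) hKP u₀ h₀ hu₀ hu₀' hfac
    refine ⟨c, hc, fun i => hcg i ?_⟩
    rw [← Meet.pt_eq_pt H Vs hVs hDb i 1]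
    exact Meet.centre_le_pt H i Vs hVs
  -- Step 4: the local pairs
  have hlocal := LInst.hlocal_of_contract q₀ m m' hmm R H hell (f₃ ^ e₂ * φ ^ m) h4 hhor₄ hglue
  have hlocal' := hcusp (f₃ ^ e₂ * φ ^ m) h4 hhor₄'
  -- Step 5: the chart theorem and the bookkeeping
  obtain ⟨c, τ, hτ, hc, hf₄⟩ := hglob (f₃ ^ e₂ * φ ^ m) h4 hlocal hlocal'
  have hfin := Glob.pow_eq_const_mul_pow f f₃ (f₃ ^ e₂ * φ ^ m) G₀ φ τ (ϖ ^ j)
    (algebraMap W F c) ((q - 1) * (q + 1)) e₂ m hφ0 hfE rfl hf₄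
  have hee : e₂ = (q - 1) * (q + 1) := by
    rw [he₂]
    congr 1
    omega
  rw [hee] at hfin
  refine ⟨(algebraMap W K0 q₀ ^ j) ^ ((q - 1) * (q + 1)) * algebraMap W K0 c,
    G₀ ^ ((q - 1) * (q + 1)) * τ * φ⁻¹, ?_, ?_, ?_⟩
  · refine mul_ne_zero (pow_ne_zero _ hcK0) ?_
    intro h0
    apply hc
    rw [IsScalarTower.algebraMap_apply W K0 F, h0, map_zero]
  · exact mul_ne_zero (mul_ne_zero (pow_ne_zero _ hG0) hτ) (inv_ne_zero hφ0)
  · rw [hfin, map_mul, map_pow, ← hcKF, ← IsScalarTower.algebraMap_apply]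

end Chain

end Abstract

end Fermat.Agent.CAR.WireB
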