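/-
CAR, SHADOW of row 400 (helper73), ROUTE B: **the closing statement at the literal objects.**

The package `WireB.ContractPkgB` at the objects on main:

* `red   := Core.HptRpK0B.red3 hq A hA hζ M' hqM w`  (`redInf3`, `MidKappa.redMidK`, `redZero3`);
* `red'  := LiftInst.redBp (BaseFn.Data.ofJ (W0 A) (resW0 A) M') _ _`  (`redF ∘ incl`);
* `π₀ π₂ := Inst.Pi1Fin.pi0 / pi2`  (restrictions of `π_0^*`, `π_2^*`);
* `x'    := WireB.xJB A M'`  (`J` as an element of the canonical `B'`).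

`contractPkgB_of_contract` : the seven identification lines of `ContractPkgB` are `rfl` at these
objects, so the package is the record `Local.Inst.Contract` alone;
`coreB_of_contract_fin` : **`Final.Core 12 11` from the record `Contract` at the literal objects**
(written with `D = d/dJ̄`, `G = J̄⁸ (J̄ - 1728)⁶`, `q₀ = algebraMap W0 Bfin q`; the kernel
statement `hred`, the inclusion `hBO`, the units `u u₁ v₁ h`, `Db`, `N`, `e` are free).
-/
import Mathlib
import Fermat.Agent.CAR.WireBFinal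
import Fermat.Agent.CAR.Core.HptRpK0B
import Fermat.Agent.CAR.Inst.Pi1Fin
import Fermat.Agent.CAR.Local.Inst.LiftInstClosed

set_option autoImplicit false
set_option linter.unusedSectionVars false
set_option linter.style.haveILetI false
set_option synthInstance.maxHeartbeats 400000
set_option maxHeartbeats 1000000

noncomputable section

namespace Fermat.Agent.CAR.WireB

open IsLocalRing ModularCurve Fermat.Agent.ESJ.Jac Fermat.Agent.CAR.Formal
  Fermat.Agent.CAR.Local Fermat.Agent.CAR.Local.Inst Fermat.Agent.CAR.Glob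
  Fermat.Agent.CAR.Glob.Charts Fermat.Agent.CAR.K0 Fermat.Agent.CAR.V3
  Fermat.Agent.CAR.V3.MidRing Fermat.Agent.CAR.V3.MidRestrict Fermat.Agent.BAD.TwoVal
  Fermat.Agent.Lib.Red Fermat.Agent.S28 Fermat.Agent.ESJ.Cong.LevelGen

local notation "Qb" => AlgebraicClosure ℚ

/-- `J` as an element of the canonical level-`M'` ring `B'`. -/
def xJB (A : ValuationSubring Qb) (M' : ℕ) [NeZero M'] : BpB A M' :=
  ⟨jLevel ↥(K0 A) M', Fermat.Agent.CAR.Inst.BPrimeWeb.isIntegral_AX_jLevel (W0 A) (resW0 A) M'⟩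

theorem coe_xJB (A : ValuationSubring Qb) (M' : ℕ) [NeZero M'] :
    ((xJB A M' : BpB A M') : ↥(laurentBaseChange ↥(K0 A) (modularFunctionFieldFull M'))) =
      jLevel ↥(K0 A) M' := rfl

section Close

variable {q : ℕ} (hq : q.Prime) (A : ValuationSubring Qb) (hA : A.LiesOverPrime q)
  {ζ : Qb} (hζ : IsPrimitiveRoot ζ q) (M' : ℕ) [NeZero M'] [NeZero q] (hqM : ¬ q ∣ M')
  [Algebra ↥(W0 A) (FNK ↥(K0 A) (M' * q * q))]
  [IsScalarTower ↥(W0 A) ↥(K0 A) (FNK ↥(K0 A) (M' * q * q))]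
  [IsAlgClosed (IsLocalRing.ResidueField A)]
  {w : ALAut (inertiaField A) (M' * q) q}

/-- **`ContractPkgB` at the literal objects is the record `Contract` alone.** -/
theorem contractPkgB_of_contract
    {hred : ∀ i, ∀ y : Core.O3 hq A hA hζ M' hqM w i,
      Core.HptRpK0B.red3 hq A hA hζ M' hqM w i y = 0 ↔
        y ∈ maximalIdeal (Core.O3 hq A hA hζ M' hqM w i)}
    {hBO : ∀ i, ∀ b : chart ↥(W0 A) (Core.xB A M' q),
      algebraMap (chart ↥(W0 A) (Core.xB A M' q)) (FNK ↥(K0 A) (M' * q * q)) b ∈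
        Core.O3 hq A hA hζ M' hqM w i}
    {u₀ u₁ v₁ h₀ : chart ↥(W0 A) (Core.xB A M' q)}
    {Db : ↥(modularFunctionFieldFullC (IsLocalRing.ResidueField A) M')} {N e : ℕ}
    (H : Contract (Core.O3 hq A hA hζ M' hqM w) (Core.HptRpK0B.red3 hq A hA hζ M' hqM w) hred hBO
      (LiftInst.redBp (BaseFn.Data.ofJ (W0 A) (resW0 A) M') (resW0_eq_zero_of_not_isUnit A)
        (badSetup_W0 hq hA M' hqM).hMk)
      (Fermat.Agent.CAR.Inst.Pi1Fin.pi0 ↥(K0 A) M' q (W0 A) (resW0 A) hq)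
      (Fermat.Agent.CAR.Inst.Pi1Fin.pi2 ↥(K0 A) M' q (W0 A) (resW0 A) hq)
      (Deriv.dJ (IsLocalRing.ResidueField A) M')
      (algebraMap (W0 A) (chart ↥(W0 A) (Core.xB A M' q)) ((q : ℕ) : W0 A)) (xJB A M')
      u₀ u₁ v₁ h₀ Db (Deriv.GJ (IsLocalRing.ResidueField A) M') N e) :
    ContractPkgB hq A hA hζ M' hqM w :=
  ⟨Core.HptRpK0B.red3 hq A hA hζ M' hqM w, hred, hBO, _, _, _, _, u₀, u₁, v₁, h₀, Db, N, e,
    fun _ => rfl, fun _ => rfl, fun _ => rfl, fun _ => rfl, fun _ => rfl, fun _ => rfl, rfl, H⟩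

end Close

/-- **`Final.Core 12 11`, ROUTE B, from the record `Contract` of the finite chart at the literal
objects** (for every choice of `ζ`, `w` and of the `W0`-algebra structure on `K0 · F_{M'q²}`). -/
theorem coreB_of_contract_fin
    (hfin : ∀ {q : ℕ} (hq : q.Prime) (A : ValuationSubring Qb) (hA : A.LiesOverPrime q)
      {ζ : Qb} (hζ : IsPrimitiveRoot ζ q) (M' : ℕ) [NeZero M'] [NeZero q] (hqM : ¬ q ∣ M')
      (_ : ∃ r : ℕ, r.Prime ∧ r ≡ 11 [MOD 12] ∧ r ∣ M')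
      (_ : q = 2 → 3 ∣ M') (_ : q = 3 → 2 ∣ M')
      [Algebra ↥(W0 A) (FNK ↥(K0 A) (M' * q * q))]
      [IsScalarTower ↥(W0 A) ↥(K0 A) (FNK ↥(K0 A) (M' * q * q))]
      [IsAlgClosed (IsLocalRing.ResidueField A)]
      {w : ALAut (inertiaField A) (M' * q) q} (_ : IsAL3 M' q w),
      ∃ (hred : ∀ i, ∀ y : Core.O3 hq A hA hζ M' hqM w i,
          Core.HptRpK0B.red3 hq A hA hζ M' hqM w i y = 0 ↔
            y ∈ maximalIdeal (Core.O3 hq A hA hζ M' hqM w i))
        (hBO : ∀ i, ∀ b : chart ↥(W0 A) (Core.xB A M' q),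
          algebraMap (chart ↥(W0 A) (Core.xB A M' q)) (FNK ↥(K0 A) (M' * q * q)) b ∈
            Core.O3 hq A hA hζ M' hqM w i)
        (u₀ u₁ v₁ h₀ : chart ↥(W0 A) (Core.xB A M' q))
        (Db : ↥(modularFunctionFieldFullC (IsLocalRing.ResidueField A) M')) (N e : ℕ),
        Contract (Core.O3 hq A hA hζ M' hqM w) (Core.HptRpK0B.red3 hq A hA hζ M' hqM w) hred hBO
          (LiftInst.redBp (BaseFn.Data.ofJ (W0 A) (resW0 A) M') (resW0_eq_zero_of_not_isUnit A)
            (badSetup_W0 hq hA M' hqM).hMk)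
          (Fermat.Agent.CAR.Inst.Pi1Fin.pi0 ↥(K0 A) M' q (W0 A) (resW0 A) hq)
          (Fermat.Agent.CAR.Inst.Pi1Fin.pi2 ↥(K0 A) M' q (W0 A) (resW0 A) hq)
          (Deriv.dJ (IsLocalRing.ResidueField A) M')
          (algebraMap (W0 A) (chart ↥(W0 A) (Core.xB A M' q)) ((q : ℕ) : W0 A)) (xJB A M')
          u₀ u₁ v₁ h₀ Db (Deriv.GJ (IsLocalRing.ResidueField A) M') N e) :
    Fermat.Agent.CAR.Final.Core 12 11 :=
  coreB_of_contractPkg (fun hq A hA _ hζ M' _ _ hqM hr h2 h3 _ _ _ _ hw => by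
    obtain ⟨hred, hBO, u₀, u₁, v₁, h₀, Db, N, e, H⟩ := hfin hq A hA hζ M' hqM hr h2 h3 hw
    exact contractPkgB_of_contract hq A hA hζ M' hqM H)

end Fermat.Agent.CAR.WireB

end
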