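/-
CAR / (Lf-5), independent route: **K0-rational lifts** (T3 over `(K0, W)`).

`A` a valuation subring of `ℚ̄` over `q`, `K0 = ℚ̄^I` its inertia field.  Every Gauss-integral
element `y` of `ℚ̄·F_N` has a `K0`-rational companion
`y₀ = Σ_i c_i · τ_i(y)` (`c_i ∈ ℚ̄`, `τ_i ∈ I` acting on coefficients) which is again Gauss-integral
and has the SAME reduction.  Consequently the lifts provided by (T3)/(T3') can be chosen
`K0`-rational.

Route: (FC) the coefficients of `y` lie in a finite extension `K1/K0`; (R) the residue-compatible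
trace functional `Tr_{K1/K0}(c ·)` of `CAR/K0/TraceRes.lean`; (N) a `K0`-rational denominator for
`y` (the norm of a `K1`-rational one); then `y₀ := Tr(c·y)` coefficientwise.
-/
import Mathlib
import Fermat.Agent.CAR.K0.TraceRes
import Fermat.Agent.CAR.Lift
import Fermat.Agent.ESJ.Dict.Bc

set_option autoImplicit false
set_option linter.style.haveILetI false
set_option linter.unusedSectionVars false

noncomputable section

namespace Fermat.Agent.CAR.LiftK0Alt

open HahnSeries ModularCurve AlgebraicCurve Fermat.Agent.Lib.Red Fermat.Agent.CAR.K0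
  Fermat.Agent.ESJ.Dict.Bc

/-! ### (FC) finite fields of definition -/

section FiniteCoeff

variable {K L : Type*} [Field K] [Field L] [Algebra ℚ L] [Algebra K L]

/-- The range of `coeffMap` grows with the coefficient field. -/
theorem fieldRange_coeffMap_mono {K1 K2 : IntermediateField K L} (h : K1 ≤ K2) :
    (coeffMap (algebraMap ↥K1 L)).fieldRange ≤ (coeffMap (algebraMap ↥K2 L)).fieldRange := by
  rintro _ ⟨z, rfl⟩
  refine ⟨coeffMap (IntermediateField.inclusion h : ↥K1 →+* ↥K2) z, ?_⟩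
  rw [coeffMap_coeffMap]
  exact coeffMap_congr (RingHom.ext fun _ => rfl) z

variable [Algebra.IsAlgebraic K L]

/-- **(FC)** every element of `L·F₀` has all its coefficients in a finite extension of `K`. -/
theorem exists_finite_coeffMap (F₀ : IntermediateField ℚ (LaurentSeries ℚ)) {y : LaurentSeries L}
    (hy : y ∈ laurentBaseChange L F₀) :
    ∃ K1 : IntermediateField K L, FiniteDimensional K ↥K1 ∧
      y ∈ (coeffMap (algebraMap ↥K1 L)).fieldRange := by
  haveI : CharZero L := algebraRat.charZero L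
  rw [mem_laurentBaseChange_iff] at hy
  induction hy using Subfield.closure_induction with
  | mem x hx =>
      rcases hx with ⟨a, rfl⟩ | ⟨z, -, rfl⟩
      · refine ⟨IntermediateField.adjoin K {a},
          IntermediateField.adjoin.finiteDimensional (Algebra.IsIntegral.isIntegral a), ?_⟩
        refine ⟨algebraMap _ _ (⟨a, IntermediateField.mem_adjoin_simple_self K a⟩ :
          ↥(IntermediateField.adjoin K {a})), ?_⟩
        rw [coeffMap_algebraMap_of_ringHom]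
        rfl
      · refine ⟨⊥, inferInstance, ?_⟩
        haveI : CharZero ↥(⊥ : IntermediateField K L) :=
          (algebraMap ↥(⊥ : IntermediateField K L) L).charZero
        refine ⟨coeffMap (Rat.castHom ↥(⊥ : IntermediateField K L)) z, ?_⟩
        rw [coeffMap_coeffMap]
        exact coeffMap_congr (RingHom.ext_rat _ _) z
  | one => exact ⟨⊥, inferInstance, one_mem _⟩
  | add x y _ _ hx hy =>
      obtain ⟨K1, h1, hx⟩ := hx
      obtain ⟨K2, h2, hy⟩ := hy
      exact ⟨K1 ⊔ K2, IntermediateField.finiteDimensional_sup K1 K2,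
        add_mem (fieldRange_coeffMap_mono le_sup_left hx)
          (fieldRange_coeffMap_mono le_sup_right hy)⟩
  | neg x _ hx =>
      obtain ⟨K1, h1, hx⟩ := hx
      exact ⟨K1, h1, neg_mem hx⟩
  | inv x _ hx =>
      obtain ⟨K1, h1, hx⟩ := hx
      exact ⟨K1, h1, inv_mem hx⟩
  | mul x y _ _ hx hy =>
      obtain ⟨K1, h1, hx⟩ := hx
      obtain ⟨K2, h2, hy⟩ := hy
      exact ⟨K1 ⊔ K2, IntermediateField.finiteDimensional_sup K1 K2,
        mul_mem (fieldRange_coeffMap_mono le_sup_left hx)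
          (fieldRange_coeffMap_mono le_sup_right hy)⟩

end FiniteCoeff

/-! ### Embeddings of a finite extension of the inertia field -/

section Emb

local notation "Qb" => AlgebraicClosure ℚ
local notation "GQ" => (AlgebraicClosure ℚ ≃ₐ[ℚ] AlgebraicClosure ℚ)

variable (A : ValuationSubring Qb) {k : Type} [Field k] (π : A →+* k)
  (K1 : IntermediateField ↥(inertiaField A) Qb)

/-- An element of `A` whose image lies in the non-units is not a unit. -/
theorem not_isUnit_of_mem_nonunits {x : A} (h : (x : Qb) ∈ A.nonunits) : ¬ IsUnit x := by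
  intro hu
  rw [ValuationSubring.mem_nonunits_iff] at h
  rw [A.valuation_eq_one_iff] at hu
  rw [hu] at h
  exact lt_irrefl _ h

/-- Every `K0`-embedding of `K1` maps `A ∩ K1` into `A`. -/
theorem emb_mem (σ : ↥K1 →ₐ[↥(inertiaField A)] Qb) {a : ↥K1} (ha : (a : Qb) ∈ A) : σ a ∈ A := by
  obtain ⟨τ, hτ, h⟩ := exists_mem_inertia_of_algHom A K1 σ
  have e : σ a = τ (a : Qb) := (h a).symm
  rw [e]
  have h2 : τ ∈ A.decompositionSubgroup ℚ :=
    ((Fermat.Agent.PT.Levels.mem_inertiaSubgroupIn_iff A τ).mp hτ).1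
  exact (Fermat.Agent.PT.G.apply_mem_iff_of_mem_decomp h2 _).mpr ha

/-- Every `K0`-embedding of `K1` is the identity modulo the maximal ideal of `A`. -/
theorem emb_sub_mem_nonunits (σ : ↥K1 →ₐ[↥(inertiaField A)] Qb) {a : ↥K1}
    (ha : (a : Qb) ∈ A) : σ a - (a : Qb) ∈ A.nonunits := by
  obtain ⟨τ, hτ, h⟩ := exists_mem_inertia_of_algHom A K1 σ
  have e : σ a = τ (a : Qb) := (h a).symm
  rw [e]
  exact ((Fermat.Agent.PT.Levels.mem_inertiaSubgroupIn_iff A τ).mp hτ).2 _ ha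

/-- A `K0`-embedding of `K1`, restricted to the valuation rings. -/
def embA (σ : ↥K1 →ₐ[↥(inertiaField A)] Qb) : ↥(A.comap (algebraMap ↥K1 Qb)) →+* ↥A :=
  ((σ : ↥K1 →+* Qb).comp (A.comap (algebraMap ↥K1 Qb)).subtype).codRestrict A
    (fun a => emb_mem A K1 σ a.2)

theorem coe_embA (σ : ↥K1 →ₐ[↥(inertiaField A)] Qb) (a : ↥(A.comap (algebraMap ↥K1 Qb))) :
    ((embA A K1 σ a : A) : Qb) = σ (a : ↥K1) := rfl

variable {A}

theorem pi_embA (hπ : ∀ a : A, ¬ IsUnit a → π a = 0) (σ : ↥K1 →ₐ[↥(inertiaField A)] Qb) :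
    π.comp (embA A K1 σ) = π.comp (embA A K1 K1.val) := by
  ext a
  have h : ((embA A K1 σ a - embA A K1 K1.val a : A) : Qb) ∈ A.nonunits :=
    emb_sub_mem_nonunits A K1 σ a.2
  have h0 := hπ _ (not_isUnit_of_mem_nonunits A h)
  rw [map_sub, sub_eq_zero] at h0
  exact h0

variable (A)

theorem coeffMap_incl (σ : ↥K1 →ₐ[↥(inertiaField A)] Qb)
    (g : LaurentSeries ↥(A.comap (algebraMap ↥K1 Qb))) :
    coeffMap (σ : ↥K1 →+* Qb) (incl (A.comap (algebraMap ↥K1 Qb)) g)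
      = incl A (coeffMap (embA A K1 σ) g) := by
  unfold incl
  rw [coeffMap_coeffMap, coeffMap_coeffMap]
  exact coeffMap_congr (RingHom.ext fun _ => rfl) g

variable {A}

theorem rbar_coeffMap_embA (hπ : ∀ a : A, ¬ IsUnit a → π a = 0)
    (σ : ↥K1 →ₐ[↥(inertiaField A)] Qb) (g : LaurentSeries ↥(A.comap (algebraMap ↥K1 Qb))) :
    rbar A π (coeffMap (embA A K1 σ) g)
      = rbar (A.comap (algebraMap ↥K1 Qb)) (π.comp (embA A K1 K1.val)) g := by
  unfold rbar
  rw [coeffMap_coeffMap]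
  exact coeffMap_congr (pi_embA π K1 hπ σ) g

theorem coeffMap_val (z : LaurentSeries ↥K1) :
    coeffMap ((K1.val : ↥K1 →ₐ[↥(inertiaField A)] Qb) : ↥K1 →+* Qb) z
      = coeffMap (algebraMap ↥K1 Qb) z :=
  coeffMap_congr (RingHom.ext fun _ => rfl) z

/-- **(N), first half**: an element of `K1·F_N` which is Gauss-integral over `A` is
Gauss-integral over `A ∩ K1`. -/
theorem mem_gaussRing_K1 (hπ : ∀ a : A, ¬ IsUnit a → π a = 0) {N : ℕ} [NeZero N]
    (hNk : (N : k) ≠ 0) (y1 : LaurentSeries ↥K1)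
    (hy1 : y1 ∈ laurentBaseChange ↥K1 (modularFunctionFieldFull N))
    (hyG : coeffMap (algebraMap ↥K1 Qb) y1 ∈ gaussRing A π) :
    y1 ∈ gaussRing (A.comap (algebraMap ↥K1 Qb)) (π.comp (embA A K1 K1.val)) := by
  rcases mem_or_inv_mem_gaussRing' (A.comap (algebraMap ↥K1 Qb)) (π.comp (embA A K1 K1.val)) N
    hNk hy1 with h | h
  · exact h
  · rcases eq_or_ne y1 0 with rfl | hy0
    · exact Subring.zero_mem _
    obtain ⟨s1, P1, hs1, h1⟩ := (mem_gaussRing_iff _ _ _).mp h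
    by_cases hP : rbar (A.comap (algebraMap ↥K1 Qb)) (π.comp (embA A K1 K1.val)) P1 = 0
    · exfalso
      have hyG' : coeffMap ((K1.val : ↥K1 →ₐ[↥(inertiaField A)] Qb) : ↥K1 →+* Qb) y1
          ∈ gaussRing A π := by
        rw [coeffMap_val]
        exact hyG
      have e : incl A (coeffMap (embA A K1 K1.val) s1)
          * (coeffMap ((K1.val : ↥K1 →ₐ[↥(inertiaField A)] Qb) : ↥K1 →+* Qb) y1)⁻¹
          = incl A (coeffMap (embA A K1 K1.val) P1) := by
        rw [← coeffMap_incl, ← coeffMap_incl, ← h1, map_mul, map_inv₀]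
      have hs : rbar A π (coeffMap (embA A K1 K1.val) s1) ≠ 0 := by
        rw [rbar_coeffMap_embA π K1 hπ]
        exact hs1
      have hinv : (coeffMap ((K1.val : ↥K1 →ₐ[↥(inertiaField A)] Qb) : ↥K1 →+* Qb) y1)⁻¹
          ∈ gaussRing A π := (mem_gaussRing_iff A π _).mpr ⟨_, _, hs, e⟩
      have hred : red A π ⟨_, hinv⟩ = 0 := by
        rw [red_eq A π ⟨_, hinv⟩ hs e, rbar_coeffMap_embA π K1 hπ, hP, zero_div]
      have hy0' : coeffMap ((K1.val : ↥K1 →ₐ[↥(inertiaField A)] Qb) : ↥K1 →+* Qb) y1 ≠ 0 :=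
        (map_ne_zero _).mpr hy0
      have h2 : (⟨_, hyG'⟩ : gaussRing A π) * ⟨_, hinv⟩ = 1 :=
        Subtype.ext (mul_inv_cancel₀ hy0')
      have h3 := congrArg (red A π) h2
      rw [map_mul, hred, mul_zero, map_one] at h3
      exact zero_ne_one h3
    · refine (mem_gaussRing_iff _ _ _).mpr ⟨P1, s1, hP, ?_⟩
      rw [← h1, mul_assoc, inv_mul_cancel₀ hy0, mul_one]

/-- Composition with a `K0`-automorphism of `ℚ̄` permutes the `K0`-embeddings of `K1`. -/
def embEquiv (t : Qb ≃ₐ[↥(inertiaField A)] Qb) :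
    (↥K1 →ₐ[↥(inertiaField A)] Qb) ≃ (↥K1 →ₐ[↥(inertiaField A)] Qb) where
  toFun σ := (t : Qb →ₐ[↥(inertiaField A)] Qb).comp σ
  invFun σ := (t.symm : Qb →ₐ[↥(inertiaField A)] Qb).comp σ
  left_inv σ := by
    ext x
    simp
  right_inv σ := by
    ext x
    simp

variable [FiniteDimensional ↥(inertiaField A) ↥K1]

/-- The coefficients of the trace combination. -/
theorem coeff_trace_sum (c : ↥K1) (z : LaurentSeries ↥K1) (n : ℤ) :
    (∑ σ : ↥K1 →ₐ[↥(inertiaField A)] Qb,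
        HahnSeries.C (σ c) * coeffMap (σ : ↥K1 →+* Qb) z).coeff n
      = algebraMap ↥(inertiaField A) Qb
          (Algebra.trace ↥(inertiaField A) ↥K1 (c * z.coeff n)) := by
  rw [trace_eq_sum_embeddings Qb, HahnSeries.coeff_sum]
  refine Finset.sum_congr rfl fun σ _ => ?_
  rw [HahnSeries.C_mul_eq_smul, HahnSeries.coeff_smul, smul_eq_mul, coeffMap_coeff, map_mul]
  rfl

/-- A product of conjugates over all `K0`-embeddings has its coefficients in `K0`. -/
theorem coeff_prod_mem (S1 : LaurentSeries ↥K1) (n : ℤ) :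
    (∏ σ : ↥K1 →ₐ[↥(inertiaField A)] Qb, coeffMap (σ : ↥K1 →+* Qb) S1).coeff n
      ∈ inertiaField A := by
  rw [mem_inertiaField_iff]
  intro τ hτ
  let t : Qb ≃ₐ[↥(inertiaField A)] Qb := (galEquiv A).symm ⟨τ, hτ⟩
  have ht : ∀ x : Qb, t x = τ x := by
    intro x
    have h2 : galEquiv A t = ⟨τ, hτ⟩ := (galEquiv A).apply_symm_apply ⟨τ, hτ⟩
    have h1 := galEquiv_apply A t x
    rw [h2] at h1
    exact h1.symm
  have key : coeffMap (τ : Qb →+* Qb)
      (∏ σ : ↥K1 →ₐ[↥(inertiaField A)] Qb, coeffMap (σ : ↥K1 →+* Qb) S1)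
      = ∏ σ : ↥K1 →ₐ[↥(inertiaField A)] Qb, coeffMap (σ : ↥K1 →+* Qb) S1 := by
    rw [map_prod]
    refine Fintype.prod_equiv (embEquiv K1 t) _ _ (fun σ => ?_)
    rw [coeffMap_coeffMap]
    exact coeffMap_congr (RingHom.ext fun x => (ht (σ x)).symm) S1
  have h2 := congrArg (fun z : LaurentSeries Qb => z.coeff n) key
  simp only [coeffMap_coeff] at h2
  exact h2

set_option maxHeartbeats 1000000 in
/-- **The trace descent.**  For `y1 ∈ K1·F_N` (with `K1/K0` finite) Gauss-integral over `A`, the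
trace combination `y₀ = Σ_σ σ(c) · σ(y1)` (`c` the element of `TraceRes.exists_trace_residue_K0`)
has its coefficients in `K0`, is Gauss-integral, and has the reduction of `y1`. -/
theorem exists_trace_descent {q : ℕ} (hq : q.Prime) (hA : A.LiesOverPrime q)
    (hπ : ∀ a : A, ¬ IsUnit a → π a = 0) {N : ℕ} [NeZero N] (hNk : (N : k) ≠ 0)
    (y1 : LaurentSeries ↥K1) (hy1 : y1 ∈ laurentBaseChange ↥K1 (modularFunctionFieldFull N))
    (hyG : coeffMap (algebraMap ↥K1 Qb) y1 ∈ gaussRing A π) :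
    ∃ c : ↥K1,
      (∀ n, (∑ σ : ↥K1 →ₐ[↥(inertiaField A)] Qb,
          HahnSeries.C (σ c) * coeffMap (σ : ↥K1 →+* Qb) y1).coeff n ∈ inertiaField A) ∧
      ∃ h : (∑ σ : ↥K1 →ₐ[↥(inertiaField A)] Qb,
          HahnSeries.C (σ c) * coeffMap (σ : ↥K1 →+* Qb) y1) ∈ gaussRing A π,
        red A π ⟨_, h⟩ = red A π ⟨_, hyG⟩ := by
  classical
  obtain ⟨c, hc⟩ := TraceRes.exists_trace_residue_K0 A hq hA K1
  refine ⟨c, fun n => ?_, ?_⟩
  · rw [coeff_trace_sum]
    exact SetLike.coe_mem _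
  -- a denominator over `A ∩ K1`
  have hG1 := mem_gaussRing_K1 π K1 hπ hNk y1 hy1 hyG
  obtain ⟨s1, P1, hs1, h1⟩ := (mem_gaussRing_iff _ _ _).mp hG1
  -- its conjugates and their product
  have hsA : ∀ σ : ↥K1 →ₐ[↥(inertiaField A)] Qb, incl A (coeffMap (embA A K1 σ) s1)
      = coeffMap (σ : ↥K1 →+* Qb) (incl (A.comap (algebraMap ↥K1 Qb)) s1) :=
    fun σ => (coeffMap_incl A K1 σ s1).symm
  set s' : LaurentSeries A := ∏ σ : ↥K1 →ₐ[↥(inertiaField A)] Qb, coeffMap (embA A K1 σ) s1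
    with hs'
  have hs'r : rbar A π s' ≠ 0 := by
    rw [hs', map_prod]
    simp_rw [rbar_coeffMap_embA π K1 hπ]
    rw [Finset.prod_const]
    exact pow_ne_zero _ hs1
  have hs'incl : incl A s' = ∏ σ : ↥K1 →ₐ[↥(inertiaField A)] Qb,
      coeffMap (σ : ↥K1 →+* Qb) (incl (A.comap (algebraMap ↥K1 Qb)) s1) := by
    rw [hs', map_prod]
    exact Finset.prod_congr rfl fun σ _ => hsA σ
  -- the product is `K0`-rational
  obtain ⟨s'0, hs'0⟩ := exists_coeffMap_eq_of_coeff_mem_range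
    (algebraMap ↥(inertiaField A) Qb) (incl A s')
    (fun n => ⟨⟨(incl A s').coeff n, by rw [hs'incl]; exact coeff_prod_mem K1 _ n⟩, rfl⟩)
  set Z1 : LaurentSeries ↥K1 := coeffMap (algebraMap ↥(inertiaField A) ↥K1) s'0 * y1 with hZ1
  have hZσ : ∀ σ : ↥K1 →ₐ[↥(inertiaField A)] Qb,
      coeffMap (σ : ↥K1 →+* Qb) Z1 = incl A s' * coeffMap (σ : ↥K1 →+* Qb) y1 := by
    intro σ
    rw [hZ1, map_mul, coeffMap_coeffMap, ← hs'0]
    congr 1
    exact coeffMap_congr (RingHom.ext fun x => σ.commutes x) s'0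
  -- `s' * y` has coefficients in `A`
  obtain ⟨ZA, hZA⟩ : ∃ ZA : LaurentSeries A,
      incl A s' * coeffMap (algebraMap ↥K1 Qb) y1 = incl A ZA := by
    refine ⟨(∏ σ ∈ (Finset.univ : Finset (↥K1 →ₐ[↥(inertiaField A)] Qb)).erase K1.val,
      coeffMap (embA A K1 σ) s1) * coeffMap (embA A K1 K1.val) P1, ?_⟩
    rw [map_mul, ← coeffMap_incl, ← h1, map_mul, ← hsA, coeffMap_val, ← mul_assoc,
      ← map_mul (incl A), hs', Finset.prod_erase_mul _ _ (Finset.mem_univ _)]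
  have hZ1A : ∀ n, ((Z1.coeff n : ↥K1) : Qb) = ((ZA.coeff n : A) : Qb) := by
    intro n
    have h2 : coeffMap (algebraMap ↥K1 Qb) Z1 = incl A ZA := by
      rw [← hZA, ← coeffMap_val, hZσ, coeffMap_val]
    exact congrArg (fun z : LaurentSeries Qb => z.coeff n) h2
  have hZ1mem : ∀ n, ((Z1.coeff n : ↥K1) : Qb) ∈ A := fun n => by
    rw [hZ1A]
    exact (ZA.coeff n).2
  -- the numerator of the trace combination
  have hnum : ∀ n, (incl A s' * ∑ σ : ↥K1 →ₐ[↥(inertiaField A)] Qb,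
      HahnSeries.C (σ c) * coeffMap (σ : ↥K1 →+* Qb) y1).coeff n
      = algebraMap ↥(inertiaField A) Qb
          (Algebra.trace ↥(inertiaField A) ↥K1 (c * Z1.coeff n)) := by
    intro n
    rw [← coeff_trace_sum]
    congr 1
    rw [Finset.mul_sum]
    refine Finset.sum_congr rfl fun σ _ => ?_
    rw [hZσ]
    ring
  obtain ⟨P₀, hP₀⟩ := exists_incl_eq A _
    (fun n => by rw [hnum]; exact (hc _ (hZ1mem n)).1)
  have hP₀r : rbar A π P₀ = rbar A π ZA := by
    ext n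
    rw [rbar_coeff, rbar_coeff]
    have hd : ((P₀.coeff n - ZA.coeff n : A) : Qb) ∈ A.nonunits := by
      rw [ValuationSubring.mem_nonunits_iff]
      have e1 : ((P₀.coeff n : A) : Qb) = algebraMap ↥(inertiaField A) Qb
          (Algebra.trace ↥(inertiaField A) ↥K1 (c * Z1.coeff n)) := by
        rw [← hnum, ← hP₀]
        rfl
      have e2 : ((P₀.coeff n - ZA.coeff n : A) : Qb)
          = algebraMap ↥(inertiaField A) Qb
              (Algebra.trace ↥(inertiaField A) ↥K1 (c * Z1.coeff n)) - ((Z1.coeff n : ↥K1) : Qb) := by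
        rw [hZ1A, ← e1]
        rfl
      rw [e2]
      exact (hc _ (hZ1mem n)).2
    have h0 := hπ _ (not_isUnit_of_mem_nonunits A hd)
    rw [map_sub, sub_eq_zero] at h0
    exact h0
  have hmem : (∑ σ : ↥K1 →ₐ[↥(inertiaField A)] Qb,
      HahnSeries.C (σ c) * coeffMap (σ : ↥K1 →+* Qb) y1) ∈ gaussRing A π :=
    (mem_gaussRing_iff A π _).mpr ⟨s', P₀, hs'r, hP₀.symm⟩
  refine ⟨hmem, ?_⟩
  rw [red_eq A π ⟨_, hmem⟩ hs'r hP₀.symm, red_eq A π ⟨_, hyG⟩ hs'r hZA, hP₀r]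

end Emb

/-! ### `K0`-rational lifts -/

section Rational

local notation "Qb" => AlgebraicClosure ℚ
local notation "GQ" => (AlgebraicClosure ℚ ≃ₐ[ℚ] AlgebraicClosure ℚ)

variable {A : ValuationSubring Qb} {k : Type} [Field k] {π : A →+* k} {N : ℕ} [NeZero N]

theorem red_congr {z z' : LaurentSeries Qb} (h : z = z') (hz : z ∈ gaussRing A π)
    (hz' : z' ∈ gaussRing A π) : red A π ⟨z, hz⟩ = red A π ⟨z', hz'⟩ := by
  subst h
  rfl

/-- **`K0`-rational companion.**  Every Gauss-integral `y ∈ ℚ̄·F_N` has a `K0`-rational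
companion `y₀ = Σ_i c_i · τ_i(y)` (`c_i ∈ ℚ̄`, `τ_i` in the inertia group, acting on coefficients)
which is Gauss-integral with the same reduction. -/
theorem exists_rational_companion {q : ℕ} (hq : q.Prime) (hA : A.LiesOverPrime q)
    (hπ : ∀ a : A, ¬ IsUnit a → π a = 0) (hNk : (N : k) ≠ 0)
    (y : ↥(laurentBaseChange Qb (modularFunctionFieldFull N))) (hy : y ∈ Ow A π N hNk) :
    ∃ (ι : Type) (_ : Fintype ι) (c : ι → Qb) (τ : ι → GQ),
      (∀ i, τ i ∈ A.inertiaSubgroupIn ℚ) ∧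
      ∃ (y₀ : ↥(laurentBaseChange Qb (modularFunctionFieldFull N))) (h₀ : y₀ ∈ Ow A π N hNk),
        y₀ = ∑ i, algebraMap Qb ↥(laurentBaseChange Qb (modularFunctionFieldFull N)) (c i)
          * (arithmeticGalois (modularFunctionFieldFull N) (τ i) • y) ∧
        redF A π N hπ hNk ⟨y₀, h₀⟩ = redF A π N hπ hNk ⟨y, hy⟩ ∧
        y₀ ∈ Set.range (bcK (algebraMap ↥(inertiaField A) Qb) (modularFunctionFieldFull N)) := by
  classical
  haveI : Algebra.IsAlgebraic ↥(inertiaField A) Qb := isAlgebraic_K0 A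
  obtain ⟨K1, hfin, y1, hy1eq⟩ := exists_finite_coeffMap (K := ↥(inertiaField A))
    (modularFunctionFieldFull N) y.2
  haveI := hfin
  have hy1 : y1 ∈ laurentBaseChange ↥K1 (modularFunctionFieldFull N) :=
    Fermat.Agent.Lib.LaurentDescent.mem_laurentBaseChange_of_coeffMap_mem (algebraMap ↥K1 Qb)
      (modularFunctionFieldFull N) y1 (by rw [hy1eq]; exact y.2)
  have hyG : coeffMap (algebraMap ↥K1 Qb) y1 ∈ gaussRing A π := by
    rw [hy1eq]
    exact hy
  obtain ⟨c, hK0, hmem, hred⟩ := exists_trace_descent π K1 hq hA hπ hNk y1 hy1 hyG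
  choose τ hτ hτσ using fun σ : ↥K1 →ₐ[↥(inertiaField A)] Qb =>
    exists_mem_inertia_of_algHom A K1 σ
  -- the companion, as a Laurent series
  have hcoe : ((∑ σ : ↥K1 →ₐ[↥(inertiaField A)] Qb,
      algebraMap Qb ↥(laurentBaseChange Qb (modularFunctionFieldFull N)) (σ c)
        * (arithmeticGalois (modularFunctionFieldFull N) (τ σ) • y) :
        ↥(laurentBaseChange Qb (modularFunctionFieldFull N))) : LaurentSeries Qb)
      = ∑ σ : ↥K1 →ₐ[↥(inertiaField A)] Qb,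
          HahnSeries.C (σ c) * coeffMap (σ : ↥K1 →+* Qb) y1 := by
    rw [IntermediateField.coe_sum]
    refine Finset.sum_congr rfl fun σ _ => ?_
    rw [Fermat.Agent.Lib.Red.C_eq_algebraMap]
    show algebraMap Qb (LaurentSeries Qb) (σ c)
        * coeffMap ((τ σ : GQ) : Qb →+* Qb) (y : LaurentSeries Qb) = _
    rw [← hy1eq, coeffMap_coeffMap]
    congr 1
    exact coeffMap_congr (RingHom.ext fun e => hτσ σ e) y1
  set y₀ : ↥(laurentBaseChange Qb (modularFunctionFieldFull N)) :=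
    ∑ σ : ↥K1 →ₐ[↥(inertiaField A)] Qb,
      algebraMap Qb ↥(laurentBaseChange Qb (modularFunctionFieldFull N)) (σ c)
        * (arithmeticGalois (modularFunctionFieldFull N) (τ σ) • y) with hy₀
  have h₀ : y₀ ∈ Ow A π N hNk := by
    rw [mem_Ow_iff, hcoe]
    exact hmem
  refine ⟨↥K1 →ₐ[↥(inertiaField A)] Qb, inferInstance, fun σ => σ c, τ, hτ, y₀, h₀, rfl, ?_, ?_⟩
  · apply Subtype.ext
    rw [coe_redF, coe_redF]
    exact (red_congr hcoe _ hmem).trans (hred.trans (red_congr hy1eq hyG _))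
  · refine mem_range_bcK (algebraMap ↥(inertiaField A) Qb) _ y₀ (fun n => ?_)
    rw [hcoe]
    exact ⟨⟨_, hK0 n⟩, rfl⟩

end Rational

/-! ### Regularity of conjugates -/

section Regular

variable {K F : Type*} [Field K] [Field F] [Algebra K F]

/-- A semilinear automorphism fixing `t` preserves "regular at the places where `ord t`
satisfies `C`". -/
theorem ord_smul_nonneg (g : SemilinearAut K F) {t y : F} (ht : g • t = t) (C : ℤ → Prop)
    (h : ∀ P : Place K F, C (P.ord t) → 0 ≤ P.ord y) (P : Place K F) (hP : C (P.ord t)) :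
    0 ≤ P.ord (g • y) := by
  have h1 : P.ord (g • y) = (g⁻¹ • P).ord y := by
    have h := SemilinearAut.ord_smul g (g⁻¹ • P) y
    rwa [smul_inv_smul] at h
  have h2 : (g⁻¹ • P).ord t = P.ord t := by
    have h := SemilinearAut.ord_smul g (g⁻¹ • P) t
    rw [smul_inv_smul, ht] at h
    exact h.symm
  rw [h1]
  exact h _ (by rw [h2]; exact hP)

/-- The same for a combination of conjugates with constant coefficients. -/
theorem ord_sum_smul_nonneg {ι : Type*} [Fintype ι] (c : ι → K) (g : ι → SemilinearAut K F)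
    {t y : F} (ht : ∀ i, g i • t = t) (C : ℤ → Prop)
    (h : ∀ P : Place K F, C (P.ord t) → 0 ≤ P.ord y) (P : Place K F) (hP : C (P.ord t)) :
    0 ≤ P.ord (∑ i, algebraMap K F (c i) * (g i • y)) := by
  rw [← Fermat.Agent.S24.mem_iff_ord_nonneg]
  refine sum_mem fun i _ => mul_mem (P.algebraMap_mem' _) ?_
  rw [Fermat.Agent.S24.mem_iff_ord_nonneg]
  exact ord_smul_nonneg (g i) (ht i) C h P hP

end Regular

/-! ### (T3), (T3') with `K0`-rational lifts -/

section T3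

local notation "Qb" => AlgebraicClosure ℚ
local notation "GQ" => (AlgebraicClosure ℚ ≃ₐ[ℚ] AlgebraicClosure ℚ)

open Fermat.Agent.CAR.Lift Fermat.Agent.Lib.FF Fermat.Agent.S24

variable {A : ValuationSubring Qb} {k : Type} [Field k] {π : A →+* k} {N : ℕ} [NeZero N]

/-- The `K0`-rational elements of `ℚ̄·F_N` (`K0 = ℚ̄^I` the inertia field of `A`). -/
def Rat (A : ValuationSubring Qb) (N : ℕ) [NeZero N] :
    Set ↥(laurentBaseChange Qb (modularFunctionFieldFull N)) :=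
  Set.range (bcK (algebraMap ↥(inertiaField A) Qb) (modularFunctionFieldFull N))

theorem mem_Rat_iff (x : ↥(laurentBaseChange Qb (modularFunctionFieldFull N))) :
    x ∈ Rat A N ↔ ∀ n : ℤ, (x : LaurentSeries Qb).coeff n ∈ inertiaField A := by
  unfold Rat
  rw [mem_range_bcK_iff]
  exact ⟨fun h n => by obtain ⟨a, ha⟩ := h n; rw [← ha]; exact a.2,
    fun h n => ⟨⟨_, h n⟩, rfl⟩⟩

/-- `K0`-rational elements are fixed by the inertia group. -/
theorem smul_eq_of_mem_Rat {x : ↥(laurentBaseChange Qb (modularFunctionFieldFull N))}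
    (hx : x ∈ Rat A N) {τ : GQ} (hτ : τ ∈ A.inertiaSubgroupIn ℚ) :
    arithmeticGalois (modularFunctionFieldFull N) τ • x = x := by
  apply Subtype.ext
  rw [coe_arithmeticGalois_smul]
  ext n
  rw [coeffMap_coeff]
  exact (mem_inertiaField_iff A _).mp ((mem_Rat_iff x).mp hx n) τ hτ

variable (B : BaseFn.Data A π N) (hπ : ∀ a : A, ¬ IsUnit a → π a = 0) (hNk : (N : k) ≠ 0)
  {q : ℕ} (hq : q.Prime) (hA : A.LiesOverPrime q) (hx : B.x ∈ Rat A N)

include hq hA hx in
/-- **(T3) with `K0`-rational lifts.** -/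
theorem t3_rational (h : T3 B hπ hNk) (s : ↥(modularFunctionFieldFullC k N))
    (hs : ∀ Q : Place k ↥(modularFunctionFieldFullC k N),
      0 ≤ Q.ord (B.xt hπ hNk) → 0 ≤ Q.ord s) :
    ∃ y : Ow A π N hNk, redF A π N hπ hNk y = s ∧
      (∀ P : Place Qb ↥(laurentBaseChange Qb (modularFunctionFieldFull N)),
        0 ≤ P.ord B.x → 0 ≤ P.ord (y : ↥(laurentBaseChange Qb (modularFunctionFieldFull N)))) ∧
      (y : ↥(laurentBaseChange Qb (modularFunctionFieldFull N))) ∈ Rat A N := by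
  obtain ⟨y, hy, hreg⟩ := h s hs
  obtain ⟨ι, _, c, τ, hτ, y₀, h₀, hy₀, hred, hrat⟩ :=
    exists_rational_companion hq hA hπ hNk (y : ↥(laurentBaseChange Qb (modularFunctionFieldFull N)))
      y.2
  refine ⟨⟨y₀, h₀⟩, hred.trans hy, fun P hP => ?_, hrat⟩
  show 0 ≤ P.ord y₀
  rw [hy₀]
  exact ord_sum_smul_nonneg c _ (fun i => smul_eq_of_mem_Rat hx (hτ i)) (fun n => 0 ≤ n) hreg P hP

include hq hA hx in
/-- **(T3') with `K0`-rational lifts.** -/
theorem t3'_rational (h : T3' B hπ hNk) (s : ↥(modularFunctionFieldFullC k N))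
    (hs : ∀ Q : Place k ↥(modularFunctionFieldFullC k N),
      Q.ord (B.xt hπ hNk) ≤ 0 → 0 ≤ Q.ord s) :
    ∃ y : Ow A π N hNk, redF A π N hπ hNk y = s ∧
      (∀ P : Place Qb ↥(laurentBaseChange Qb (modularFunctionFieldFull N)),
        P.ord B.x ≤ 0 → 0 ≤ P.ord (y : ↥(laurentBaseChange Qb (modularFunctionFieldFull N)))) ∧
      (y : ↥(laurentBaseChange Qb (modularFunctionFieldFull N))) ∈ Rat A N := by
  obtain ⟨y, hy, hreg⟩ := h s hs
  obtain ⟨ι, _, c, τ, hτ, y₀, h₀, hy₀, hred, hrat⟩ :=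
    exists_rational_companion hq hA hπ hNk (y : ↥(laurentBaseChange Qb (modularFunctionFieldFull N)))
      y.2
  refine ⟨⟨y₀, h₀⟩, hred.trans hy, fun P hP => ?_, hrat⟩
  show 0 ≤ P.ord y₀
  rw [hy₀]
  exact ord_sum_smul_nonneg c _ (fun i => smul_eq_of_mem_Rat hx (hτ i)) (fun n => n ≤ 0) hreg P hP

variable (hsurj : Function.Surjective π)

include hq hA hx hsurj in
/-- `R̄ ⊆ redF (B' ∩ K0·F_N)`. -/
theorem exists_lift_rat (h : T3 B hπ hNk) {s : ↥(modularFunctionFieldFullC k N)}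
    (hs : IsIntegral ↥(Algebra.adjoin k {B.xt hπ hNk}) s) :
    ∃ y : Ow A π N hNk,
      IsIntegral ↥(B.AX) (y : ↥(laurentBaseChange Qb (modularFunctionFieldFull N))) ∧
      (y : ↥(laurentBaseChange Qb (modularFunctionFieldFull N))) ∈ Rat A N ∧
      redF A π N hπ hNk y = s := by
  obtain ⟨y, hy, hreg, hrat⟩ := t3_rational B hπ hNk hq hA hx h s
    ((isIntegral_xt_iff_place B hπ hsurj hNk).1 hs)
  exact ⟨y, (isIntegral_AX_iff_place B hπ hsurj hNk).2 ⟨y.2, hreg⟩, hrat, hy⟩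

include hq hA hx hsurj in
/-- **(Lf-1), `K0`-rational.** -/
theorem lift_frac_rat [IsAlgClosed k] (h : T3 B hπ hNk)
    (Q : Place k ↥(modularFunctionFieldFullC k N)) (hQ : 0 ≤ Q.ord (B.xt hπ hNk))
    {c : ↥(modularFunctionFieldFullC k N)} (hc : 0 ≤ Q.ord c) :
    ∃ a b : Ow A π N hNk,
      IsIntegral ↥(B.AX) (a : ↥(laurentBaseChange Qb (modularFunctionFieldFull N))) ∧
      (a : ↥(laurentBaseChange Qb (modularFunctionFieldFull N))) ∈ Rat A N ∧
      IsIntegral ↥(B.AX) (b : ↥(laurentBaseChange Qb (modularFunctionFieldFull N))) ∧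
      (b : ↥(laurentBaseChange Qb (modularFunctionFieldFull N))) ∈ Rat A N ∧
      Q.ord (redF A π N hπ hNk b) = 0 ∧ redF A π N hπ hNk b ≠ 0 ∧
      redF A π N hπ hNk a = c * redF A π N hπ hNk b := by
  obtain ⟨a₀, b₀, ha₀, hb₀, hQb, hb0, hab⟩ :=
    LiftFF.exists_frac (isFF1_xt B hπ hsurj hNk) hQ hc
  obtain ⟨a, ha, har, rfl⟩ := exists_lift_rat B hπ hNk hq hA hx hsurj h ha₀
  obtain ⟨b, hb, hbr, rfl⟩ := exists_lift_rat B hπ hNk hq hA hx hsurj h hb₀
  exact ⟨a, b, ha, har, hb, hbr, hQb, hb0, hab⟩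

include hq hA hx hsurj in
/-- **(Lf-2), `K0`-rational.** -/
theorem lift_sep_rat [IsAlgClosed k] (h : T3 B hπ hNk)
    {Q Q' : Place k ↥(modularFunctionFieldFullC k N)} (hQ : 0 ≤ Q.ord (B.xt hπ hNk))
    (hQ' : 0 ≤ Q'.ord (B.xt hπ hNk)) (hne : Q ≠ Q') :
    ∃ y : Ow A π N hNk,
      IsIntegral ↥(B.AX) (y : ↥(laurentBaseChange Qb (modularFunctionFieldFull N))) ∧
      (y : ↥(laurentBaseChange Qb (modularFunctionFieldFull N))) ∈ Rat A N ∧
      0 < Q.ord (redF A π N hπ hNk y) ∧ Q'.ord (redF A π N hπ hNk y) = 0 := by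
  obtain ⟨t, ht, h1, h2⟩ := LiftFF.exists_sep (isFF1_xt B hπ hsurj hNk) hQ hQ' hne
  obtain ⟨y, hy, hyr, rfl⟩ := exists_lift_rat B hπ hNk hq hA hx hsurj h ht
  exact ⟨y, hy, hyr, h1, h2⟩

include hq hA hx hsurj in
/-- `R̄_∞ ⊆ redF (B'_∞ ∩ K0·F_N)`. -/
theorem exists_lift_inf_rat (h : T3' B hπ hNk) {s : ↥(modularFunctionFieldFullC k N)}
    (hs : IsIntegral ↥(Algebra.adjoin k {(B.xt hπ hNk)⁻¹}) s) :
    ∃ y : Ow A π N hNk,
      (y : ↥(laurentBaseChange Qb (modularFunctionFieldFull N))) ∈ Binf B hNk ∧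
      (y : ↥(laurentBaseChange Qb (modularFunctionFieldFull N))) ∈ Rat A N ∧
      redF A π N hπ hNk y = s := by
  obtain ⟨y, hy, hreg, hrat⟩ := t3'_rational B hπ hNk hq hA hx h s
    ((isIntegral_xt_inv_iff_place B hπ hsurj hNk).1 hs)
  exact ⟨y, ⟨y.2, hreg⟩, hrat, hy⟩

include hq hA hx hsurj in
/-- **(Lf-3), fractions at infinity, `K0`-rational.** -/
theorem lift_frac_inf_rat [IsAlgClosed k] (h : T3' B hπ hNk)
    (Q : Place k ↥(modularFunctionFieldFullC k N)) (hQ : Q.ord (B.xt hπ hNk) ≤ 0)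
    {c : ↥(modularFunctionFieldFullC k N)} (hc : 0 ≤ Q.ord c) :
    ∃ a b : Ow A π N hNk,
      (a : ↥(laurentBaseChange Qb (modularFunctionFieldFull N))) ∈ Binf B hNk ∧
      (a : ↥(laurentBaseChange Qb (modularFunctionFieldFull N))) ∈ Rat A N ∧
      (b : ↥(laurentBaseChange Qb (modularFunctionFieldFull N))) ∈ Binf B hNk ∧
      (b : ↥(laurentBaseChange Qb (modularFunctionFieldFull N))) ∈ Rat A N ∧
      Q.ord (redF A π N hπ hNk b) = 0 ∧ redF A π N hπ hNk b ≠ 0 ∧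
      redF A π N hπ hNk a = c * redF A π N hπ hNk b := by
  have hQ' : 0 ≤ Q.ord (B.xt hπ hNk)⁻¹ := by
    rw [Q.ord_inv]
    omega
  obtain ⟨a₀, b₀, ha₀, hb₀, hQb, hb0, hab⟩ :=
    LiftFF.exists_frac (isFF1_xt B hπ hsurj hNk).inv hQ' hc
  obtain ⟨a, ha, har, rfl⟩ := exists_lift_inf_rat B hπ hNk hq hA hx hsurj h ha₀
  obtain ⟨b, hb, hbr, rfl⟩ := exists_lift_inf_rat B hπ hNk hq hA hx hsurj h hb₀
  exact ⟨a, b, ha, har, hb, hbr, hQb, hb0, hab⟩

include hq hA hx hsurj in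
/-- **(Lf-3), separation at infinity, `K0`-rational.** -/
theorem lift_sep_inf_rat [IsAlgClosed k] (h : T3' B hπ hNk)
    {Q Q' : Place k ↥(modularFunctionFieldFullC k N)} (hQ : Q.ord (B.xt hπ hNk) ≤ 0)
    (hQ' : Q'.ord (B.xt hπ hNk) ≤ 0) (hne : Q ≠ Q') :
    ∃ y : Ow A π N hNk,
      (y : ↥(laurentBaseChange Qb (modularFunctionFieldFull N))) ∈ Binf B hNk ∧
      (y : ↥(laurentBaseChange Qb (modularFunctionFieldFull N))) ∈ Rat A N ∧
      0 < Q.ord (redF A π N hπ hNk y) ∧ Q'.ord (redF A π N hπ hNk y) = 0 := by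
  have h1 : 0 ≤ Q.ord (B.xt hπ hNk)⁻¹ := by
    rw [Q.ord_inv]
    omega
  have h2 : 0 ≤ Q'.ord (B.xt hπ hNk)⁻¹ := by
    rw [Q'.ord_inv]
    omega
  obtain ⟨t, ht, h3, h4⟩ := LiftFF.exists_sep (isFF1_xt B hπ hsurj hNk).inv h1 h2 hne
  obtain ⟨y, hy, hyr, rfl⟩ := exists_lift_inf_rat B hπ hNk hq hA hx hsurj h ht
  exact ⟨y, hy, hyr, h3, h4⟩

end T3

end Fermat.Agent.CAR.LiftK0Alt
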