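/-
CAR, SHADOW of row 400 (helper73), ROUTE B: **the final term at the concrete objects.**

`A` a valuation subring of `ℚ̄` over the prime `q`, `K0` its inertia field, `W0 = A ∩ K0`,
`q ∤ M'`, the three components `Core.O3` of `K0 · F_{M'q²}`, the chart function
`Core.xB = J_0 J_2`, the canonical level-`M'` ring `BpB = integralClosure (W0[J(q^{M'})])`.

* `ContractPkgB` : what is asked of the finite chart — a family of residue maps `red` agreeing
  pointwise with `redInf3`, `redMid` (series level), `redZero3`; a reduction `red'` of `BpB` which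
  is `redF`; pull-backs `π₀ π₂ : BpB → chart W0 xB` which are `π_0^*`, `π_2^*`; an element `x'`
  of `BpB` which is `J`; and **the record `Local.Inst.Contract`** written with `D = d/dJ̄`,
  `G = J̄⁸ (J̄ - 1728)⁶`.
* `newInertiaK0At_of_contractPkg` : `NormBc.NewInertiaK0At (M' * q) q p (K0.inertiaField A)` from
  `ContractPkgB`, through `WireB.newInertiaK0At_W0_of_contract` (route B: no `PointPkg`, no
  `NodeRel`).  Discharged inside: the record `NF.Data`, `hWA`, `hWC`, `hx`, `hRV`, `hR'V`, `hmin`,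
  `hmin'` (as in `Core/Plug.lean`), `hell` (`EllFinClosed.hell_K0_closed`, every admissible
  `q`), the whole level-`N` block (`LevelNB`, `TripleV3`, `ContractUniqK0`,
  `CuspMidInst.redTo_const`, `EllFinK0.hk_K0`) and the three cusp records
  (`WireB.exists_cuspRecords`).
* `coreB_of_contractPkg` : **`Final.Core 12 11`** from `ContractPkgB` at every choice of `ζ`, `w`
  and of the `W0`-algebra structures.
-/
import Mathlib
import Fermat.Agent.CAR.WireBCusp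
import Fermat.Agent.CAR.Final
import Fermat.Agent.CAR.Formal.NormInstFree
import Fermat.Agent.CAR.Inst.LevelNB
import Fermat.Agent.CAR.Inst.TripleV3
import Fermat.Agent.CAR.Inst.ContractUniqK0
import Fermat.Agent.CAR.Inst.EllFinClosed
import Fermat.Agent.CAR.Inst.CuspMidInst

set_option autoImplicit false
set_option linter.unusedSectionVars false
set_option linter.style.haveILetI false
set_option synthInstance.maxHeartbeats 400000
set_option maxHeartbeats 1000000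

noncomputable section

namespace Fermat.Agent.CAR.WireB

open IsLocalRing AlgebraicCurve ModularCurve Fermat.Agent.ESJ Fermat.Agent.ESJ.Jac
  Fermat.Agent.BAD.Dict Fermat.Agent.ESJ.Dict.Bc Fermat.Agent.CAR.Formal
  Fermat.Agent.CAR.Formal.NF Fermat.Agent.CAR.Formal.Descent Fermat.Agent.CAR.V3.RestrictNF
  Fermat.Agent.CAR.Local Fermat.Agent.CAR.Local.Inst Fermat.Agent.CAR.Local.InstCusp
  Fermat.Agent.CAR.Glue Fermat.Agent.CAR.Glob Fermat.Agent.CAR.Glob.Charts Fermat.Agent.CAR.K0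
  Fermat.Agent.CAR.V3 Fermat.Agent.CAR.V3.MidRing Fermat.Agent.CAR.V3.MidRestrict
  Fermat.Agent.BAD.TwoVal Fermat.Agent.Lib.Red Fermat.Agent.S28
  Fermat.Agent.ESJ.Cong.LevelGen

local notation "Qb" => AlgebraicClosure ℚ

/-- The canonical level-`M'` ring `B' = integralClosure (W0[J(q^{M'})]) (K0 · F_{M'})`
(ruling #6, R2). -/
abbrev BpB (A : ValuationSubring Qb) (M' : ℕ) [NeZero M'] : Type :=
  ↥(integralClosure ↥((BaseFn.Data.ofJ (W0 A) (resW0 A) M').AX)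
    ↥(laurentBaseChange ↥(K0 A) (modularFunctionFieldFull M')))

section Pkg

variable {q : ℕ} (hq : q.Prime) (A : ValuationSubring Qb) (hA : A.LiesOverPrime q)
  {ζ : Qb} (hζ : IsPrimitiveRoot ζ q) (M' : ℕ) [NeZero M'] [NeZero q] (hqM : ¬ q ∣ M')
  [Algebra ↥(W0 A) (FNK ↥(K0 A) (M' * q * q))]
  [IsScalarTower ↥(W0 A) ↥(K0 A) (FNK ↥(K0 A) (M' * q * q))]
  [IsAlgClosed (IsLocalRing.ResidueField A)]

/-- **What route B asks of the finite chart** at the concrete objects (see the file header). -/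
def ContractPkgB (w : ALAut (inertiaField A) (M' * q) q) : Prop :=
  ∃ (red : ∀ i, Core.O3 hq A hA hζ M' hqM w i →+*
      ↥(modularFunctionFieldFullC (IsLocalRing.ResidueField A) M'))
    (hred : ∀ i, ∀ y : Core.O3 hq A hA hζ M' hqM w i,
      red i y = 0 ↔ y ∈ maximalIdeal (Core.O3 hq A hA hζ M' hqM w i))
    (hBO : ∀ i, ∀ b : chart ↥(W0 A) (Core.xB A M' q),
      algebraMap (chart ↥(W0 A) (Core.xB A M' q)) (FNK ↥(K0 A) (M' * q * q)) b ∈
        Core.O3 hq A hA hζ M' hqM w i)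
    (red' : BpB A M' →+* ↥(modularFunctionFieldFullC (IsLocalRing.ResidueField A) M'))
    (π₀ π₂ : BpB A M' →+* chart ↥(W0 A) (Core.xB A M' q)) (x' : BpB A M')
    (u₀ u₁ v₁ h₀ : chart ↥(W0 A) (Core.xB A M' q))
    (Db : ↥(modularFunctionFieldFullC (IsLocalRing.ResidueField A) M')) (N e : ℕ),
    (∀ f : OInf3 (badSetup_W0 hq hA M' hqM), red 0 f = redInf3 (badSetup_W0 hq hA M' hqM) f) ∧
    (∀ f : OMid hq A hA hζ M' hqM (IsLocalRing.residue A),
      ((red 1 f : ↥(modularFunctionFieldFullC (IsLocalRing.ResidueField A) M')) :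
        LaurentSeries (IsLocalRing.ResidueField A)) =
        redMid hq A hA hζ M' hqM (IsLocalRing.residue A) f) ∧
    (∀ f : OZero3 (badSetup_W0 hq hA M' hqM) w,
      red 2 f = redZero3 (badSetup_W0 hq hA M' hqM) w f) ∧
    (∀ b : BpB A M', red' b = redF (W0 A) (resW0 A) M' (resW0_eq_zero_of_not_isUnit A)
      (badSetup_W0 hq hA M' hqM).hMk
      ⟨b, (BaseFn.Data.ofJ (W0 A) (resW0 A) M').mem_Ow_of_isIntegral_AX
        (badSetup_W0 hq hA M' hqM).hMk b.2⟩) ∧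
    (∀ y : BpB A M', ((π₀ y : chart ↥(W0 A) (Core.xB A M' q)) : FNK ↥(K0 A) (M' * q * q)) =
      piStar0 ↥(K0 A) M' q (y : ↥(laurentBaseChange ↥(K0 A) (modularFunctionFieldFull M')))) ∧
    (∀ y : BpB A M', ((π₂ y : chart ↥(W0 A) (Core.xB A M' q)) : FNK ↥(K0 A) (M' * q * q)) =
      piStar2 ↥(K0 A) M' q (y : ↥(laurentBaseChange ↥(K0 A) (modularFunctionFieldFull M')))) ∧
    ((x' : ↥(laurentBaseChange ↥(K0 A) (modularFunctionFieldFull M'))) = jLevel ↥(K0 A) M') ∧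
    Contract (Core.O3 hq A hA hζ M' hqM w) red hred hBO red' π₀ π₂
      (Deriv.dJ (IsLocalRing.ResidueField A) M')
      (algebraMap (W0 A) (chart ↥(W0 A) (Core.xB A M' q)) ((q : ℕ) : W0 A)) x' u₀ u₁ v₁ h₀ Db
      (Deriv.GJ (IsLocalRing.ResidueField A) M') N e

end Pkg

set_option maxHeartbeats 3200000 in
set_option synthInstance.maxHeartbeats 400000 in
/-- **`NewInertiaK0At` over the inertia field, ROUTE B, from the contract of the finite chart at
the concrete objects** (see the file header). -/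
theorem newInertiaK0At_of_contractPkg {q : ℕ} (hq : q.Prime) (A : ValuationSubring Qb)
    (hA : A.LiesOverPrime q) {ζ : Qb} (hζ : IsPrimitiveRoot ζ q) (M' p : ℕ) [NeZero M']
    [NeZero q] (hqM : ¬ q ∣ M') (hp : p.Prime) (hqp : q ≠ p)
    (hr : ∃ r : ℕ, r.Prime ∧ r ≡ 11 [MOD 12] ∧ r ∣ M')
    (h2 : q = 2 → 3 ∣ M') (h3 : q = 3 → 2 ∣ M')
    [Algebra ↥(W0 A) (FNK ↥(K0 A) (M' * q))] [Algebra ↥(W0 A) (FNK ↥(K0 A) (M' * q * q))]
    [IsScalarTower ↥(W0 A) ↥(K0 A) (FNK ↥(K0 A) (M' * q))]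
    [IsScalarTower ↥(W0 A) ↥(K0 A) (FNK ↥(K0 A) (M' * q * q))]
    {W : ALAut (inertiaField A) M' q} (hW : IsAL M' q W)
    {w : ALAut (inertiaField A) (M' * q) q} (hw : IsAL3 M' q w)
    [IsAlgClosed (IsLocalRing.ResidueField A)]
    (P : ContractPkgB hq A hA hζ M' hqM w) :
    NormBc.NewInertiaK0At (M' * q) q p (K0.inertiaField A) := by
  obtain ⟨red, hred, hBO, red', π₀, π₂, x', u₀, u₁, v₁, h₀, Db, N, e, r0, r1, r2, hred', hπ₀,
    hπ₂, hx', H⟩ := P
  have hB := badSetup_W0 hq hA M' hqM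
  have := isDiscreteValuationRing_W0 hq hA
  -- the first block, as in `Core/Plug.lean`
  have hab := Core.O3_above hq A hA hζ M' hqM hw
  have hinj := Core.O3_injective hq A hA hζ M' hqM hw
  have hex := Core.O3_exhaust hq A hA hζ M' hqM hw
  have hRV : ∀ i, ∀ r ∈ chart ↥(W0 A) (Core.xB A M' q), r ∈ Core.O3 hq A hA hζ M' hqM w i :=
    fun i r hr => Fermat.Agent.CAR.Inst.HMin.mem_of_mem_chart_K0 hq hA M' hqM (hab i) hr
  have hR'V : ∀ i, ∀ r ∈ chart ↥(W0 A) (Core.xB A M' q)⁻¹, r ∈ Core.O3 hq A hA hζ M' hqM w i :=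
    fun i r hr => Fermat.Agent.CAR.Inst.HMin.mem_of_mem_chart_inv_K0 hq hA M' hqM (hab i) hr
  have hWA : ∀ a : W0 A, algebraMap (W0 A) (FNK ↥(K0 A) (M' * q)) a ∈
      OInf (badSetup_W0 hq hA M' hqM) := by
    intro a
    rw [IsScalarTower.algebraMap_apply (W0 A) (K0 A) (FNK ↥(K0 A) (M' * q))]
    exact (algebraMap_mem_OInf_iff (badSetup_W0 hq hA M' hqM) _).mpr a.2
  have hWC : ∀ a : W0 A, algebraMap (W0 A) (FNK ↥(K0 A) (M' * q)) a ∈
      OZero (badSetup_W0 hq hA M' hqM) W := by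
    intro a
    rw [IsScalarTower.algebraMap_apply (W0 A) (K0 A) (FNK ↥(K0 A) (M' * q))]
    exact (algebraMap_mem_OZero_iff (badSetup_W0 hq hA M' hqM) _).mpr a.2
  -- the chart at infinity
  obtain ⟨y₀, y₁, y₂, y₃, ec, m₀, nc, Nc, yb, g, Hc, C, Mc⟩ :=
    exists_cuspRecords hq A hA hζ M' hqM hw h2 h3 red hred r0 r1 r2 hR'V
  -- the chart instances
  obtain ⟨iF, iN, iC⟩ := Fermat.Agent.CAR.Inst.Cusp.chart_instances (W := ↥(W0 A)) ↥(K0 A)
    (M' * q * q) (Core.xB A M' q)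
    (Fermat.Agent.CAR.Inst.HMin.order_J0_mul_J2_ne_zero (L := ↥(K0 A)) (M' := M') (q := q))
  haveI iFN := Fermat.Agent.CAR.Inst.LevelNB.isFractionRing_chart_xN (W := ↥(W0 A)) ↥(K0 A) M' q
  haveI iCN := Fermat.Agent.CAR.Inst.LevelNB.isIntegrallyClosed_chart_xN (W := ↥(W0 A))
    ↥(K0 A) M' q
  -- `hell`
  have hell := Fermat.Agent.CAR.Inst.EllFinClosed.hell_K0_closed hq hA M'
    (badSetup_W0 hq hA M' hqM).hMk red' hred' hqM hr h2 h3 hx' H
  -- the level-`N` block: the inclusion of `B'`, `p₀`, `p₁`, `π₁`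
  let ι : BpB A M' →+* ↥(laurentBaseChange ↥(K0 A) (modularFunctionFieldFull M')) :=
    algebraMap (BpB A M') ↥(laurentBaseChange ↥(K0 A) (modularFunctionFieldFull M'))
  have hι : ∀ y : BpB A M', IsIntegral ↥((BaseFn.Data.ofJ (W0 A) (resW0 A) M').AX) (ι y) :=
    fun y => y.2
  let π₁ : BpB A M' →+* chart ↥(W0 A) (Core.xB A M' q) :=
    ((piStar1 ↥(K0 A) M' q).toRingHom.comp ι).codRestrict (chart ↥(W0 A) (Core.xB A M' q))
      (fun y => Fermat.Agent.CAR.Inst.BPrimeWeb.piStar1_mem_chart ↥(K0 A) M' q (W0 A) (resW0 A)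
        hq (hι y))
  have hπ₁ : ∀ y : BpB A M', ((π₁ y : chart ↥(W0 A) (Core.xB A M' q)) :
      FNK ↥(K0 A) (M' * q * q)) = piStar1 ↥(K0 A) M' q (ι y) := fun _ => rfl
  -- (UNIQ)
  obtain ⟨ψ, U⟩ := Fermat.Agent.CAR.Inst.UniqK0.exists_contractUniq_K0 hq A hA hζ M' hqM
    (Fermat.Agent.CAR.Formal.NormFree.redMid_mem_kappa hq A hA hζ M' hqM) w hw red r0
    (fun f => Subtype.ext (r1 f)) r2 hBO red'
    (fun b => ⟨b, (BaseFn.Data.ofJ (W0 A) (resW0 A) M').mem_Ow_of_isIntegral_AX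
      (badSetup_W0 hq hA M' hqM).hMk b.2⟩) hred' π₁ (fun _ => rfl)
  -- the constants
  have hconst : ∀ c : W0 A, redOn (Core.O3 hq A hA hζ M' hqM w 1) (red 1) (hBO 1)
      (algebraMap (W0 A) (chart ↥(W0 A) (Core.xB A M' q)) c)
        = algebraMap (IsLocalRing.ResidueField A)
          ↥(modularFunctionFieldFullC (IsLocalRing.ResidueField A) M') (resW0 A c) := by
    intro c
    obtain ⟨hm, hc⟩ := Fermat.Agent.CAR.Inst.CuspMidInst.redTo_const hq A hA hζ M' hqM (red 1)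
      r1 c
    have e : algebraMap (chart ↥(W0 A) (Core.xB A M' q)) (FNK ↥(K0 A) (M' * q * q))
        (algebraMap (W0 A) (chart ↥(W0 A) (Core.xB A M' q)) c)
        = CK (inertiaField A) (M' * q * q) (c : K0 A) := by
      rw [← IsScalarTower.algebraMap_apply (W0 A) (chart ↥(W0 A) (Core.xB A M' q))
        (FNK ↥(K0 A) (M' * q * q)),
        IsScalarTower.algebraMap_apply (W0 A) (K0 A) (FNK ↥(K0 A) (M' * q * q))]
      exact Subtype.ext (by
        rw [coe_CK, Fermat.Agent.Lib.Red.C_eq_algebraMap]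
        rfl)
    rw [← hc, redOn_apply]
    exact congrArg (red 1) (Subtype.ext e)
  have hk : ∀ Vs : ValuationSubring ↥(modularFunctionFieldFullC (IsLocalRing.ResidueField A) M'),
      IsFinPlace red' Vs → ∀ v ∈ Vs, ∃ c : IsLocalRing.ResidueField A,
        v - algebraMap (IsLocalRing.ResidueField A)
          ↥(modularFunctionFieldFullC (IsLocalRing.ResidueField A) M') c ∈ Vs.nonunits := by
    intro Vs hVs v hv
    have hkc := Fermat.Agent.CAR.Inst.EllFinK0.hk_K0 hq hA M' (badSetup_W0 hq hA M' hqM).hMk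
      red' hred' Vs hVs
    have : FiniteDimensional
        ↥(IntermediateField.adjoin (IsLocalRing.ResidueField A)
          {(BaseFn.Data.ofJ (W0 A) (resW0 A) M').xt (resW0_eq_zero_of_not_isUnit A)
            (badSetup_W0 hq hA M' hqM).hMk})
        ↥(modularFunctionFieldFullC (IsLocalRing.ResidueField A) M') :=
      (BaseFn.Data.ofJ (W0 A) (resW0 A) M').finite_k (resW0_eq_zero_of_not_isUnit A)
        (resW0_surjective hq hA) (badSetup_W0 hq hA M' hqM).hMk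
    have : Algebra.IsAlgebraic
        ↥(Algebra.adjoin (IsLocalRing.ResidueField A)
          {(BaseFn.Data.ofJ (W0 A) (resW0 A) M').xt (resW0_eq_zero_of_not_isUnit A)
            (badSetup_W0 hq hA M' hqM).hMk})
        ↥(modularFunctionFieldFullC (IsLocalRing.ResidueField A) M') :=
      ChartFields.isAlgebraic_adjoin_of_intermediateField _
    exact ChartFields.exists_sub_algebraMap_mem_nonunits Vs hkc hVs.1
      ((BaseFn.Data.ofJ (W0 A) (resW0 A) M').xt (resW0_eq_zero_of_not_isUnit A)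
        (badSetup_W0 hq hA M' hqM).hMk) hv
  exact newInertiaK0At_W0_of_contract hq A hA M' p hp hqp
    (OInf (badSetup_W0 hq hA M' hqM)) (OZero (badSetup_W0 hq hA M' hqM) W)
    (Core.O3 hq A hA hζ M' hqM w) _ (dMid A M' q)
    (MidAll.nfDataK0 hq A hA hζ M' hqM hW hw) hWA hWC (Core.xB A M' q)
    (Fermat.Agent.CAR.Inst.HMin.order_J0_mul_J2_ne_zero (L := ↥(K0 A)) (M' := M') (q := q))
    hRV hR'V
    (Fermat.Agent.CAR.Inst.HMin.hmin_chart_K0 hq hA M' hqM hinj hab hex 0 hRV)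
    (Fermat.Agent.CAR.Inst.HMin.hmin_chart_inv_K0 hq hA M' hqM hinj hab hex 0 hR'V)
    H hell
    (Fermat.Agent.CAR.Inst.LevelNB.hΦα ↥(K0 A) M' q)
    (Fermat.Agent.CAR.Inst.LevelNB.hΦβ ↥(K0 A) M' q)
    (xN := Fermat.Agent.CAR.Inst.LevelNB.xN ↥(K0 A) M' q)
    (Fermat.Agent.CAR.Inst.LevelNB.h1α ↥(K0 A) M' q hq)
    (Fermat.Agent.CAR.Inst.LevelNB.h2α ↥(K0 A) M' q)
    (Fermat.Agent.CAR.Inst.LevelNB.h1β ↥(K0 A) M' q hq)
    (Fermat.Agent.CAR.Inst.LevelNB.h2β ↥(K0 A) M' q)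
    (redInf (badSetup_W0 hq hA M' hqM)) (Fermat.Agent.CAR.Inst.TripleV3.hrinf hq A hA M' hqM)
    (redZero (badSetup_W0 hq hA M' hqM) W)
    (Fermat.Agent.CAR.Inst.TripleV3.hrzero hq A hA M' hqM W)
    (fun y hy hy' => (r0 ⟨_, hy'⟩).trans
      (Fermat.Agent.CAR.Inst.TripleV3.hcαinf hq A hA M' hqM y hy hy'))
    (fun y hy hy' => Fermat.Agent.CAR.Inst.TripleV3.hcαmid hq A hA hζ M' hqM (red 1) r1 y hy hy')
    (fun y hy hy' => (r2 ⟨_, hy'⟩).trans
      (Fermat.Agent.CAR.Inst.TripleV3.hcβzero hq A hA M' hqM hW hw y hy hy'))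
    (fun y hy hy' =>
      Fermat.Agent.CAR.Inst.TripleV3.hcβmid hq A hA hζ M' hqM (red 1) r1 hW y hy hy')
    1 hconst π₁ ψ U.n_ne U.frob U.zero_π₁ U.inf_π₁
    (Fermat.Agent.CAR.Inst.LevelNB.p0 (W0 A) (resW0 A) M' q ι hι)
    (Fermat.Agent.CAR.Inst.LevelNB.p1 (W0 A) (resW0 A) M' q ι hι)
    (Fermat.Agent.CAR.Inst.LevelNB.hα₀ (W0 A) (resW0 A) M' q ι hι hq π₀ hπ₀)
    (Fermat.Agent.CAR.Inst.LevelNB.hα₁ (W0 A) (resW0 A) M' q ι hι hq π₁ hπ₁)
    (Fermat.Agent.CAR.Inst.LevelNB.hβ₁ (W0 A) (resW0 A) M' q ι hι hq π₁ hπ₁)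
    (Fermat.Agent.CAR.Inst.LevelNB.hβ₂ (W0 A) (resW0 A) M' q ι hι hq π₂ hπ₂)
    hk Hc C Mc

set_option maxHeartbeats 1000000 in
set_option synthInstance.maxHeartbeats 400000 in
/-- **The core statement `Final.Core 12 11`, ROUTE B, from the contract of the finite chart**
given for every choice of the primitive root `ζ`, of the Atkin–Lehner involution `w` and of the
`W0`-algebra structure on `K0 · F_{M'q²}`. -/
theorem coreB_of_contractPkg
    (hpkg : ∀ {q : ℕ} (hq : q.Prime) (A : ValuationSubring Qb) (hA : A.LiesOverPrime q)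
      {ζ : Qb} (hζ : IsPrimitiveRoot ζ q) (M' : ℕ) [NeZero M'] [NeZero q] (hqM : ¬ q ∣ M')
      (_ : ∃ r : ℕ, r.Prime ∧ r ≡ 11 [MOD 12] ∧ r ∣ M')
      (_ : q = 2 → 3 ∣ M') (_ : q = 3 → 2 ∣ M')
      [Algebra ↥(W0 A) (FNK ↥(K0 A) (M' * q * q))]
      [IsScalarTower ↥(W0 A) ↥(K0 A) (FNK ↥(K0 A) (M' * q * q))]
      [IsAlgClosed (IsLocalRing.ResidueField A)]
      {w : ALAut (inertiaField A) (M' * q) q} (_ : IsAL3 M' q w),
      ContractPkgB hq A hA hζ M' hqM w) :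
    Fermat.Agent.CAR.Final.Core 12 11 := by
  intro M' q p _ _ hp hq hqp hqM hr h2 h3 A hA
  haveI : NeZero ((q : ℕ) : Qb) := ⟨Nat.cast_ne_zero.mpr hq.ne_zero⟩
  haveI hAC : IsAlgClosed (IsLocalRing.ResidueField A) :=
    Fermat.Agent.Lib.FF.CharP.isAlgClosed_residueField A
  obtain ⟨ζ, hζ⟩ := HasEnoughRootsOfUnity.exists_primitiveRoot Qb q
  obtain ⟨W, hW⟩ := AL3.exists_isAL_of_charZero (L := ↥(inertiaField A)) M' q hq hqM
  obtain ⟨w, hw⟩ := exists_isAL3 (L := ↥(inertiaField A)) M' q hq hqM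
  letI i1 : Algebra ↥(W0 A) (FNK ↥(K0 A) (M' * q)) :=
    ((algebraMap ↥(K0 A) (FNK ↥(K0 A) (M' * q))).comp (algebraMap ↥(W0 A) ↥(K0 A))).toAlgebra
  letI i2 : Algebra ↥(W0 A) (FNK ↥(K0 A) (M' * q * q)) :=
    ((algebraMap ↥(K0 A) (FNK ↥(K0 A) (M' * q * q))).comp
      (algebraMap ↥(W0 A) ↥(K0 A))).toAlgebra
  haveI t1 : IsScalarTower ↥(W0 A) ↥(K0 A) (FNK ↥(K0 A) (M' * q)) :=
    IsScalarTower.of_algebraMap_eq (fun _ => rfl)
  haveI t2 : IsScalarTower ↥(W0 A) ↥(K0 A) (FNK ↥(K0 A) (M' * q * q)) :=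
    IsScalarTower.of_algebraMap_eq (fun _ => rfl)
  obtain ⟨r, hr1, hr2, hr3, -, -⟩ := hr
  exact newInertiaK0At_of_contractPkg hq A hA hζ M' p hqM hp hqp ⟨r, hr1, hr2, hr3⟩ h2 h3 hW hw
    (hpkg hq A hA hζ M' hqM ⟨r, hr1, hr2, hr3⟩ h2 h3 hw)

end Fermat.Agent.CAR.WireB

end
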