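/-
CAR, SHADOW of row 400 (helper73), ROUTE B: **`Final.Core 12 11`, closed.**

`core12_11 : Final.Core 12 11` = `WireB.coreB_of_contractPkg` at helper38's record
`FinSh.exists_contract_fin` (`CAR/Inst/FinShadow.lean`): the objects `FinSh.red3`, `FinSh.redp`,
`FinSh.pi0`, `FinSh.pi2`, `FinSh.xJ` satisfy the seven identification lines of
`WireB.ContractPkgB` by `rfl`.

Route B = `WireB.chainB` (kill at a point + the chart theorem) with the triple relation taken
directly from the contract (`Glue.NodeData.triple_ratio_pow_of_contract`) and the three cusp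
records of the chart at infinity; it does not use `PointPkg`, `NodeRel`, `hptR`, `hptR'`.
-/
import Mathlib
import Fermat.Agent.CAR.WireBFinal
import Fermat.Agent.CAR.Inst.FinShadow

set_option autoImplicit false
set_option linter.unusedSectionVars false
set_option linter.style.haveILetI false
set_option synthInstance.maxHeartbeats 400000
set_option maxHeartbeats 1000000

noncomputable section

namespace Fermat.Agent.CAR.WireB

open IsLocalRing ModularCurve Fermat.Agent.ESJ.Jac Fermat.Agent.CAR.Formal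
  Fermat.Agent.CAR.Local Fermat.Agent.CAR.Local.Inst Fermat.Agent.CAR.Glob
  Fermat.Agent.CAR.Glob.Charts Fermat.Agent.CAR.K0 Fermat.Agent.CAR.V3
  Fermat.Agent.CAR.V3.MidRing Fermat.Agent.CAR.V3.MidRestrict Fermat.Agent.BAD.TwoVal
  Fermat.Agent.Lib.Red Fermat.Agent.S28 Fermat.Agent.ESJ.Cong.LevelGen

local notation "Qb" => AlgebraicClosure ℚ

/-- **The package `ContractPkgB` at the concrete objects**, from the record
`FinSh.exists_contract_fin`. -/
theorem contractPkgB {q : ℕ} (hq : q.Prime) (A : ValuationSubring Qb) (hA : A.LiesOverPrime q)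
    {ζ : Qb} (hζ : IsPrimitiveRoot ζ q) (M' : ℕ) [NeZero M'] [NeZero q] (hqM : ¬ q ∣ M')
    (h2 : q = 2 → 3 ∣ M') (h3 : q = 3 → 2 ∣ M')
    [Algebra ↥(W0 A) (FNK ↥(K0 A) (M' * q * q))]
    [IsScalarTower ↥(W0 A) ↥(K0 A) (FNK ↥(K0 A) (M' * q * q))]
    [IsAlgClosed (IsLocalRing.ResidueField A)]
    {w : ALAut (inertiaField A) (M' * q) q} (hw : IsAL3 M' q w) :
    ContractPkgB hq A hA hζ M' hqM w := by
  haveI := Fermat.Agent.CAR.Inst.FinSh.isFractionRing_R hq A hA M'
  obtain ⟨uB, u₁B, v₁B, hB, H⟩ :=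
    Fermat.Agent.CAR.Inst.FinSh.exists_contract_fin hq A hA hζ M' hqM hw h2 h3
  exact ⟨Fermat.Agent.CAR.Inst.FinSh.red3 hq A hA hζ M' hqM w,
    Fermat.Agent.CAR.Inst.FinSh.hred3 hq A hA hζ M' hqM w,
    Fermat.Agent.CAR.Inst.FinSh.hBO3 hq A hA hζ M' hqM hw,
    Fermat.Agent.CAR.Inst.FinSh.redp A M' (Fermat.Agent.CAR.Inst.FinSh.hMk hq A hA M' hqM),
    Fermat.Agent.CAR.Inst.FinSh.pi0 hq A M', Fermat.Agent.CAR.Inst.FinSh.pi2 hq A M',
    Fermat.Agent.CAR.Inst.FinSh.xJ A M', uB, u₁B, v₁B, hB, _, 12, q - 1,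
    fun _ => rfl, fun _ => rfl, fun _ => rfl, fun _ => rfl, fun _ => rfl, fun _ => rfl, rfl, H⟩

/-- **CAR-CORE, route B: `Final.Core 12 11`.** -/
theorem core12_11 : Fermat.Agent.CAR.Final.Core 12 11 :=
  coreB_of_contractPkg (fun hq A hA _ hζ M' _ _ hqM _ h2 h3 _ _ _ _ hw =>
    contractPkgB hq A hA hζ M' hqM h2 h3 hw)

end Fermat.Agent.CAR.WireB

end
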