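/-
CAR, SHADOW of row 400 (helper73), ROUTE B: **the chart at infinity at the concrete objects.**

The three cusp records (`V3BaseCusp`, `V3Cusp`, `V3CuspMid`) consumed by
`WireB.newInertiaK0At_W0_of_contract`, for the chart at infinity `chart W0 (J_0 J_2)⁻¹` of
`K0 · F_{M'q²}` and the three components `Core.O3`, for ANY family of residue maps `red` which
agrees pointwise with `redInf3`, `redMid` (series level), `redZero3`.
-/
import Mathlib
import Fermat.Agent.CAR.WireBInst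
import Fermat.Agent.CAR.Core.Plug
import Fermat.Agent.CAR.Inst.HMin3
import Fermat.Agent.CAR.Inst.CuspInst
import Fermat.Agent.CAR.Inst.ContractPull
import Fermat.Agent.CAR.Local.Inst.LiftCuspK0Closed

set_option autoImplicit false
set_option linter.unusedSectionVars false
set_option linter.style.haveILetI false
set_option synthInstance.maxHeartbeats 400000
set_option maxHeartbeats 1000000

noncomputable section

namespace Fermat.Agent.CAR.WireB

open IsLocalRing ModularCurve Fermat.Agent.ESJ.Jac Fermat.Agent.CAR.Formal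
  Fermat.Agent.CAR.Local Fermat.Agent.CAR.Local.Inst Fermat.Agent.CAR.Local.InstCusp
  Fermat.Agent.CAR.Glob Fermat.Agent.CAR.Glob.Charts Fermat.Agent.CAR.K0 Fermat.Agent.CAR.V3
  Fermat.Agent.CAR.V3.MidRing Fermat.Agent.CAR.V3.MidRestrict Fermat.Agent.BAD.TwoVal
  Fermat.Agent.Lib.Red Fermat.Agent.S28

local notation "Qb" => AlgebraicClosure ℚ

section CuspSide

variable {q : ℕ} (hq : q.Prime) (A : ValuationSubring Qb) (hA : A.LiesOverPrime q)
  {ζ : Qb} (hζ : IsPrimitiveRoot ζ q) (M' : ℕ) [NeZero M'] [NeZero q] (hqM : ¬ q ∣ M')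
  [Algebra ↥(W0 A) (FNK ↥(K0 A) (M' * q * q))]
  [IsScalarTower ↥(W0 A) ↥(K0 A) (FNK ↥(K0 A) (M' * q * q))]
  {w : ALAut (inertiaField A) (M' * q) q}

set_option maxHeartbeats 1600000 in
set_option synthInstance.maxHeartbeats 400000 in
/-- **The three cusp records of the chart at infinity at the concrete objects**, for any family
of residue maps agreeing pointwise with `redInf3`, `redMid`, `redZero3`. -/
theorem exists_cuspRecords (hw : IsAL3 M' q w) (h2 : q = 2 → 3 ∣ M') (h3 : q = 3 → 2 ∣ M')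
    (red : ∀ i, Core.O3 hq A hA hζ M' hqM w i →+*
      ↥(modularFunctionFieldFullC (IsLocalRing.ResidueField A) M'))
    (hred : ∀ i, ∀ y : Core.O3 hq A hA hζ M' hqM w i,
      red i y = 0 ↔ y ∈ maximalIdeal (Core.O3 hq A hA hζ M' hqM w i))
    (r0 : ∀ f : OInf3 (badSetup_W0 hq hA M' hqM), red 0 f = redInf3 (badSetup_W0 hq hA M' hqM) f)
    (r1 : ∀ f : OMid hq A hA hζ M' hqM (IsLocalRing.residue A),
      ((red 1 f : ↥(modularFunctionFieldFullC (IsLocalRing.ResidueField A) M')) :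
        LaurentSeries (IsLocalRing.ResidueField A)) =
        redMid hq A hA hζ M' hqM (IsLocalRing.residue A) f)
    (r2 : ∀ f : OZero3 (badSetup_W0 hq hA M' hqM) w,
      red 2 f = redZero3 (badSetup_W0 hq hA M' hqM) w f)
    (hR'V : ∀ i, ∀ r ∈ chart ↥(W0 A) (Core.xB A M' q)⁻¹, r ∈ Core.O3 hq A hA hζ M' hqM w i) :
    ∃ (y₀ y₁ y₂ y₃ : chart ↥(W0 A) (Core.xB A M' q)⁻¹) (ec : FNK ↥(K0 A) (M' * q * q))
      (m₀ nc Nc : ℕ) (yb g : ↥(modularFunctionFieldFullC (IsLocalRing.ResidueField A) M')),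
      V3BaseCusp (Core.O3 hq A hA hζ M' hqM w) red hred
        (fun i (a : chart ↥(W0 A) (Core.xB A M' q)⁻¹) => hR'V i a a.2)
        (algebraMap (W0 A) (chart ↥(W0 A) (Core.xB A M' q)⁻¹) ((q : ℕ) : W0 A)) yb ∧
      V3Cusp (Core.O3 hq A hA hζ M' hqM w) red
        (fun i (a : chart ↥(W0 A) (Core.xB A M' q)⁻¹) => hR'V i a a.2)
        (⟨(Core.xB A M' q)⁻¹, self_mem_chart (Core.xB A M' q)⁻¹⟩ :
          chart ↥(W0 A) (Core.xB A M' q)⁻¹) y₀ y₁ y₂ y₃ yb ∧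
      V3CuspMid (Core.O3 hq A hA hζ M' hqM w) red
        (fun i (a : chart ↥(W0 A) (Core.xB A M' q)⁻¹) => hR'V i a a.2)
        (algebraMap (W0 A) (chart ↥(W0 A) (Core.xB A M' q)⁻¹) ((q : ℕ) : W0 A)) y₁ y₂ ec m₀ nc Nc
        yb g := by
  have hB := badSetup_W0 hq hA M' hqM
  have hq₀ : ((q : ℕ) : W0 A) ≠ 0 := Nat.cast_ne_zero.mpr hq.ne_zero
  have hU := Fermat.Agent.CAR.V3.Restrict.isUnif_W0 hq hA
  have hqF : algebraMap (W0 A) (FNK ↥(K0 A) (M' * q * q)) ((q : ℕ) : W0 A)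
      = ((q : ℕ) : FNK ↥(K0 A) (M' * q * q)) := map_natCast _ q
  -- the pointwise bridges in the shapes of the bricks
  have hr0 : ∀ (f : FNK ↥(K0 A) (M' * q * q)) (hf : f ∈ Core.O3 hq A hA hζ M' hqM w 0)
      (hf' : f ∈ OInf3 (badSetup_W0 hq hA M' hqM)),
      red 0 ⟨f, hf⟩ = redInf3 (badSetup_W0 hq hA M' hqM) ⟨f, hf'⟩ := fun f _ hf' => r0 ⟨f, hf'⟩
  have hr1 : ∀ (f : FNK ↥(K0 A) (M' * q * q)) (hf : f ∈ Core.O3 hq A hA hζ M' hqM w 1)
      (hf' : f ∈ OMid hq A hA hζ M' hqM (IsLocalRing.residue A)),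
      ((red 1 ⟨f, hf⟩ : ↥(modularFunctionFieldFullC (IsLocalRing.ResidueField A) M')) :
        LaurentSeries (IsLocalRing.ResidueField A)) =
        redMid hq A hA hζ M' hqM (IsLocalRing.residue A) ⟨f, hf'⟩ := fun f _ hf' => r1 ⟨f, hf'⟩
  have hr2 : ∀ (f : FNK ↥(K0 A) (M' * q * q)) (hf : f ∈ Core.O3 hq A hA hζ M' hqM w 2)
      (hf' : f ∈ OZero3 (badSetup_W0 hq hA M' hqM) w),
      red 2 ⟨f, hf⟩ = redZero3 (badSetup_W0 hq hA M' hqM) w ⟨f, hf'⟩ := fun f _ hf' => r2 ⟨f, hf'⟩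
  have hr1' : ∀ (f : FNK ↥(K0 A) (M' * q * q)) (hf : f ∈ Core.O3 hq A hA hζ M' hqM w 1)
      (hf' : f ∈ OMid hq A hA hζ M' hqM (IsLocalRing.residue A)),
      red 1 ⟨f, hf⟩ = red 1 ⟨f, hf'⟩ := fun _ _ _ => rfl
  have hJb : ((xk (IsLocalRing.ResidueField A) M' :
      ↥(modularFunctionFieldFullC (IsLocalRing.ResidueField A) M')) :
      LaurentSeries (IsLocalRing.ResidueField A)) = TD.Jd (IsLocalRing.ResidueField A) M' :=
    coe_xk _ M'
  have hconst : ∀ a : W0 A, ∃ b : W0 A,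
      algebraMap (W0 A) (FNK ↥(K0 A) (M' * q * q)) b =
        CK (inertiaField A) (M' * q * q) (a : K0 A) := by
    intro a
    refine ⟨a, ?_⟩
    rw [IsScalarTower.algebraMap_apply (W0 A) (K0 A) (FNK ↥(K0 A) (M' * q * q))]
    exact Subtype.ext (by
      rw [coe_CK, Fermat.Agent.Lib.Red.C_eq_algebraMap]
      rfl)
  have hqB : algebraMap (chart ↥(W0 A) (Core.xB A M' q)⁻¹) (FNK ↥(K0 A) (M' * q * q))
      (algebraMap (W0 A) (chart ↥(W0 A) (Core.xB A M' q)⁻¹) ((q : ℕ) : W0 A))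
      = ((q : ℕ) : FNK ↥(K0 A) (M' * q * q)) := by
    rw [← IsScalarTower.algebraMap_apply, hqF]
  -- the records
  have C := Fermat.Agent.CAR.Inst.CuspInst.B.v3Cusp hq A hA hζ M' hqM
    (badSetup_W0 hq hA M' hqM) hw (red 1) r1 hJb ↥(W0 A) (Core.O3 hq A hA hζ M' hqM w) red
    (fun i (a : chart ↥(W0 A) (Core.xB A M' q)⁻¹) => hR'V i a a.2) rfl hr0 rfl hr1' rfl hr2
  obtain ⟨g, -, Mc⟩ := Fermat.Agent.CAR.Inst.CuspInst.B.exists_v3CuspMid hq A hA hζ M' hqM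
    (badSetup_W0 hq hA M' hqM) (red 1) r1 hJb ↥(W0 A) (Core.O3 hq A hA hζ M' hqM w) red
    (fun i (a : chart ↥(W0 A) (Core.xB A M' q)⁻¹) => hR'V i a a.2) rfl hr1' hred hconst
    (algebraMap (W0 A) (chart ↥(W0 A) (Core.xB A M' q)⁻¹) ((q : ℕ) : W0 A)) hqB
  have Hc := Fermat.Agent.CAR.Inst.Cusp.v3BaseCusp_chart ↥(K0 A) (M' * q * q)
    ((q : ℕ) : W0 A) hq₀ (Core.xB A M' q) (Core.O3 hq A hA hζ M' hqM w) red hred hR'V
    (xk (IsLocalRing.ResidueField A) M')⁻¹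
    (Fermat.Agent.CAR.Inst.HMin3.hqV3 hq A hA hζ M' hqM hw)
    (Fermat.Agent.CAR.Inst.HMin3.hmin3_inv hq A hA hζ M' hqM hw hR'V)
    (Fermat.Agent.CAR.Inst.HMin3.not_max3_inv hq A hA hζ M' hqM hw
      (fun i (a : chart ↥(W0 A) (Core.xB A M' q)⁻¹) => hR'V i a a.2))
    (fun z hz => by
      rw [hqF]
      exact Fermat.Agent.CAR.Inst.Pull.unif_inf (badSetup_W0 hq hA M' hqM) hU z hz)
    (fun z hz => by
      rw [hqF]
      exact Fermat.Agent.CAR.Inst.Pull.unif_zero (badSetup_W0 hq hA M' hqM) w hU z hz)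
    (Fermat.Agent.CAR.Local.Inst.LiftCuspK0.hlift_chart_K0 hq A hA M' hζ hqM
      (badSetup_W0 hq hA M' hqM) hw h2 h3 (Core.O3 hq A hA hζ M' hqM w) red
      (fun i (a : chart ↥(W0 A) (Core.xB A M' q)⁻¹) => hR'V i a a.2) hr0 hr1 hr2)
  exact ⟨_, _, _, _, _, _, _, _, _, g, Hc, C, Mc⟩

end CuspSide

end Fermat.Agent.CAR.WireB

end
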