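/-
CAR, SHADOW of row 400 (helper73): **WireB at the instance level** — route B down to the concrete
records, the twin of helper71's `Core.newInertiaK0At_W0_of_points`.

* `tripleRatio_of_contract` : the predicate `WireB.TripleRatio` at the triple point
  `Meet.pt H 1 Vs hVs` of a contract, from helper64's `NodeData.triple_ratio_pow_of_contract`
  (all binders literally his).
* `chainB_of_contract` : `WireB.chainB` with `hrat` (`NodeData.isRatPoint_pt`) and `htriple`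
  discharged.
* `newInertiaK0At_W0_of_contract` : **`NormBc.NewInertiaK0At (M' * q) q p (K0.inertiaField A)`**
  over `(K0 A, W0 A, resW0 A)` from
  - `D : NF.Data` (CAR-25), `hWA`, `hWC`;
  - the charts `chart W0 x`, `chart W0 x⁻¹` of a function `x` of nonzero order: `hRV`, `hR'V`,
    `hmin`, `hmin'` (CAR-33);
  - the contract `H` of the finite chart and `hell` (CAR-31, CAR-30);
  - the level-`N` block of `NodeData.triple_ratio_pow_of_contract` (CAR-35): the chart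
    `chart W0 xN`, `h1α h2α h1β h2β`, the residue maps `rA rC` and the four untwisted
    compatibilities, `hconst`, the (UNIQ) data `π₁ ψ zero_π₁ inf_π₁ p₀ p₁ hα₀ hα₁ hβ₁ hβ₂`, `hk`;
  - the three cusp records of the chart at infinity (CAR-34).
  The chart theorem, the horizontal hypothesis (`Inst.Hor.hHor_subalgebra`), the front end over
  `W0` and the chart-ring instances are discharged inside.
-/
import Mathlib
import Fermat.Agent.CAR.WireB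
import Fermat.Agent.CAR.Core.FrontK0
import Fermat.Agent.CAR.Glue.NodeKill
import Fermat.Agent.CAR.Inst.Cusp

set_option autoImplicit false

namespace Fermat.Agent.CAR.WireB

open IsLocalRing Fermat.Agent.CAR.Formal Fermat.Agent.CAR.Formal.NF Fermat.Agent.CAR.Local
  Fermat.Agent.CAR.Local.Inst Fermat.Agent.CAR.Local.InstCusp Fermat.Agent.CAR.Glue
  Fermat.Agent.CAR.Glue.NodeUnits Fermat.Agent.CAR.Inst.Hor Fermat.Agent.CAR.Glob.Charts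

/-! ### `TripleRatio` at the triple points of a contract -/

section Contract

variable {W k FN F : Type*} [CommRing W] [Field k] {res : W →+* k} [Field FN] [Field F]
  [CharZero FN] [Algebra W FN] [Algebra W F] (Φα Φβ : FN →+* F)
  (hΦα : ∀ w : W, Φα (algebraMap W FN w) = algebraMap W F w)
  (hΦβ : ∀ w : W, Φβ (algebraMap W FN w) = algebraMap W F w) {xN : FN} {x : F}
  [IsFractionRing (chart W xN) FN] [IsFractionRing (chart W x) F]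
  [IsIntegrallyClosed (chart W xN)] [IsNoetherianRing (chart W x)]
  {κ B' : Type*} [Field κ] [CommRing B'] [Algebra k κ]
  {O : Fin 3 → ValuationSubring F} {red : ∀ i, O i →+* κ}
  {hred : ∀ i, ∀ y : O i, red i y = 0 ↔ y ∈ maximalIdeal (O i)}
  {hBO : ∀ i, ∀ b : chart W x, algebraMap (chart W x) F b ∈ O i}
  {red' : B' →+* κ} {π₀ π₂ : B' →+* chart W x} {Dκ : κ → κ}
  {qW : W} {x' : B'} {u₀ u₁ v₁ h₀ : chart W x} {Db G : κ} {N e : ℕ}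

/-- **`TripleRatio` at the triple point over a supersingular place of a contract**: every binder
is literally one of helper64's `NodeData.triple_ratio_pow_of_contract`. -/
theorem tripleRatio_of_contract (hres : Function.Surjective res) {q n : ℕ} (hqn : q = n + 1)
    (H : Contract O red hred hBO red' π₀ π₂ Dκ (algebraMap W (chart W x) qW) x' u₀ u₁ v₁ h₀ Db G
      N e)
    {PA PC : ValuationSubring FN} {ϖN : FN} {ϖ d : F}
    (D : NF.Data Φα Φβ q PA PC (O 0) (O 1) (O 2) ϖN ϖ d)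
    (h1α : Φα xN ∈ chart W x) (h2α : IsIntegral (Algebra.adjoin W {Φα xN}) x)
    (h1β : Φβ xN ∈ chart W x) (h2β : IsIntegral (Algebra.adjoin W {Φβ xN}) x)
    (rA : PA →+* κ) (hrA : ∀ y : PA, rA y = 0 ↔ y ∈ maximalIdeal PA)
    (rC : PC →+* κ) (hrC : ∀ y : PC, rC y = 0 ↔ y ∈ maximalIdeal PC)
    (hcαa : ∀ (y : FN) (hy : y ∈ PA) (hy' : Φα y ∈ O 0), red 0 ⟨Φα y, hy'⟩ = rA ⟨y, hy⟩)
    (hcαb : ∀ (y : FN) (hy : y ∈ PA) (hy' : Φα y ∈ O 1), red 1 ⟨Φα y, hy'⟩ = rA ⟨y, hy⟩)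
    (hcβc : ∀ (y : FN) (hy : y ∈ PC) (hy' : Φβ y ∈ O 2), red 2 ⟨Φβ y, hy'⟩ = rC ⟨y, hy⟩)
    (hcβb : ∀ (y : FN) (hy : y ∈ PC) (hy' : Φβ y ∈ O 1), red 1 ⟨Φβ y, hy'⟩ = rC ⟨y, hy⟩)
    (i₀ : Fin 3)
    (hconst : ∀ w : W, redOn (O i₀) (red i₀) (hBO i₀) (algebraMap W (chart W x) w)
      = algebraMap k κ (res w))
    (π₁ : B' →+* chart W x) (ψ : κ →+* κ) {nψ : ℕ} (hnψ : nψ ≠ 0)
    (hψ : ∀ z : κ, ∃ z' : κ, ψ z' = z ^ nψ)
    (zero_π₁ : ∀ y : B', redOn (O 2) (red 2) (hBO 2) (π₁ y) = ψ (red' y))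
    (inf_π₁ : ∀ y : B', redOn (O 0) (red 0) (hBO 0) (π₁ y) = ψ (red' y))
    (p₀ p₁ : B' →+* chart W xN)
    (hα₀ : ∀ y, NodeInst.chartMap Φα hΦα h1α (p₀ y) = π₀ y)
    (hα₁ : ∀ y, NodeInst.chartMap Φα hΦα h1α (p₁ y) = π₁ y)
    (hβ₁ : ∀ y, NodeInst.chartMap Φβ hΦβ h1β (p₀ y) = π₁ y)
    (hβ₂ : ∀ y, NodeInst.chartMap Φβ hΦβ h1β (p₁ y) = π₂ y)
    (Vs : ValuationSubring κ) (hVs : IsFinPlace red' Vs) (hDb : Db ∈ Vs.nonunits)
    (hk : ∀ v ∈ Vs, ∃ c : k, v - algebraMap k κ c ∈ Vs.nonunits)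
    (m : ℕ) (hm : m ≠ 0) :
    TripleRatio res n m Φα Φβ O (pointRing F (Meet.pt H 1 Vs hVs)).toSubring
      (fun i => compositeSubring (O i) (red i) (hred i) Vs) := by
  intro f u h gα gβ cα cβ a b c γα₁ γα₂ γβ₁ γβ₂ _ hu hu' hf hh hcα hgα hNα hcβ hgβ hNβ ha hb hc
    ha0 hb0 hc0 hγα₁ hγα₂ hγβ₁ hγβ₂
  obtain ⟨h1, h2, h3⟩ := NodeKill.algebraMap_unit_mem_pointRing (FN := FN)
    ((Meet.pt H 1 Vs hVs).comap (NodeInst.chartMap Φα hΦα h1α)) hcα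
  obtain ⟨h1', h2', h3'⟩ := NodeKill.algebraMap_unit_mem_pointRing (FN := FN)
    ((Meet.pt H 1 Vs hVs).comap (NodeInst.chartMap Φβ hΦβ h1β)) hcβ
  exact (NodeData.triple_ratio_pow_of_contract Φα Φβ hΦα hΦβ hres hqn H D h1α h2α h1β h2β rA hrA
    rC hrC hcαa hcαb hcβc hcβb i₀ hconst π₁ ψ hnψ hψ zero_π₁ inf_π₁ p₀ p₁ hα₀ hα₁ hβ₁ hβ₂ Vs hVs
    hDb hk hm hu hu' hf hh h1 h2 h3 hgα hNα h1' h2' h3' hgβ hNβ ha hb hc ha0 hb0 hc0 hγα₁ hγα₂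
    hγβ₁ hγβ₂).1

end Contract

/-! ### The chain over the inertia field -/

section K0Level

open AlgebraicCurve ModularCurve Fermat.Agent.ESJ Fermat.Agent.ESJ.Jac Fermat.Agent.BAD.Dict
open Fermat.Agent.ESJ.Dict.Bc Fermat.Agent.CAR.Formal.Descent Fermat.Agent.CAR.V3.RestrictNF
open Fermat.Agent.CAR.K0

local notation "Qb" => AlgebraicClosure ℚ

set_option maxHeartbeats 1600000 in
set_option synthInstance.maxHeartbeats 400000 in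
/-- **`NewInertiaK0At` over the inertia field, ROUTE B, from the concrete records** (see the
file header): the twin of `Core.newInertiaK0At_W0_of_points` which consumes the `Contract` of the
finite chart, the level-`N` block of `NodeData.triple_ratio_pow_of_contract` and the three cusp
records directly (no `PointPkg`, no `NodeRel`). -/
theorem newInertiaK0At_W0_of_contract {q : ℕ} (hq : q.Prime) (A : ValuationSubring Qb)
    (hA : A.LiesOverPrime q) (M' p : ℕ) [NeZero M'] [NeZero q] (hp : p.Prime) (hqp : q ≠ p)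
    [Algebra ↥(W0 A) (FNK ↥(K0 A) (M' * q))] [Algebra ↥(W0 A) (FNK ↥(K0 A) (M' * q * q))]
    [IsScalarTower ↥(W0 A) ↥(K0 A) (FNK ↥(K0 A) (M' * q))]
    [IsScalarTower ↥(W0 A) ↥(K0 A) (FNK ↥(K0 A) (M' * q * q))]
    (PA PC : ValuationSubring (FNK ↥(K0 A) (M' * q)))
    (O : Fin 3 → ValuationSubring (FNK ↥(K0 A) (M' * q * q)))
    (ϖ d : FNK ↥(K0 A) (M' * q * q))
    (D : NF.Data (alphaStar ↥(K0 A) M' q) (betaStar ↥(K0 A) M' q) q PA PC (O 0) (O 1) (O 2)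
      ((q : ℕ) : FNK ↥(K0 A) (M' * q)) ϖ d)
    (hWA : ∀ w : W0 A, algebraMap (W0 A) (FNK ↥(K0 A) (M' * q)) w ∈ PA)
    (hWC : ∀ w : W0 A, algebraMap (W0 A) (FNK ↥(K0 A) (M' * q)) w ∈ PC)
    -- the two charts
    (x : FNK ↥(K0 A) (M' * q * q)) (hx : (x : LaurentSeries ↥(K0 A)).order ≠ 0)
    (hRV : ∀ i, ∀ r ∈ chart ↥(W0 A) x, r ∈ O i)
    (hR'V : ∀ i, ∀ r ∈ chart ↥(W0 A) x⁻¹, r ∈ O i)
    (hmin : ∀ 𝔮 ∈ (Ideal.span {algebraMap (W0 A) (chart ↥(W0 A) x)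
        ((q : ℕ) : W0 A)}).minimalPrimes,
      ∃ i, 𝔮 = Local.centre (O i) (fun a : chart ↥(W0 A) x => hRV i a a.2))
    (hmin' : ∀ 𝔮 ∈ (Ideal.span {algebraMap (W0 A) (chart ↥(W0 A) x⁻¹)
        ((q : ℕ) : W0 A)}).minimalPrimes,
      ∃ i, 𝔮 = Local.centre (O i) (fun a : chart ↥(W0 A) x⁻¹ => hR'V i a a.2))
    -- the contract of the finite chart
    [IsFractionRing (chart ↥(W0 A) x) (FNK ↥(K0 A) (M' * q * q))]
    {κ B' : Type*} [Field κ] [CommRing B'] [Algebra (IsLocalRing.ResidueField A) κ]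
    {red : ∀ i, O i →+* κ}
    {hred : ∀ i, ∀ y : O i, red i y = 0 ↔ y ∈ maximalIdeal (O i)}
    {red' : B' →+* κ} {π₀ π₂ : B' →+* chart ↥(W0 A) x} {Dκ : κ → κ}
    {x' : B'} {u₀ u₁ v₁ h₀ : chart ↥(W0 A) x} {Db G : κ} {N e : ℕ}
    (H : Contract O red hred (fun i (a : chart ↥(W0 A) x) => hRV i a a.2) red' π₀ π₂ Dκ
      (algebraMap (W0 A) (chart ↥(W0 A) x) ((q : ℕ) : W0 A)) x' u₀ u₁ v₁ h₀ Db G N e)
    (hell : ∀ Vs : ValuationSubring κ, IsFinPlace red' Vs →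
      ∃ y : B', Dκ (red' y) ≠ 0 ∧ Dκ (red' y) ^ 12 * G ∉ Vs.nonunits)
    -- the level-`N` block (binders of `NodeData.triple_ratio_pow_of_contract`)
    (hΦα : ∀ w : W0 A, alphaStar ↥(K0 A) M' q (algebraMap (W0 A) (FNK ↥(K0 A) (M' * q)) w)
      = algebraMap (W0 A) (FNK ↥(K0 A) (M' * q * q)) w)
    (hΦβ : ∀ w : W0 A, betaStar ↥(K0 A) M' q (algebraMap (W0 A) (FNK ↥(K0 A) (M' * q)) w)
      = algebraMap (W0 A) (FNK ↥(K0 A) (M' * q * q)) w)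
    {xN : FNK ↥(K0 A) (M' * q)}
    [IsFractionRing (chart ↥(W0 A) xN) (FNK ↥(K0 A) (M' * q))]
    [IsIntegrallyClosed (chart ↥(W0 A) xN)]
    (h1α : alphaStar ↥(K0 A) M' q xN ∈ chart ↥(W0 A) x)
    (h2α : IsIntegral (Algebra.adjoin ↥(W0 A) {alphaStar ↥(K0 A) M' q xN}) x)
    (h1β : betaStar ↥(K0 A) M' q xN ∈ chart ↥(W0 A) x)
    (h2β : IsIntegral (Algebra.adjoin ↥(W0 A) {betaStar ↥(K0 A) M' q xN}) x)
    (rA : PA →+* κ) (hrA : ∀ y : PA, rA y = 0 ↔ y ∈ maximalIdeal PA)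
    (rC : PC →+* κ) (hrC : ∀ y : PC, rC y = 0 ↔ y ∈ maximalIdeal PC)
    (hcαa : ∀ (y : FNK ↥(K0 A) (M' * q)) (hy : y ∈ PA)
      (hy' : alphaStar ↥(K0 A) M' q y ∈ O 0), red 0 ⟨alphaStar ↥(K0 A) M' q y, hy'⟩ = rA ⟨y, hy⟩)
    (hcαb : ∀ (y : FNK ↥(K0 A) (M' * q)) (hy : y ∈ PA)
      (hy' : alphaStar ↥(K0 A) M' q y ∈ O 1), red 1 ⟨alphaStar ↥(K0 A) M' q y, hy'⟩ = rA ⟨y, hy⟩)
    (hcβc : ∀ (y : FNK ↥(K0 A) (M' * q)) (hy : y ∈ PC)
      (hy' : betaStar ↥(K0 A) M' q y ∈ O 2), red 2 ⟨betaStar ↥(K0 A) M' q y, hy'⟩ = rC ⟨y, hy⟩)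
    (hcβb : ∀ (y : FNK ↥(K0 A) (M' * q)) (hy : y ∈ PC)
      (hy' : betaStar ↥(K0 A) M' q y ∈ O 1), red 1 ⟨betaStar ↥(K0 A) M' q y, hy'⟩ = rC ⟨y, hy⟩)
    (i₀ : Fin 3)
    (hconst : ∀ w : W0 A, redOn (O i₀) (red i₀) (fun a : chart ↥(W0 A) x => hRV i₀ a a.2)
      (algebraMap (W0 A) (chart ↥(W0 A) x) w)
        = algebraMap (IsLocalRing.ResidueField A) κ (resW0 A w))
    (π₁ : B' →+* chart ↥(W0 A) x) (ψ : κ →+* κ) {nψ : ℕ} (hnψ : nψ ≠ 0)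
    (hψ : ∀ z : κ, ∃ z' : κ, ψ z' = z ^ nψ)
    (zero_π₁ : ∀ y : B', redOn (O 2) (red 2) (fun a : chart ↥(W0 A) x => hRV 2 a a.2) (π₁ y)
      = ψ (red' y))
    (inf_π₁ : ∀ y : B', redOn (O 0) (red 0) (fun a : chart ↥(W0 A) x => hRV 0 a a.2) (π₁ y)
      = ψ (red' y))
    (p₀ p₁ : B' →+* chart ↥(W0 A) xN)
    (hα₀ : ∀ y, NodeInst.chartMap (alphaStar ↥(K0 A) M' q) hΦα h1α (p₀ y) = π₀ y)
    (hα₁ : ∀ y, NodeInst.chartMap (alphaStar ↥(K0 A) M' q) hΦα h1α (p₁ y) = π₁ y)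
    (hβ₁ : ∀ y, NodeInst.chartMap (betaStar ↥(K0 A) M' q) hΦβ h1β (p₀ y) = π₁ y)
    (hβ₂ : ∀ y, NodeInst.chartMap (betaStar ↥(K0 A) M' q) hΦβ h1β (p₁ y) = π₂ y)
    (hk : ∀ Vs : ValuationSubring κ, IsFinPlace red' Vs →
      ∀ v ∈ Vs, ∃ c : IsLocalRing.ResidueField A,
        v - algebraMap (IsLocalRing.ResidueField A) κ c ∈ Vs.nonunits)
    -- the chart at infinity
    {y₀ y₁ y₂ y₃ : chart ↥(W0 A) x⁻¹} {ec : FNK ↥(K0 A) (M' * q * q)} {m₀ nc Nc : ℕ} {yb g : κ}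
    (Hc : V3BaseCusp O red hred (fun i (a : chart ↥(W0 A) x⁻¹) => hR'V i a a.2)
      (algebraMap (W0 A) (chart ↥(W0 A) x⁻¹) ((q : ℕ) : W0 A)) yb)
    (C : V3Cusp O red (fun i (a : chart ↥(W0 A) x⁻¹) => hR'V i a a.2)
      (⟨x⁻¹, self_mem_chart x⁻¹⟩ : chart ↥(W0 A) x⁻¹) y₀ y₁ y₂ y₃ yb)
    (Mc : V3CuspMid O red (fun i (a : chart ↥(W0 A) x⁻¹) => hR'V i a a.2)
      (algebraMap (W0 A) (chart ↥(W0 A) x⁻¹) ((q : ℕ) : W0 A)) y₁ y₂ ec m₀ nc Nc yb g) :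
    NormBc.NewInertiaK0At (M' * q) q p (K0.inertiaField A) := by
  have := Fermat.Agent.Lib.FF.CharP.isAlgClosed_residueField A
  have := isDiscreteValuationRing_W0 hq hA
  obtain ⟨p', hpp⟩ := Core.frontK0_inv hq hA hp hqp
  obtain ⟨-, iN, iC⟩ := Inst.Cusp.chart_instances (W := ↥(W0 A)) ↥(K0 A) (M' * q * q) x hx
  have hD : NF.Data (alphaStar ↥(K0 A) M' q) (betaStar ↥(K0 A) M' q) q PA PC (O 0) (O 1) (O 2)
      (algebraMap (W0 A) (FNK ↥(K0 A) (M' * q)) ((q : ℕ) : W0 A)) ϖ d := by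
    rw [map_natCast]
    exact D
  have hres := resW0_surjective hq hA
  have hq1 := hq.one_lt
  have hqn : q = (q - 1) + 1 := by omega
  -- `ϖ` is the image of `q₀`
  have hϖ : algebraMap (W0 A) (FNK ↥(K0 A) (M' * q * q)) ((q : ℕ) : W0 A) = ϖ := by
    rw [← hD.αϖ]
    exact (hΦα _).symm
  have hq₀ : ((q : ℕ) : W0 A) ≠ 0 := Nat.cast_ne_zero.mpr hq.ne_zero
  have hcop : ∀ n : ℕ, Nat.Coprime (p ^ n) q := fun n =>
    Nat.Coprime.pow_left n ((Nat.coprime_primes hp hq).mpr (Ne.symm hqp))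
  refine ⟨(q - 1) * (q + 1) * ((q - 1) * (q + 1)), ?_, ?_⟩
  · have h1 : 0 < q - 1 := Nat.sub_pos_of_lt hq1
    positivity
  · intro n f hf0 hDv hα hβ
    obtain ⟨a, ga, ha, -, hNα⟩ := hα
    obtain ⟨b, gb, hb, -, hNβ⟩ := hβ
    obtain ⟨Dv, hDv⟩ := hDv
    have hm : p ^ n ≠ 0 := pow_ne_zero n hp.ne_zero
    have hmm : ((p ^ n : ℕ) : W0 A) * p' ^ n = 1 := by
      rw [Nat.cast_pow, ← mul_pow, hpp, one_pow]
    exact chainB (resW0 A) hres ((q : ℕ) : W0 A) (Core.frontK0_hker hq hA) Core.frontK0_hunit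
      (Core.frontK0_hK0 hq hA) (p ^ n) q (hcop n) (p' ^ n) hmm (alphaStar ↥(K0 A) M' q)
      (betaStar ↥(K0 A) M' q) (fun a => (heckeAlphaBar ↥(K0 A) (M' * q) q).commutes a)
      (fun a => (heckeBetaBar ↥(K0 A) (M' * q) q).commutes a) PA PC O ϖ d hD hWA hWC
      (chart ↥(W0 A) x) H hell
      (fun Vs hVs hDb => NodeData.isRatPoint_pt hres H i₀ hconst Vs hVs hDb (hk Vs hVs) 1)
      (fun Vs hVs hDb => tripleRatio_of_contract (alphaStar ↥(K0 A) M' q)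
        (betaStar ↥(K0 A) M' q) hΦα hΦβ hres hqn H hD h1α h2α h1β h2β rA hrA rC hrC hcαa hcαb
        hcβc hcβb i₀ hconst π₁ ψ hnψ hψ zero_π₁ inf_π₁ p₀ p₁ hα₀ hα₁ hβ₁ hβ₂ Vs hVs hDb
        (hk Vs hVs) (p ^ n) hm)
      (chart ↥(W0 A) x⁻¹) (fun Q => (⟨x⁻¹, self_mem_chart x⁻¹⟩ : chart ↥(W0 A) x⁻¹) ∈ Q)
      (fun f' hf1 hhor => Inst.Cusp.hlocal'_cusp_FNK ↥(K0 A) (M' * q * q) ((q : ℕ) : W0 A)
        (p ^ n) (p' ^ n) hmm x hx O hR'V Hc C Mc f' hf1 hhor)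
      (fun f' hf1 hlocal hlocal' => exists_eq_const_mul_pow_of_charts_FNK ↥(K0 A) (M' * q * q)
        ((q : ℕ) : W0 A) hq₀ (p ^ n) (p' ^ n) hmm x hx O hRV hR'V
        (fun i => hϖ ▸ Core.unif_mem_nonunits_of_data hD i) hmin hmin' (q - 1)
        (fun i z hz => hϖ ▸ Core.pow_div_unif_mem_of_data hD i z hz) f' hf1 hlocal hlocal')
      f hf0
      (Inst.Hor.hHor_subalgebra hq hA (M' * q * q) (chart ↥(W0 A) x) ((q : ℕ) : W0 A) rfl hDv)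
      (Inst.Hor.hHor_subalgebra hq hA (M' * q * q) (chart ↥(W0 A) x⁻¹) ((q : ℕ) : W0 A) rfl hDv)
      ⟨a, ga, ha, hNα⟩ ⟨b, gb, hb, hNβ⟩

end K0Level

end Fermat.Agent.CAR.WireB
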